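import Mathlib

set_option autoImplicit false

/-!
Abstract linear algebra behind the Atkin-Lehner main lemma.
-/

namespace Fermat.Agent.AL

open Finset

noncomputable section

section Avg

variable {G : Type*} [Group G] [Finite G] {V : Type*} [AddCommGroup V] [Module ℂ V]
  (ρ : G →* Module.End ℂ V)

/-- averaging over a subgroup -/
def avg (L : Subgroup G) : Module.End ℂ V :=
  letI := Fintype.ofFinite L
  (Nat.card L : ℂ)⁻¹ • ∑ x : L, ρ x

theorem avg_apply (L : Subgroup G) [Fintype L] (v : V) :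
    avg ρ L v = (Nat.card L : ℂ)⁻¹ • ∑ x : L, ρ x v := by
  rw [avg]
  simp only [LinearMap.smul_apply, LinearMap.sum_apply]
  congr 1
  exact Finset.sum_congr (by ext; simp) fun _ _ ↦ rfl

theorem rho_avg {L : Subgroup G} {y : G} (hy : y ∈ L) (v : V) : ρ y (avg ρ L v) = avg ρ L v := by
  classical
  letI := Fintype.ofFinite L
  rw [avg_apply, map_smul, map_sum]
  congr 1
  have : ∀ x : L, ρ y (ρ x v) = ρ (((⟨y, hy⟩ : L) * x : L) : G) v := fun x ↦ by
    rw [Subgroup.coe_mul, map_mul]; rfl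
  rw [Finset.sum_congr rfl fun x _ ↦ this x]
  exact Equiv.sum_comp (Equiv.mulLeft (⟨y, hy⟩ : L)) fun x ↦ ρ (x : G) v

theorem avg_of_fixed {L : Subgroup G} {v : V} (h : ∀ y ∈ L, ρ y v = v) : avg ρ L v = v := by
  letI := Fintype.ofFinite L
  have h' : ∀ x : L, ρ (x : G) v = v := fun x ↦ h _ x.2
  rw [avg_apply, Finset.sum_congr rfl fun x _ ↦ h' x, Finset.sum_const, Finset.card_univ,
    ← Nat.card_eq_fintype_card, ← Nat.cast_smul_eq_nsmul ℂ, smul_smul, inv_mul_cancel₀, one_smul]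
  exact_mod_cast Nat.card_pos.ne'

theorem avg_commute {L : Subgroup G} {T : Module.End ℂ V} (h : ∀ x ∈ L, Commute (ρ x) T) :
    Commute (avg ρ L) T := by
  letI := Fintype.ofFinite L
  rw [avg]
  exact Commute.smul_left (Commute.sum_left _ _ _ fun (x : L) _ ↦ h _ x.2) _

theorem rho_avg_comm {L : Subgroup G} {h : G} (hL : ∀ x ∈ L, h * x * h⁻¹ ∈ L)
    (v : V) : ρ h (avg ρ L v) = avg ρ L (ρ h v) := by
  classical
  letI := Fintype.ofFinite L
  rw [avg_apply, avg_apply, map_smul, map_sum]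
  congr 1
  have hinj : Function.Injective (fun x : L ↦ (⟨h * x * h⁻¹, hL x x.2⟩ : L)) := by
    intro x y hxy
    have := congrArg Subtype.val hxy
    simpa using this
  let e : L ≃ L := Equiv.ofBijective _ (Finite.injective_iff_bijective.mp hinj)
  rw [← Equiv.sum_comp e fun x ↦ ρ (x : G) (ρ h v)]
  refine Finset.sum_congr rfl fun x _ ↦ ?_
  have he : ((e x : L) : G) = h * x * h⁻¹ := rfl
  rw [he, ← Module.End.mul_apply, ← Module.End.mul_apply, ← map_mul, ← map_mul]
  congr 2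
  group

end Avg

section Cyc

variable {V : Type*} [AddCommGroup V] [Module ℂ V]

/-- averaging over the cyclic group generated by `τ`, where `τ ^ n = 1` -/
def cyc (τ : Module.End ℂ V) (n : ℕ) : Module.End ℂ V := (n : ℂ)⁻¹ • ∑ j ∈ range n, τ ^ j

theorem tau_cyc {τ : Module.End ℂ V} {n : ℕ} (h : τ ^ n = 1) : τ * cyc τ n = cyc τ n := by
  rw [cyc, mul_smul_comm, Finset.mul_sum]
  congr 1
  have h1 : ∑ j ∈ range n, τ * τ ^ j = ∑ j ∈ range n, τ ^ (j + 1) :=
    Finset.sum_congr rfl fun j _ ↦ (pow_succ' τ j).symm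
  rw [h1]
  have h2 := Finset.sum_range_succ (fun j ↦ τ ^ j) n
  have h3 := Finset.sum_range_succ' (fun j ↦ τ ^ j) n
  rw [h2, h, pow_zero] at h3
  exact (add_right_cancel h3).symm

theorem cyc_commute {τ : Module.End ℂ V} {n : ℕ} {T : Module.End ℂ V} (h : Commute τ T) :
    Commute (cyc τ n) T :=
  Commute.smul_left (Commute.sum_left _ _ _ fun j _ ↦ h.pow_left j) _

theorem fixed_of_cyc {τ : Module.End ℂ V} {n : ℕ} (h : τ ^ n = 1) {v : V} (hv : cyc τ n v = v) :
    τ v = v := by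
  conv_lhs => rw [← hv]
  rw [← Module.End.mul_apply, tau_cyc h, hv]

end Cyc

/-- iterated depletion -/
def dep {V : Type*} [AddCommGroup V] [Module ℂ V] {ι : Type*} (e : ι → Module.End ℂ V) :
    List ι → Module.End ℂ V
  | [] => 1
  | i :: l => (1 - e i) * dep e l

theorem dep_commute {V : Type*} [AddCommGroup V] [Module ℂ V] {ι : Type*}
    (e : ι → Module.End ℂ V) (l : List ι) {T : Module.End ℂ V} (h : ∀ i ∈ l, Commute (e i) T) :
    Commute (dep e l) T := by
  induction l with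
  | nil => exact Commute.one_left _
  | cons i l ih =>
    rw [dep]
    refine Commute.mul_left ((Commute.one_left _).sub_left (h i (by simp))) (ih fun j hj ↦ h j ?_)
    simp [hj]

section Main

variable {G : Type*} [Group G] [Finite G] {V : Type*} [AddCommGroup V] [Module ℂ V]
  (ρ : G →* Module.End ℂ V)

theorem main_abstract {ι : Type*} (l : List ι) (hl : l.Nodup) (t : ι → G) (n : ι → ℕ)
    (ht : ∀ i ∈ l, t i ^ n i = 1) (L : ι → Subgroup G) (H : Subgroup G)
    (htL : ∀ i ∈ l, t i ∈ L i)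
    (hcomm : ∀ i ∈ l, ∀ j ∈ l, i ≠ j → ∀ x ∈ L i, ∀ y ∈ L j, Commute x y)
    (hgen : ∀ i ∈ l, L i ≤ Subgroup.closure (insert (t i) ((H ⊓ L i : Subgroup G) : Set G)))
    (hnorm : ∀ i ∈ l, ∀ h ∈ H, ∀ x ∈ L i, h * x * h⁻¹ ∈ L i)
    (v : V) (hv : ∀ h ∈ H, ρ h v = v) (hdep : dep (fun i ↦ cyc (ρ (t i)) (n i)) l v = 0) :
    ∃ w : ι → V, v = (l.map w).sum ∧
      ∀ i ∈ l, (∀ h ∈ H, ρ h (w i) = w i) ∧ ρ (t i) (w i) = w i := by
  induction l generalizing v with
  | nil =>
    refine ⟨fun _ ↦ 0, ?_, by simp⟩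
    simpa [dep] using hdep
  | cons i l ih =>
    rw [List.nodup_cons] at hl
    have hmem : i ∈ i :: l := by simp
    have hsub : ∀ j ∈ l, j ∈ i :: l := fun j hj ↦ by simp [hj]
    have hne : ∀ j ∈ l, i ≠ j := fun j hj h ↦ hl.1 (h ▸ hj)
    set u := dep (fun i ↦ cyc (ρ (t i)) (n i)) l v with hu
    have hτ : ρ (t i) ^ n i = 1 := by rw [← map_pow, ht i hmem, map_one]
    -- `u` is fixed by `t i`
    have h1 : ρ (t i) u = u := by
      apply fixed_of_cyc hτ
      have : u - cyc (ρ (t i)) (n i) u = 0 := hdep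
      exact (sub_eq_zero.mp this).symm
    -- `u` is fixed by `H ⊓ L i`
    have hc : ∀ x ∈ L i, Commute (dep (fun i ↦ cyc (ρ (t i)) (n i)) l) (ρ x) := by
      intro x hx
      refine dep_commute _ _ fun j hj ↦ cyc_commute ?_
      exact ((hcomm i hmem j (hsub j hj) (hne j hj) x hx _ (htL j (hsub j hj))).map ρ).symm
    have h2 : ∀ h ∈ H ⊓ L i, ρ h u = u := by
      intro h hh
      rw [hu, ← Module.End.mul_apply, ← (hc h hh.2).eq, Module.End.mul_apply, hv h hh.1]
    have h3 : ∀ x ∈ L i, ρ x u = u := by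
      intro x hx
      have hx' := hgen i hmem hx
      refine Subgroup.closure_induction (p := fun x _ ↦ ρ x u = u) ?_ ?_ ?_ ?_ hx'
      · intro y hy
        rcases hy with rfl | hy
        · exact h1
        · exact h2 y hy
      · rw [map_one]; rfl
      · intro a b _ _ ha hb
        rw [map_mul, Module.End.mul_apply, hb, ha]
      · intro a _ ha
        have h4 : ρ a⁻¹ (ρ a u) = u := by
          rw [← Module.End.mul_apply, ← map_mul, inv_mul_cancel, map_one]; rfl
        rwa [ha] at h4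
    have h4 : avg ρ (L i) u = u := avg_of_fixed ρ h3
    -- `avg (L i) v` is `H`-fixed
    have h5 : ∀ w : V, (∀ h ∈ H, ρ h w = w) → ∀ h ∈ H, ρ h (avg ρ (L i) w) = avg ρ (L i) w := by
      intro w hw h hh
      rw [rho_avg_comm ρ (hnorm i hmem h hh), hw h hh]
    have h6 : dep (fun i ↦ cyc (ρ (t i)) (n i)) l (v - avg ρ (L i) v) = 0 := by
      have hc' : Commute (dep (fun i ↦ cyc (ρ (t i)) (n i)) l) (avg ρ (L i)) :=
        (avg_commute ρ fun x hx ↦ (hc x hx).symm).symm
      rw [map_sub, ← Module.End.mul_apply, hc'.eq, Module.End.mul_apply, ← hu, h4, sub_self]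
    obtain ⟨w, hw1, hw2⟩ := ih hl.2 (fun j hj ↦ ht j (hsub j hj)) (fun j hj ↦ htL j (hsub j hj))
      (fun a ha b hb ↦ hcomm a (hsub a ha) b (hsub b hb)) (fun j hj ↦ hgen j (hsub j hj))
      (fun j hj ↦ hnorm j (hsub j hj)) (v - avg ρ (L i) v)
      (fun h hh ↦ by rw [map_sub, h5 v hv h hh, hv h hh]) h6
    classical
    refine ⟨fun j ↦ if j = i then avg ρ (L i) v else w j, ?_, ?_⟩
    · rw [List.map_cons, List.sum_cons, if_pos rfl]
      have : l.map (fun j ↦ if j = i then avg ρ (L i) v else w j) = l.map w :=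
        List.map_congr_left fun j hj ↦ if_neg (hne j hj).symm
      rw [this, ← hw1]
      abel
    · intro j hj
      rcases List.mem_cons.mp hj with rfl | hj
      · simp only [if_true]
        exact ⟨h5 v hv, rho_avg ρ (htL _ hmem) v⟩
      · simp only [if_neg (hne j hj).symm]
        exact hw2 j hj

end Main

end

end Fermat.Agent.AL
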