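import Mathlib
import Fermat.Agent.AL.Abstract

set_option autoImplicit false

/-!
Group theory in `SL(2, ℤ)` behind the Atkin-Lehner main lemma.
-/

namespace Fermat.Agent.AL

open Finset CongruenceSubgroup Matrix
open scoped MatrixGroups

noncomputable section

theorem det_eq (γ : SL(2, ℤ)) : γ 0 0 * γ 1 1 - γ 0 1 * γ 1 0 = 1 := by
  have := γ.det_coe
  rwa [Matrix.det_fin_two] at this

theorem mul_00 (a b : SL(2, ℤ)) : (a * b) 0 0 = a 0 0 * b 0 0 + a 0 1 * b 1 0 := by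
  simp [Matrix.mul_apply, Fin.sum_univ_two]
theorem mul_01 (a b : SL(2, ℤ)) : (a * b) 0 1 = a 0 0 * b 0 1 + a 0 1 * b 1 1 := by
  simp [Matrix.mul_apply, Fin.sum_univ_two]
theorem mul_10 (a b : SL(2, ℤ)) : (a * b) 1 0 = a 1 0 * b 0 0 + a 1 1 * b 1 0 := by
  simp [Matrix.mul_apply, Fin.sum_univ_two]
theorem mul_11 (a b : SL(2, ℤ)) : (a * b) 1 1 = a 1 0 * b 0 1 + a 1 1 * b 1 1 := by
  simp [Matrix.mul_apply, Fin.sum_univ_two]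
theorem inv_00 (a : SL(2, ℤ)) : (a⁻¹) 0 0 = a 1 1 := by
  simp [Matrix.SpecialLinearGroup.SL2_inv_expl]
theorem inv_01 (a : SL(2, ℤ)) : (a⁻¹) 0 1 = - a 0 1 := by
  simp [Matrix.SpecialLinearGroup.SL2_inv_expl]
theorem inv_10 (a : SL(2, ℤ)) : (a⁻¹) 1 0 = - a 1 0 := by
  simp [Matrix.SpecialLinearGroup.SL2_inv_expl]
theorem inv_11 (a : SL(2, ℤ)) : (a⁻¹) 1 1 = a 0 0 := by
  simp [Matrix.SpecialLinearGroup.SL2_inv_expl]

theorem Tz_00 (n : ℤ) : (ModularGroup.T ^ n : SL(2, ℤ)) 0 0 = 1 := by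
  simp [ModularGroup.coe_T_zpow]
theorem Tz_01 (n : ℤ) : (ModularGroup.T ^ n : SL(2, ℤ)) 0 1 = n := by
  simp [ModularGroup.coe_T_zpow]
theorem Tz_10 (n : ℤ) : (ModularGroup.T ^ n : SL(2, ℤ)) 1 0 = 0 := by
  simp [ModularGroup.coe_T_zpow]
theorem Tz_11 (n : ℤ) : (ModularGroup.T ^ n : SL(2, ℤ)) 1 1 = 1 := by
  simp [ModularGroup.coe_T_zpow]

/-- lower unipotent -/
def lo (c : ℤ) : SL(2, ℤ) := ⟨!![1, 0; c, 1], by simp [Matrix.det_fin_two]⟩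

theorem lo_00 (c : ℤ) : lo c 0 0 = 1 := rfl
theorem lo_01 (c : ℤ) : lo c 0 1 = 0 := rfl
theorem lo_10 (c : ℤ) : lo c 1 0 = c := rfl
theorem lo_11 (c : ℤ) : lo c 1 1 = 1 := rfl

theorem mem_Gamma_iff {N : ℕ} {γ : SL(2, ℤ)} : γ ∈ Gamma N ↔
    (N : ℤ) ∣ γ 0 0 - 1 ∧ (N : ℤ) ∣ γ 0 1 ∧ (N : ℤ) ∣ γ 1 0 ∧ (N : ℤ) ∣ γ 1 1 - 1 := by
  rw [Gamma_mem]
  simp only [← ZMod.intCast_zmod_eq_zero_iff_dvd, Int.cast_sub, Int.cast_one, sub_eq_zero]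

theorem mem_Gamma0_iff {N : ℕ} {γ : SL(2, ℤ)} : γ ∈ Gamma0 N ↔ (N : ℤ) ∣ γ 1 0 := by
  rw [Gamma0_mem, ZMod.intCast_zmod_eq_zero_iff_dvd]

/-- `Γ⁰(N)` -/
def Gup (N : ℕ) : Subgroup SL(2, ℤ) where
  carrier := {γ | (N : ℤ) ∣ γ 0 1}
  one_mem' := by simp
  mul_mem' {a b} ha hb := by
    simp only [Set.mem_ofPred_eq] at *
    rw [mul_01]
    exact dvd_add (hb.mul_left _) (ha.mul_right _)
  inv_mem' {a} ha := by
    simp only [Set.mem_ofPred_eq] at *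
    rw [inv_01]
    exact (dvd_neg).mpr ha

theorem mem_Gup {N : ℕ} {γ : SL(2, ℤ)} : γ ∈ Gup N ↔ (N : ℤ) ∣ γ 0 1 := Iff.rfl

theorem Gup_mono {M N : ℕ} (h : M ∣ N) : Gup N ≤ Gup M := fun _ hγ ↦
  (Int.natCast_dvd_natCast.mpr h).trans hγ

theorem Gamma_le_Gup (N : ℕ) : Gamma N ≤ Gup N := fun _ h ↦ (mem_Gamma_iff.mp h).2.1

theorem exists_red {N p : ℕ} (hp : p.Prime) (hpN : p ∣ N) (y : ℤ) (hy : ¬ (p : ℤ) ∣ y)
    (γ : SL(2, ℤ)) (hγ : ((N / p : ℕ) : ℤ) ∣ γ 0 1) :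
    ∃ j ε : ℤ, (ε = 0 ∨ ε = y) ∧
      (N : ℤ) ∣ (ModularGroup.T ^ (((N / p : ℕ) : ℤ) * j) * (lo ε * γ)) 0 1 := by
  obtain ⟨b', hb'⟩ := hγ
  have hNp : (N : ℤ) = ((N / p : ℕ) : ℤ) * p := by exact_mod_cast (Nat.div_mul_cancel hpN).symm
  have hp' : Prime (p : ℤ) := Nat.prime_iff_prime_int.mp hp
  -- the key case
  have key : ∀ δ : SL(2, ℤ), δ 0 1 = ((N / p : ℕ) : ℤ) * b' → ¬ (p : ℤ) ∣ δ 1 1 →
      ∃ j : ℤ, (N : ℤ) ∣ (ModularGroup.T ^ (((N / p : ℕ) : ℤ) * j) * δ) 0 1 := by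
    intro δ hδ hd
    have hcop : IsCoprime (δ 1 1) (p : ℤ) :=
      ((Prime.coprime_iff_not_dvd hp').mpr hd).symm
    obtain ⟨u, v, huv⟩ := hcop
    refine ⟨-(b' * u), ?_⟩
    rw [mul_01, Tz_00, Tz_01, hδ, hNp]
    refine ⟨b' * v, ?_⟩
    linear_combination (-((N / p : ℕ) : ℤ) * b') * huv
  by_cases hd : (p : ℤ) ∣ γ 1 1
  · have hb : ¬ (p : ℤ) ∣ γ 0 1 := by
      intro hb
      have h1 := det_eq γ
      have : (p : ℤ) ∣ 1 := by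
        rw [← h1]
        exact dvd_sub (hd.mul_left _) (hb.mul_right _)
      exact hp'.not_dvd_one this
    obtain ⟨j, hj⟩ := key (lo y * γ) (by rw [mul_01, lo_00, lo_01, hb']; ring) (by
      rw [mul_11, lo_10, lo_11, one_mul]
      intro h
      have h2 : (p : ℤ) ∣ y * γ 0 1 := by
        have := dvd_sub h hd
        simpa using this
      rcases hp'.dvd_or_dvd h2 with h3 | h3
      · exact hy h3
      · exact hb h3)
    exact ⟨j, y, Or.inr rfl, hj⟩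
  · obtain ⟨j, hj⟩ := key (lo 0 * γ) (by rw [mul_01, lo_00, lo_01, hb']; ring) (by
      rw [mul_11, lo_10, lo_11, one_mul, zero_mul, zero_add]; exact hd)
    exact ⟨j, 0, Or.inl rfl, hj⟩

theorem lo_zero : lo 0 = 1 := by
  ext i j; fin_cases i <;> fin_cases j <;> rfl

/-- generation of `Γ⁰(N / p)` -/
theorem Gup_div_le {N p : ℕ} (hp : p.Prime) (hpN : p ∣ N) :
    Gup (N / p) ≤ Subgroup.closure (insert (ModularGroup.T ^ ((N / p : ℕ) : ℤ)) (Gup N : Set _)) := by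
  intro γ hγ
  have hp' : Prime (p : ℤ) := Nat.prime_iff_prime_int.mp hp
  obtain ⟨j, ε, hε, h⟩ := exists_red hp hpN 1 hp'.not_dvd_one γ hγ
  set C := Subgroup.closure (insert (ModularGroup.T ^ ((N / p : ℕ) : ℤ)) (Gup N : Set SL(2, ℤ)))
  have hC : ∀ x ∈ Gup N, x ∈ C := fun x hx ↦ Subgroup.subset_closure (Set.mem_insert_of_mem _ hx)
  have hT : ModularGroup.T ^ ((N / p : ℕ) : ℤ) ∈ C := Subgroup.subset_closure (Set.mem_insert _ _)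
  have h1 : (ModularGroup.T ^ (((N / p : ℕ) : ℤ) * j) * (lo ε * γ)) ∈ C := hC _ h
  have h2 : lo ε ∈ C := by
    apply hC
    rw [mem_Gup, lo_01]
    exact dvd_zero _
  have h3 : ModularGroup.T ^ (((N / p : ℕ) : ℤ) * j) ∈ C := by
    rw [_root_.zpow_mul]
    exact C.zpow_mem hT _
  have h4 := (Subgroup.mul_mem_cancel_left C h3).mp h1
  exact (Subgroup.mul_mem_cancel_left C h2).mp h4

/-- the local subgroups -/
def Lp (N p : ℕ) : Subgroup SL(2, ℤ) := Gamma (ordCompl[p] N) ⊓ Gup (N / p)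

theorem ordCompl_dvd_div {N p : ℕ} (hp : p.Prime) (hpN : p ∣ N) (hN : N ≠ 0) :
    ordCompl[p] N ∣ N / p := by
  have h1 : 1 ≤ N.factorization p := (hp.dvd_iff_one_le_factorization hN).mp hpN
  refine ⟨p ^ (N.factorization p - 1), ?_⟩
  have h2 : ordCompl[p] N * p ^ (N.factorization p - 1) * p = N := by
    rw [mul_assoc, ← pow_succ, Nat.sub_add_cancel h1, Nat.div_mul_cancel (Nat.ordProj_dvd N p)]
  have h3 : N / p * p = N := Nat.div_mul_cancel hpN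
  exact Nat.eq_of_mul_eq_mul_right hp.pos (h3.trans h2.symm)

theorem Gamma_normal' (N : ℕ) {γ δ : SL(2, ℤ)} (h : γ ∈ Gamma N) : δ * γ * δ⁻¹ ∈ Gamma N :=
  (Gamma_normal N).conj_mem γ h δ

theorem Gamma_mono {M N : ℕ} (h : M ∣ N) : Gamma N ≤ Gamma M := fun γ hγ ↦ by
  have h' : (M : ℤ) ∣ N := Int.natCast_dvd_natCast.mpr h
  obtain ⟨h1, h2, h3, h4⟩ := mem_Gamma_iff.mp hγ
  exact mem_Gamma_iff.mpr ⟨h'.trans h1, h'.trans h2, h'.trans h3, h'.trans h4⟩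

theorem T_mem_Gamma {M : ℕ} {n : ℤ} (h : (M : ℤ) ∣ n) : ModularGroup.T ^ n ∈ Gamma M := by
  rw [mem_Gamma_iff, Tz_00, Tz_01, Tz_10, Tz_11]
  simpa using h

theorem lo_mem_Gamma {M : ℕ} {n : ℤ} (h : (M : ℤ) ∣ n) : lo n ∈ Gamma M := by
  rw [mem_Gamma_iff, lo_00, lo_01, lo_10, lo_11]
  simpa using h

theorem T_mem_Lp {N p : ℕ} (hp : p.Prime) (hpN : p ∣ N) (hN : N ≠ 0) :
    ModularGroup.T ^ ((N / p : ℕ) : ℤ) ∈ Lp N p :=
  ⟨T_mem_Gamma (Int.natCast_dvd_natCast.mpr (ordCompl_dvd_div hp hpN hN)), by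
    change ((N / p : ℕ) : ℤ) ∣ _
    rw [Tz_01]⟩

theorem Gup_conj_Lp {N p : ℕ} (hpN : p ∣ N) {h x : SL(2, ℤ)}
    (hh : h ∈ Gup N) (hx : x ∈ Lp N p) : h * x * h⁻¹ ∈ Lp N p := by
  have h1 : h ∈ Gup (N / p) := Gup_mono (Nat.div_dvd_of_dvd hpN) hh
  exact ⟨Gamma_normal' _ hx.1, Subgroup.mul_mem _ (Subgroup.mul_mem _ h1 hx.2)
    (Subgroup.inv_mem _ h1)⟩

theorem Lp_le_closure {N p : ℕ} (hp : p.Prime) (hpN : p ∣ N) (hN : N ≠ 0) :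
    Lp N p ≤ Subgroup.closure
      (insert (ModularGroup.T ^ ((N / p : ℕ) : ℤ)) ((Gup N ⊓ Lp N p : Subgroup _) : Set _)) := by
  intro γ hγ
  have hp' : Prime (p : ℤ) := Nat.prime_iff_prime_int.mp hp
  have hcop : ¬ (p : ℤ) ∣ ((ordCompl[p] N : ℕ) : ℤ) := by
    rw [Int.natCast_dvd_natCast]
    exact Nat.not_dvd_ordCompl hp hN
  obtain ⟨j, ε, hε, h⟩ := exists_red hp hpN _ hcop γ hγ.2
  set C := Subgroup.closure (insert (ModularGroup.T ^ ((N / p : ℕ) : ℤ))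
    ((Gup N ⊓ Lp N p : Subgroup SL(2, ℤ)) : Set SL(2, ℤ)))
  have hC : ∀ x ∈ Gup N ⊓ Lp N p, x ∈ C :=
    fun x hx ↦ Subgroup.subset_closure (Set.mem_insert_of_mem _ hx)
  have hT : ModularGroup.T ^ ((N / p : ℕ) : ℤ) ∈ C := Subgroup.subset_closure (Set.mem_insert _ _)
  have hlo : lo ε ∈ Gup N ⊓ Lp N p := by
    refine ⟨?_, ?_, ?_⟩
    · change (N : ℤ) ∣ _
      rw [lo_01]; exact dvd_zero _
    · apply lo_mem_Gamma
      rcases hε with rfl | rfl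
      · exact dvd_zero _
      · exact dvd_rfl
    · change ((N / p : ℕ) : ℤ) ∣ _
      rw [lo_01]; exact dvd_zero _
  have hTj : ModularGroup.T ^ (((N / p : ℕ) : ℤ) * j) ∈ Lp N p := by
    rw [_root_.zpow_mul]
    exact Subgroup.zpow_mem _ (T_mem_Lp hp hpN hN) _
  have h1 : (ModularGroup.T ^ (((N / p : ℕ) : ℤ) * j) * (lo ε * γ)) ∈ C :=
    hC _ ⟨h, Subgroup.mul_mem _ hTj (Subgroup.mul_mem _ hlo.2 hγ)⟩
  have h2 : lo ε ∈ C := hC _ hlo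
  have h3 : ModularGroup.T ^ (((N / p : ℕ) : ℤ) * j) ∈ C := by
    rw [_root_.zpow_mul]
    exact C.zpow_mem hT _
  have h4 := (Subgroup.mul_mem_cancel_left C h3).mp h1
  exact (Subgroup.mul_mem_cancel_left C h2).mp h4

theorem dvd_of_ordCompl {N p q : ℕ} (hp : p.Prime) (hq : q.Prime) (hpq : p ≠ q) (hN : N ≠ 0)
    {z : ℤ} (h1 : ((ordCompl[p] N : ℕ) : ℤ) ∣ z) (h2 : ((ordCompl[q] N : ℕ) : ℤ) ∣ z) :
    (N : ℤ) ∣ z := by
  have h3 : ordProj[p] N ∣ ordCompl[q] N := by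
    have h4 : ordProj[p] N ∣ ordCompl[q] N * ordProj[q] N := by
      rw [Nat.div_mul_cancel (Nat.ordProj_dvd N q)]
      exact Nat.ordProj_dvd N p
    refine (Nat.Coprime.dvd_mul_right ?_).mp h4
    exact Nat.Coprime.pow _ _ ((Nat.coprime_primes hp hq).mpr hpq)
  have h5 : ((ordProj[p] N : ℕ) : ℤ) ∣ z := (Int.natCast_dvd_natCast.mpr h3).trans h2
  have h6 : (N : ℤ) = ((ordProj[p] N : ℕ) : ℤ) * ((ordCompl[p] N : ℕ) : ℤ) := by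
    rw [← Nat.cast_mul, Nat.mul_div_cancel' (Nat.ordProj_dvd N p)]
  rw [h6]
  refine IsCoprime.mul_dvd ?_ h5 h1
  rw [Nat.isCoprime_iff_coprime]
  exact (Nat.coprime_ordCompl hp hN).pow_left _

theorem Lp_commute {N p q : ℕ} (hp : p.Prime) (hq : q.Prime) (hpq : p ≠ q) (hN : N ≠ 0)
    {x y : SL(2, ℤ)} (hx : x ∈ Lp N p) (hy : y ∈ Lp N q) :
    (x * y)⁻¹ * (y * x) ∈ Gamma N := by
  have key : ∀ M : ℕ, ∀ u v : SL(2, ℤ), u ∈ Gamma M → (u * v)⁻¹ * (v * u) ∈ Gamma M := by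
    intro M u v hu
    have : (u * v)⁻¹ * (v * u) = (v⁻¹ * u⁻¹ * v⁻¹⁻¹) * u := by group
    rw [this]
    exact Subgroup.mul_mem _ (Gamma_normal' _ (Subgroup.inv_mem _ hu)) hu
  have h1 := key _ x y hx.1
  have h2 : (x * y)⁻¹ * (y * x) ∈ Gamma (ordCompl[q] N) := by
    have h3 := Subgroup.inv_mem _ (key _ y x hy.1)
    have : ((y * x)⁻¹ * (x * y))⁻¹ = (x * y)⁻¹ * (y * x) := by group
    rwa [this] at h3
  rw [mem_Gamma_iff] at h1 h2 ⊢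
  exact ⟨dvd_of_ordCompl hp hq hpq hN h1.1 h2.1, dvd_of_ordCompl hp hq hpq hN h1.2.1 h2.2.1,
    dvd_of_ordCompl hp hq hpq hN h1.2.2.1 h2.2.2.1,
    dvd_of_ordCompl hp hq hpq hN h1.2.2.2 h2.2.2.2⟩

end

end Fermat.Agent.AL
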