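import Mathlib
import Fermat.Agent.AL.Grp
import Fermat.Agent.IntStr.HForm3

set_option autoImplicit false

namespace Fermat.Agent.AL

open UpperHalfPlane Function ModularForm PowerSeries CongruenceSubgroup Filter
open scoped Manifold Topology MatrixGroups ModularForm Real
open Fermat.Agent.IntStr

noncomputable section

attribute [local instance] Gamma_normal

/-- cusp forms for `Γ(N)`, as a space of functions -/
def VN (N : ℕ) (k : ℤ) : Submodule ℂ (ℍ → ℂ) where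
  carrier := {f | (∀ γ ∈ Gamma N, f ∣[k] γ = f) ∧ MDiff f ∧
    ∀ γ : SL(2, ℤ), IsZeroAtImInfty (f ∣[k] γ)}
  add_mem' := by
    rintro f g ⟨h1, h2, h3⟩ ⟨g1, g2, g3⟩
    refine ⟨fun γ hγ ↦ by rw [SlashAction.add_slash, h1 γ hγ, g1 γ hγ], h2.add g2, fun γ ↦ ?_⟩
    rw [SlashAction.add_slash]
    exact ZeroAtFilter.add (h3 γ) (g3 γ)
  zero_mem' := by
    refine ⟨fun γ _ ↦ SlashAction.zero_slash _ _, mdifferentiable_const, fun γ ↦ ?_⟩
    rw [SlashAction.zero_slash]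
    exact zero_zeroAtFilter _
  smul_mem' := by
    rintro c f ⟨h1, h2, h3⟩
    refine ⟨fun γ hγ ↦ by rw [SL_smul_slash, h1 γ hγ], h2.const_smul c, fun γ ↦ ?_⟩
    rw [SL_smul_slash]
    exact ZeroAtFilter.smul c (h3 γ)

theorem slash_mem_VN {N : ℕ} {k : ℤ} {f : ℍ → ℂ} (hf : f ∈ VN N k) (δ : SL(2, ℤ)) :
    f ∣[k] δ ∈ VN N k := by
  obtain ⟨h1, h2, h3⟩ := hf
  refine ⟨fun γ hγ ↦ ?_, MDifferentiable.slash h2 k _, fun γ ↦ ?_⟩
  · rw [← SlashAction.slash_mul]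
    have : δ * γ = (δ * γ * δ⁻¹) * δ := by group
    rw [this, SlashAction.slash_mul, h1 _ (Gamma_normal' N hγ)]
  · rw [← SlashAction.slash_mul]
    exact h3 _

/-- the action of `SL(2, ℤ)` -/
def rho0 (N : ℕ) (k : ℤ) : SL(2, ℤ) →* Module.End ℂ (VN N k) where
  toFun δ :=
    { toFun := fun f ↦ ⟨(f : ℍ → ℂ) ∣[k] δ⁻¹, slash_mem_VN f.2 δ⁻¹⟩
      map_add' := fun f g ↦ Subtype.ext (SlashAction.add_slash _ _ _ _)
      map_smul' := fun c f ↦ Subtype.ext (SL_smul_slash _ _ _ _) }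
  map_one' := by
    ext1 f
    refine Subtype.ext ?_
    change (f : ℍ → ℂ) ∣[k] (1 : SL(2, ℤ))⁻¹ = f
    rw [inv_one, SlashAction.slash_one]
  map_mul' a b := by
    ext1 f
    refine Subtype.ext ?_
    change (f : ℍ → ℂ) ∣[k] (a * b)⁻¹ = ((f : ℍ → ℂ) ∣[k] b⁻¹) ∣[k] a⁻¹
    rw [mul_inv_rev, SlashAction.slash_mul]

theorem coe_rho0 {N : ℕ} {k : ℤ} (δ : SL(2, ℤ)) (f : VN N k) :
    ((rho0 N k δ f : VN N k) : ℍ → ℂ) = (f : ℍ → ℂ) ∣[k] δ⁻¹ := rfl

/-- the action of `SL(2, ℤ) / Γ(N)` -/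
def rho (N : ℕ) (k : ℤ) : SL(2, ℤ) ⧸ Gamma N →* Module.End ℂ (VN N k) :=
  QuotientGroup.lift (Gamma N) (rho0 N k) fun δ hδ ↦ by
    ext1 f
    refine Subtype.ext ?_
    exact f.2.1 _ (inv_mem hδ)

theorem rho_mk {N : ℕ} {k : ℤ} (δ : SL(2, ℤ)) : rho N k (δ : SL(2, ℤ) ⧸ Gamma N) = rho0 N k δ := rfl

theorem VN.mem_QR {N : ℕ} {k : ℤ} {f : ℍ → ℂ} (hf : f ∈ VN N k) : f ∈ QR N := by
  obtain ⟨h1, h2, h3⟩ := hf
  refine ⟨?_, h2, ?_⟩
  · intro w
    simp only [comp_apply, Complex.ofReal_natCast]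
    by_cases hw : 0 < w.im
    · have hw' : 0 < (w + N).im := by simpa using hw
      rw [ofComplex_apply_of_im_pos hw, ofComplex_apply_of_im_pos hw']
      have h4 := congrFun (h1 (ModularGroup.T ^ (N : ℤ)) (T_mem_Gamma dvd_rfl)) ⟨w, hw⟩
      rw [SL_slash_apply, ModularGroup.denom_apply] at h4
      have h5 : (ModularGroup.T ^ (N : ℤ) : SL(2, ℤ)) • (⟨w, hw⟩ : ℍ) = ⟨w + N, hw'⟩ := by
        rw [modular_T_zpow_smul]
        ext1
        rw [coe_vadd]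
        push_cast
        change (N : ℂ) + w = w + N
        ring
      rw [h5, Tz_10, Tz_11] at h4
      simpa using h4
    · have hw' : (w + N).im ≤ 0 := by simpa using hw
      rw [ofComplex_apply_of_im_nonpos (not_lt.mp hw), ofComplex_apply_of_im_nonpos hw']
  · have := (h3 1).isBoundedAtImInfty
    rwa [SlashAction.slash_one] at this

theorem slash_T_zpow {k : ℤ} (f : ℍ → ℂ) (n : ℤ) (z : ℍ) :
    (f ∣[k] (ModularGroup.T ^ n : SL(2, ℤ))) z = f ((n : ℝ) +ᵥ z) := by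
  rw [SL_slash_apply, ModularGroup.denom_apply, Tz_10, Tz_11, modular_T_zpow_smul]
  simp

/-- Fourier coefficients of the averaging operator. -/
theorem coeff_cyc {N p : ℕ} [NeZero N] (hp : 0 < p) (hpN : p ∣ N) {k : ℤ} (f : VN N k) (n : ℕ) :
    (qExpansion N ((cyc (rho N k ((ModularGroup.T ^ ((N / p : ℕ) : ℤ) : SL(2, ℤ)) :
      SL(2, ℤ) ⧸ Gamma N)) p f : VN N k) : ℍ → ℂ)).coeff n =
      if p ∣ n then (qExpansion N (f : ℍ → ℂ)).coeff n else 0 := by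
  have hN : (0 : ℝ) < N := by exact_mod_cast Nat.pos_of_ne_zero (NeZero.ne N)
  set c := fun n ↦ (qExpansion N (f : ℍ → ℂ)).coeff n with hc
  -- pointwise formula
  have h1 : ∀ z : ℍ, ((cyc (rho N k ((ModularGroup.T ^ ((N / p : ℕ) : ℤ) : SL(2, ℤ)) :
      SL(2, ℤ) ⧸ Gamma N)) p f : VN N k) : ℍ → ℂ) z =
      (p : ℂ)⁻¹ * ∑ j ∈ Finset.range p, (f : ℍ → ℂ) ((-(((N / p : ℕ) : ℝ) * j)) +ᵥ z) := by
    intro z
    rw [cyc]
    simp only [LinearMap.smul_apply, LinearMap.sum_apply, ← map_pow]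
    rw [Submodule.coe_smul, Pi.smul_apply, smul_eq_mul]
    congr 1
    rw [← Submodule.subtype_apply, map_sum, Finset.sum_apply]
    refine Finset.sum_congr rfl fun j _ ↦ ?_
    rw [Submodule.subtype_apply, ← QuotientGroup.mk_pow, rho_mk, coe_rho0]
    have : ((ModularGroup.T ^ ((N / p : ℕ) : ℤ)) ^ j)⁻¹ =
        (ModularGroup.T ^ (-(((N / p : ℕ) : ℤ) * j)) : SL(2, ℤ)) := by
      rw [_root_.zpow_neg, _root_.zpow_mul, zpow_natCast _ j]
    rw [this, slash_T_zpow]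
    push_cast
    rfl
  -- the root of unity
  set ζ : ℂ := Complex.exp (-(2 * π * Complex.I / p)) with hζ
  have hp0 : (p : ℂ) ≠ 0 := by exact_mod_cast hp.ne'
  have hN0 : (N : ℂ) ≠ 0 := by exact_mod_cast (NeZero.ne N)
  have hNp : (N : ℂ) = ((N / p : ℕ) : ℂ) * p := by
    exact_mod_cast (Nat.div_mul_cancel hpN).symm
  have hNp0 : ((N / p : ℕ) : ℂ) ≠ 0 := fun h ↦ hN0 (by rw [hNp, h, zero_mul])
  have hq : ∀ (j : ℕ) (z : ℍ), Periodic.qParam N (((-(((N / p : ℕ) : ℝ) * j)) +ᵥ z : ℍ) : ℂ) =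
      ζ ^ j * Periodic.qParam N z := by
    intro j z
    rw [Periodic.qParam, Periodic.qParam, hζ, ← Complex.exp_nat_mul, ← Complex.exp_add, coe_vadd]
    congr 1
    push_cast
    rw [hNp]
    field_simp
    try ring
  have hprim : IsPrimitiveRoot ζ p := by
    have := Complex.isPrimitiveRoot_exp p hp.ne'
    have h2 : ζ = (Complex.exp (2 * π * Complex.I / p))⁻¹ := by rw [hζ, Complex.exp_neg]
    rw [h2]
    exact this.inv
  have hsum : ∀ n : ℕ, (p : ℂ)⁻¹ * ∑ j ∈ Finset.range p, (ζ ^ j) ^ n = if p ∣ n then 1 else 0 := by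
    intro n
    have h3 : ∀ j, (ζ ^ j) ^ n = (ζ ^ n) ^ j := fun j ↦ by rw [← pow_mul, ← pow_mul, mul_comm]
    simp only [h3]
    split_ifs with h
    · rw [(hprim.pow_eq_one_iff_dvd n).mpr h]
      simp [hp0]
    · have h4 : ζ ^ n ≠ 1 := fun h5 ↦ h ((hprim.pow_eq_one_iff_dvd n).mp h5)
      rw [geom_sum_eq h4, ← pow_mul, mul_comm n p, pow_mul, hprim.pow_eq_one, one_pow, sub_self,
        zero_div, mul_zero]
  have h5 : ∀ z : ℍ, HasSum (fun n : ℕ ↦ (if p ∣ n then c n else 0) • Periodic.qParam N z ^ n)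
      (((cyc (rho N k ((ModularGroup.T ^ ((N / p : ℕ) : ℤ) : SL(2, ℤ)) :
      SL(2, ℤ) ⧸ Gamma N)) p f : VN N k) : ℍ → ℂ) z) := by
    intro z
    rw [h1]
    have hf := VN.mem_QR f.2
    have h6 : ∀ j ∈ Finset.range p, HasSum (fun n : ℕ ↦ c n * (ζ ^ j * Periodic.qParam N z) ^ n)
        ((f : ℍ → ℂ) ((-(((N / p : ℕ) : ℝ) * j)) +ᵥ z)) := by
      intro j _
      have := UpperHalfPlane.hasSum_qExpansion hN hf.1 hf.2.1 hf.2.2
        ((-(((N / p : ℕ) : ℝ) * j)) +ᵥ z)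
      rw [hq] at this
      exact this
    have h7 := (hasSum_sum h6).mul_left (p : ℂ)⁻¹
    have h8 : (fun n : ℕ ↦ (if p ∣ n then c n else 0) • Periodic.qParam N z ^ n) =
        fun n : ℕ ↦ (p : ℂ)⁻¹ * ∑ j ∈ Finset.range p, c n * (ζ ^ j * Periodic.qParam N z) ^ n := by
      ext n
      have h9 : (p : ℂ)⁻¹ * ∑ j ∈ Finset.range p, c n * (ζ ^ j * Periodic.qParam N z) ^ n =
          ((p : ℂ)⁻¹ * ∑ j ∈ Finset.range p, (ζ ^ j) ^ n) * (c n * Periodic.qParam N z ^ n) := by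
        rw [mul_assoc, Finset.sum_mul]
        congr 1
        refine Finset.sum_congr rfl fun j _ ↦ ?_
        rw [mul_pow]
        ring
      rw [h9, hsum]
      split_ifs <;> simp
    rw [h8]
    exact h7
  exact qExp_unique hN (VN.mem_QR (Subtype.mem _)) h5 n

end

end Fermat.Agent.AL
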