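import Mathlib
import Fermat.Agent.AL.Forms

set_option autoImplicit false

namespace Fermat.Agent.AL

open UpperHalfPlane Function ModularForm PowerSeries CongruenceSubgroup Filter
open scoped Manifold Topology MatrixGroups ModularForm Real
open Fermat.Agent.IntStr

noncomputable section

/-- Hermite normal form -/
theorem hnf {x y z w : ℤ} {D : ℕ} (hD : 0 < D) (h : x * w - y * z = D) :
    ∃ (δ : SL(2, ℤ)) (a d : ℕ) (b : ℤ), 0 < a ∧ 0 < d ∧ a * d = D ∧
      x = δ 0 0 * a ∧ y = δ 0 0 * b + δ 0 1 * d ∧ z = δ 1 0 * a ∧ w = δ 1 0 * b + δ 1 1 * d := by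
  set g : ℕ := Int.gcd x z with hg
  have hbez : (g : ℤ) = x * Int.gcdA x z + z * Int.gcdB x z := Int.gcd_eq_gcd_ab x z
  obtain ⟨A, hA⟩ : (g : ℤ) ∣ x := Int.gcd_dvd_left ..
  obtain ⟨C, hC⟩ : (g : ℤ) ∣ z := Int.gcd_dvd_right ..
  set u := Int.gcdA x z
  set v := Int.gcdB x z
  have hg0 : g ≠ 0 := by
    intro h0
    rw [h0] at hA hC
    rw [hA, hC] at h
    have : (D : ℤ) = 0 := by rw [← h]; push_cast; ring
    exact hD.ne' (by exact_mod_cast this)
  have hgz : (g : ℤ) ≠ 0 := by exact_mod_cast hg0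
  have hdet : A * u + C * v = 1 := by
    have : (g : ℤ) * (A * u + C * v) = g * 1 := by
      rw [hA, hC] at hbez
      linear_combination -hbez
    exact mul_left_cancel₀ hgz this
  have hD' : (D : ℤ) = g * (A * w - C * y) := by rw [← h, hA, hC]; ring
  have hpos : 0 < A * w - C * y := by
    have h1 : 0 < (g : ℤ) * (A * w - C * y) := by rw [← hD']; exact_mod_cast hD
    exact (pos_iff_pos_of_mul_pos h1).mp (by positivity)
  obtain ⟨d, hd⟩ := Int.eq_ofNat_of_zero_le hpos.le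
  refine ⟨⟨!![A, -v; C, u], by rw [Matrix.det_fin_two_of]; linear_combination hdet⟩, g, d,
    u * y + v * w, Nat.pos_of_ne_zero hg0, ?_, ?_, ?_, ?_, ?_, ?_⟩
  · rw [hd] at hpos; exact_mod_cast hpos
  · rw [hd] at hD'; exact_mod_cast hD'.symm
  · change x = A * g
    linear_combination hA
  · change y = A * (u * y + v * w) + (-v) * d
    rw [show (d : ℤ) = A * w - C * y from hd.symm]
    linear_combination (-y) * hdet
  · change z = C * g
    linear_combination hC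
  · change w = C * (u * y + v * w) + u * d
    rw [show (d : ℤ) = A * w - C * y from hd.symm]
    linear_combination (-w) * hdet

/-- slash action and affine substitutions -/
theorem slash_aff {k : ℤ} (f : ℍ → ℂ) {a d a' d' : ℕ} {b b' : ℤ} {γ δ : SL(2, ℤ)}
    (ha : 0 < a) (hd : 0 < d) (ha' : 0 < a') (hd' : 0 < d')
    (h1 : a * γ 0 0 + b * γ 1 0 = δ 0 0 * a') (h2 : a * γ 0 1 + b * γ 1 1 = δ 0 0 * b' + δ 0 1 * d')
    (h3 : d * γ 1 0 = δ 1 0 * a') (h4 : d * γ 1 1 = δ 1 0 * b' + δ 1 1 * d') :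
    (fun z ↦ f (aff a d b z)) ∣[k] γ =
      fun z ↦ ((d : ℂ) / d') ^ k * (f ∣[k] δ) (aff a' d' b' z) := by
  ext z
  have hd0 : (d : ℂ) ≠ 0 := by exact_mod_cast hd.ne'
  have hd0' : (d' : ℂ) ≠ 0 := by exact_mod_cast hd'.ne'
  have hγ := denom_ne_zero γ z
  have hδ := denom_ne_zero δ (aff a' d' b' z)
  have hj : denom δ (aff a' d' b' z) = ((d : ℂ) / d') * denom γ z := by
    rw [ModularGroup.denom_apply, ModularGroup.denom_apply, coe_aff ha' hd']
    field_simp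
    have e3 : (d : ℂ) * γ 1 0 = δ 1 0 * a' := by exact_mod_cast h3
    have e4 : (d : ℂ) * γ 1 1 = δ 1 0 * b' + δ 1 1 * d' := by exact_mod_cast h4
    linear_combination (-(z : ℂ)) * e3 - e4
  have hpt : aff a d b (γ • z) = δ • aff a' d' b' z := by
    apply UpperHalfPlane.ext
    rw [coe_aff ha hd, coe_specialLinearGroup_apply, coe_specialLinearGroup_apply]
    simp only [algebraMap_int_eq, eq_intCast, Complex.ofReal_intCast]
    have n1 : (γ 1 0 : ℂ) * z + γ 1 1 ≠ 0 := by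
      rwa [ModularGroup.denom_apply] at hγ
    rw [coe_aff ha' hd']
    have e1 : (a : ℂ) * γ 0 0 + b * γ 1 0 = δ 0 0 * a' := by exact_mod_cast h1
    have e2 : (a : ℂ) * γ 0 1 + b * γ 1 1 = δ 0 0 * b' + δ 0 1 * d' := by exact_mod_cast h2
    have e3 : (d : ℂ) * γ 1 0 = δ 1 0 * a' := by exact_mod_cast h3
    have e4 : (d : ℂ) * γ 1 1 = δ 1 0 * b' + δ 1 1 * d' := by exact_mod_cast h4
    have hX : ((δ 1 0 : ℤ) : ℂ) * ((a' * (z : ℂ) + b') / d') + δ 1 1 =
        (d / d') * (γ 1 0 * z + γ 1 1) := by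
      field_simp
      linear_combination (-(z : ℂ)) * e3 - e4
    have hY : ((δ 0 0 : ℤ) : ℂ) * ((a' * (z : ℂ) + b') / d') + δ 0 1 =
        (a * (γ 0 0 * z + γ 0 1) + b * (γ 1 0 * z + γ 1 1)) / d' := by
      field_simp
      linear_combination (-(z : ℂ)) * e1 - e2
    have n2 : (z : ℂ) * γ 1 0 + γ 1 1 ≠ 0 := by rwa [mul_comm] at n1
    rw [hX, hY]
    field_simp
  rw [SL_slash_apply, SL_slash_apply, hj, hpt, mul_zpow, div_zpow, zpow_neg, zpow_neg, div_zpow]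
  have := zpow_ne_zero k hd0
  have := zpow_ne_zero k hd0'
  have := zpow_ne_zero k hγ
  field_simp

theorem slash_aff' {k : ℤ} (f : ℍ → ℂ) {a d : ℕ} {b : ℤ} (γ : SL(2, ℤ)) (ha : 0 < a) (hd : 0 < d) :
    ∃ (δ : SL(2, ℤ)) (a' d' : ℕ) (b' : ℤ), 0 < a' ∧ 0 < d' ∧
      (fun z ↦ f (aff a d b z)) ∣[k] γ =
        fun z ↦ ((d : ℂ) / d') ^ k * (f ∣[k] δ) (aff a' d' b' z) := by
  have hdet := det_eq γ
  obtain ⟨δ, a', d', b', h1, h2, _, h3, h4, h5, h6⟩ :=
    hnf (x := a * γ 0 0 + b * γ 1 0) (y := a * γ 0 1 + b * γ 1 1) (z := d * γ 1 0)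
      (w := d * γ 1 1) (D := a * d) (Nat.mul_pos ha hd)
      (by push_cast; linear_combination (a * d : ℤ) * hdet)
  exact ⟨δ, a', d', b', h1, h2, slash_aff f ha hd h1 h2 h3 h4 h5 h6⟩

/-- cuspidality is preserved by affine substitutions -/
theorem isCuspidal_aff {k : ℤ} {f : ℍ → ℂ} (hf : IsCuspidal k f) {a d : ℕ} {b : ℤ}
    (ha : 0 < a) (hd : 0 < d) : IsCuspidal k (fun z ↦ f (aff a d b z)) := by
  intro γ
  obtain ⟨δ, a', d', b', ha', hd', h⟩ := slash_aff' (k := k) (b := b) f γ ha hd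
  rw [h]
  have h1 : Tendsto (fun z ↦ ((d : ℂ) / d') ^ k * (f ∣[k] δ) (aff a' d' b' z)) atImInfty
      (𝓝 (((d : ℂ) / d') ^ k * 0)) :=
    ((hf δ).comp (tendsto_aff ha' hd' b')).const_mul _
  rw [mul_zero] at h1
  exact h1

end

end Fermat.Agent.AL
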