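import Mathlib
import Fermat.Agent.AL.Aff
import Fermat.Prelude.Def_FLTPrelim_Modularity

set_option autoImplicit false

/-!
# The Atkin–Lehner main lemma for `Γ₀(N)`
-/

namespace Fermat.Agent.AL

open UpperHalfPlane Function ModularForm PowerSeries CongruenceSubgroup Filter
open scoped Manifold Topology MatrixGroups ModularForm Real
open Fermat.Agent.IntStr
open ModularFormClass (qCoeff)

noncomputable section

attribute [local instance] Gamma_normal

/-- the translation elements -/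
abbrev tq (N p : ℕ) : SL(2, ℤ) ⧸ Gamma N :=
  ((ModularGroup.T ^ ((N / p : ℕ) : ℤ) : SL(2, ℤ)) : SL(2, ℤ) ⧸ Gamma N)

theorem qExp_sub' {N : ℕ} [NeZero N] {k : ℤ} (f g : VN N k) (n : ℕ) :
    (qExpansion N ((f - g : VN N k) : ℍ → ℂ)).coeff n =
      (qExpansion N (f : ℍ → ℂ)).coeff n - (qExpansion N (g : ℍ → ℂ)).coeff n := by
  have hN : (0 : ℝ) < N := by exact_mod_cast Nat.pos_of_ne_zero (NeZero.ne N)
  have := map_sub (qHom N hN) ⟨f, VN.mem_QR f.2⟩ ⟨g, VN.mem_QR g.2⟩
  have h2 := congrArg (fun F ↦ PowerSeries.coeff n F) this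
  simpa using h2

theorem coeff_dep {N : ℕ} [NeZero N] {k : ℤ} (l : List ℕ) (hl : ∀ p ∈ l, 0 < p ∧ p ∣ N)
    (f : VN N k) (n : ℕ) :
    (qExpansion N ((dep (fun p ↦ cyc (rho N k (tq N p)) p) l f : VN N k) : ℍ → ℂ)).coeff n =
      if ∀ p ∈ l, ¬ p ∣ n then (qExpansion N (f : ℍ → ℂ)).coeff n else 0 := by
  induction l with
  | nil => simp [dep]
  | cons p l ih =>
    have h1 := hl p (by simp)
    have h2 : ∀ q ∈ l, 0 < q ∧ q ∣ N := fun q hq ↦ hl q (by simp [hq])
    rw [dep, Module.End.mul_apply, LinearMap.sub_apply, Module.End.one_apply, qExp_sub',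
      coeff_cyc h1.1 h1.2, ih h2]
    by_cases hp : p ∣ n
    · simp [hp]
    · simp [hp]

/-- invariance under `Γ⁰(N)` and `T ^ (N / p)` implies invariance under `Γ⁰(N / p)` -/
theorem gup_div_fixed {N p : ℕ} (hp : p.Prime) (hpN : p ∣ N) {k : ℤ} (w : VN N k)
    (h1 : ∀ γ ∈ Gup N, (w : ℍ → ℂ) ∣[k] γ = w) (h2 : rho N k (tq N p) w = w) :
    ∀ γ ∈ Gup (N / p), (w : ℍ → ℂ) ∣[k] γ = w := by
  intro γ hγ
  have h3 := Gup_div_le hp hpN hγ
  refine Subgroup.closure_induction (p := fun γ _ ↦ (w : ℍ → ℂ) ∣[k] γ = w)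
    ?_ ?_ ?_ ?_ h3
  · intro x hx
    rcases hx with rfl | hx
    · rw [rho_mk] at h2
      have h5 := congrArg Subtype.val h2
      rw [coe_rho0] at h5
      conv_lhs => rw [← h5]
      rw [← SlashAction.slash_mul, inv_mul_cancel, SlashAction.slash_one]
    · exact h1 x hx
  · exact SlashAction.slash_one _ _
  · intro a b _ _ ha hb
    rw [SlashAction.slash_mul, ha, hb]
  · intro a _ ha
    conv_lhs => rw [← ha]
    rw [← SlashAction.slash_mul, mul_inv_cancel, SlashAction.slash_one]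

theorem main_VN {N : ℕ} [NeZero N] {k : ℤ} (f : VN N k) (hup : ∀ γ ∈ Gup N, (f : ℍ → ℂ) ∣[k] γ = f)
    (hcoef : ∀ n : ℕ, n.Coprime N → (qExpansion N (f : ℍ → ℂ)).coeff n = 0) :
    ∃ w : ℕ → VN N k, f = ∑ p ∈ N.primeFactors, w p ∧ ∀ p ∈ N.primeFactors,
      ∀ γ ∈ Gup (N / p), (w p : ℍ → ℂ) ∣[k] γ = w p := by
  have hN0 : N ≠ 0 := NeZero.ne N
  have hN : (0 : ℝ) < N := by exact_mod_cast Nat.pos_of_ne_zero hN0
  have hl : ∀ p ∈ N.primeFactors.toList, p.Prime ∧ p ∣ N := by
    intro p hp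
    rw [Finset.mem_toList] at hp
    exact ⟨Nat.prime_of_mem_primeFactors hp, Nat.dvd_of_mem_primeFactors hp⟩
  set pr := QuotientGroup.mk' (Gamma N) with hpr
  have key : ∃ w : ℕ → VN N k, f = (N.primeFactors.toList.map w).sum ∧
      ∀ p ∈ N.primeFactors.toList, (∀ h ∈ (Gup N).map pr, rho N k h (w p) = w p) ∧
        rho N k (tq N p) (w p) = w p := by
    refine main_abstract (rho N k) N.primeFactors.toList
      N.primeFactors.nodup_toList (tq N) id ?_ (fun p ↦ (Lp N p).map pr) ((Gup N).map pr) ?_ ?_ ?_ ?_ f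
      ?_ ?_
    · intro p hp
      have hp' := hl p hp
      rw [id, ← QuotientGroup.mk_pow, QuotientGroup.eq_one_iff, ← zpow_natCast, ← _root_.zpow_mul]
      apply T_mem_Gamma
      exact_mod_cast (Nat.div_mul_cancel hp'.2).symm.dvd
    · intro p hp
      have hp' := hl p hp
      exact Subgroup.mem_map_of_mem _ (T_mem_Lp hp'.1 hp'.2 hN0)
    · rintro p hp q hq hpq _ ⟨x, hx, rfl⟩ _ ⟨y, hy, rfl⟩
      have := Lp_commute (hl p hp).1 (hl q hq).1 hpq hN0 hx hy
      change pr x * pr y = pr y * pr x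
      rw [← map_mul, ← map_mul]
      exact QuotientGroup.eq.mpr this
    · rintro p hp _ ⟨x, hx, rfl⟩
      have hp' := hl p hp
      have h1 := Subgroup.mem_map_of_mem pr (Lp_le_closure hp'.1 hp'.2 hN0 hx)
      rw [MonoidHom.map_closure] at h1
      refine Subgroup.closure_mono ?_ h1
      rintro _ ⟨y, hy, rfl⟩
      rcases hy with rfl | hy
      · exact Set.mem_insert _ _
      · exact Set.mem_insert_of_mem _ ⟨Subgroup.mem_map_of_mem _ hy.1, Subgroup.mem_map_of_mem _ hy.2⟩
    · rintro p hp _ ⟨h, hh, rfl⟩ _ ⟨x, hx, rfl⟩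
      rw [← map_mul, ← map_inv, ← map_mul]
      exact Subgroup.mem_map_of_mem _ (Gup_conj_Lp (hl p hp).2 hh hx)
    · rintro _ ⟨h, hh, rfl⟩
      refine Subtype.ext ?_
      exact hup _ (inv_mem hh)
    · have h1 := coeff_dep N.primeFactors.toList (fun p hp ↦ ⟨(hl p hp).1.pos, (hl p hp).2⟩) f
      set g := dep (fun p ↦ cyc (rho N k (tq N p)) p) N.primeFactors.toList f with hg
      have h2 : qExpansion N (g : ℍ → ℂ) = 0 := by
        ext n
        rw [h1, map_zero]
        split_ifs with h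
        · apply hcoef
          rw [Nat.coprime_comm]
          refine Nat.Coprime.symm (Nat.Coprime.symm ?_)
          rw [Nat.coprime_comm]
          by_contra hcop
          obtain ⟨p, hp, hpn, hpN⟩ := Nat.Prime.not_coprime_iff_dvd.mp hcop
          exact h p (by simp [hp, hpN, hN0]) hpn
        · rfl
      have h3 := VN.mem_QR g.2
      have h4 := (qExpansion_eq_zero_iff hN h3.1 h3.2.1 h3.2.2).mp h2
      exact Subtype.ext h4

  obtain ⟨w, hw1, hw2⟩ := key
  refine ⟨w, ?_, ?_⟩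
  · rw [hw1, Finset.sum_map_toList]
  · intro p hp
    have hp' := hl p (by simpa using hp)
    obtain ⟨h1, h2⟩ := hw2 p (by simpa using hp)
    intro γ hγ
    have h3 := Gup_div_le hp'.1 hp'.2 hγ
    refine Subgroup.closure_induction (p := fun γ _ ↦ (w p : ℍ → ℂ) ∣[k] γ = w p)
      ?_ ?_ ?_ ?_ h3
    · intro x hx
      rcases hx with rfl | hx
      · have h4 : rho N k (tq N p) (w p) = w p := h2
        rw [rho_mk] at h4
        have h5 := congrArg Subtype.val h4
        rw [coe_rho0] at h5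
        conv_lhs => rw [← h5]
        rw [← SlashAction.slash_mul, inv_mul_cancel, SlashAction.slash_one]
      · have h4 := h1 (pr x⁻¹) (Subgroup.mem_map_of_mem _ (inv_mem hx))
        rw [hpr, QuotientGroup.mk'_apply, rho_mk] at h4
        have h5 := congrArg Subtype.val h4
        rw [coe_rho0, inv_inv] at h5
        exact h5
    · exact SlashAction.slash_one _ _
    · intro a b _ _ ha hb
      rw [SlashAction.slash_mul, ha, hb]
    · intro a _ ha
      conv_lhs => rw [← ha]
      rw [← SlashAction.slash_mul, mul_inv_cancel, SlashAction.slash_one]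

end

end Fermat.Agent.AL
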