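import Mathlib
import Fermat.Agent.AL.Main

set_option autoImplicit false

/-!
# Degeneracy maps and the Atkin–Lehner main lemma for `Γ₀(N)`
-/

namespace Fermat.Agent.AL

open UpperHalfPlane Function ModularForm PowerSeries CongruenceSubgroup Filter
open scoped Manifold Topology MatrixGroups ModularForm Real
open Fermat.Agent.IntStr
open ModularFormClass (qCoeff)

noncomputable section

theorem coe_mem_QR {N : ℕ} [NeZero N] {k : ℤ} (f : CuspForm (Gamma0 N) k) : (f : ℍ → ℂ) ∈ QR 1 :=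
  (isMN_coe f).mem_QR

theorem cusp_ext {N : ℕ} [NeZero N] {k : ℤ} {f g : CuspForm (Gamma0 N) k}
    (h : ∀ n, qCoeff f n = qCoeff g n) : f = g := by
  refine DFunLike.coe_injective (eq_of_qExpansion_eq one_pos (coe_mem_QR f) (coe_mem_QR g) ?_)
  ext n
  exact h n

theorem qCoeff_add {N : ℕ} [NeZero N] {k : ℤ} (f g : CuspForm (Gamma0 N) k) (n : ℕ) :
    qCoeff (⇑(f + g)) n = qCoeff f n + qCoeff g n := by
  have := map_add (qHom 1 one_pos) ⟨f, coe_mem_QR f⟩ ⟨g, coe_mem_QR g⟩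
  have h2 := congrArg (fun F ↦ PowerSeries.coeff n F) this
  simpa [qCoeff] using h2

theorem qCoeff_smul {N : ℕ} [NeZero N] {k : ℤ} (c : ℂ) (f : CuspForm (Gamma0 N) k) (n : ℕ) :
    qCoeff (⇑(c • f)) n = c * qCoeff f n := by
  have := map_smul (qHom 1 one_pos) c ⟨f, coe_mem_QR f⟩
  have h2 := congrArg (fun F ↦ PowerSeries.coeff n F) this
  simpa [qCoeff] using h2

/-- evaluation -/
def evL (N : ℕ) (k : ℤ) (z : ℍ) : CuspForm (Gamma0 N) k →ₗ[ℂ] ℂ where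
  toFun f := f z
  map_add' _ _ := rfl
  map_smul' _ _ := rfl

theorem sum_app {N : ℕ} {k : ℤ} {ι : Type*} (s : Finset ι) (f : ι → CuspForm (Gamma0 N) k) (z : ℍ) :
    (∑ i ∈ s, f i) z = ∑ i ∈ s, f i z := map_sum (evL N k z) f s

/-- Fourier coefficients as a linear map. -/
def cL (N : ℕ) [NeZero N] (k : ℤ) (n : ℕ) : CuspForm (Gamma0 N) k →ₗ[ℂ] ℂ where
  toFun f := qCoeff f n
  map_add' f g := qCoeff_add f g n
  map_smul' c f := qCoeff_smul c f n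

@[simp] theorem cL_apply {N : ℕ} [NeZero N] {k : ℤ} (n : ℕ) (f : CuspForm (Gamma0 N) k) :
    cL N k n f = qCoeff f n := rfl

theorem qCoeff_sub {N : ℕ} [NeZero N] {k : ℤ} (f g : CuspForm (Gamma0 N) k) (n : ℕ) :
    qCoeff (⇑(f - g)) n = qCoeff f n - qCoeff g n := map_sub (cL N k n) f g

theorem qCoeff_zero' {N : ℕ} [NeZero N] {k : ℤ} (n : ℕ) :
    qCoeff (⇑(0 : CuspForm (Gamma0 N) k)) n = 0 := map_zero (cL N k n)

theorem qCoeff_sum {N : ℕ} [NeZero N] {k : ℤ} {ι : Type*} (s : Finset ι)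
    (f : ι → CuspForm (Gamma0 N) k) (n : ℕ) :
    qCoeff (⇑(∑ i ∈ s, f i)) n = ∑ i ∈ s, qCoeff (f i) n := map_sum (cL N k n) f s

/-! ### degeneracy maps -/

theorem isMN_degen {M N d : ℕ} [NeZero M] [NeZero N] (hd : 0 < d) (h : M * d ∣ N) {k : ℤ}
    (f : CuspForm (Gamma0 M) k) : IsMN N k (fun z ↦ f (aff d 1 0 z)) where
  slash γ hγ := by
    rw [mem_Gamma0_iff] at hγ
    have h' : ((M : ℤ) * d) ∣ γ 1 0 := by
      have : ((M * d : ℕ) : ℤ) ∣ γ 1 0 := (Int.natCast_dvd_natCast.mpr h).trans hγ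
      simpa using this
    obtain ⟨c, hc⟩ := h'
    have hdet := det_eq γ
    let δ : SL(2, ℤ) := ⟨!![γ 0 0, d * γ 0 1; M * c, γ 1 1], by
      rw [Matrix.det_fin_two_of]; rw [hc] at hdet; linear_combination hdet⟩
    have h1 := slash_aff (k := k) (f : ℍ → ℂ) (a := d) (d := 1) (a' := d) (d' := 1) (b := 0)
      (b' := 0) (γ := γ) (δ := δ) hd one_pos hd one_pos (by change _ = γ 0 0 * d; push_cast; ring)
      (by change _ = γ 0 0 * 0 + (d * γ 0 1) * _; push_cast; ring)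
      (by change _ = (M * c) * d; rw [hc]; push_cast; ring)
      (by change _ = (M * c) * 0 + γ 1 1 * _; push_cast; ring)
    rw [h1]
    have h2 : (f : ℍ → ℂ) ∣[k] δ = f := (isMN_coe f).slash δ (by
      rw [mem_Gamma0_iff]; exact Dvd.intro c rfl)
    rw [h2]
    ext z
    simp
  holo := mdiff_comp_aff (isMN_coe f).holo hd one_pos 0
  bdd γ := (isCuspidal_aff (isCuspidal_coe f) hd one_pos γ).isBoundedAtImInfty

/-- `f(z) ↦ f(d z)` from level `M` to level `N`, for `M * d ∣ N`. -/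
def degen {M N d : ℕ} [NeZero M] [NeZero N] (hd : 0 < d) (h : M * d ∣ N) (k : ℤ) :
    CuspForm (Gamma0 M) k →ₗ[ℂ] CuspForm (Gamma0 N) k where
  toFun f := (isMN_degen hd h f).cuspForm (isCuspidal_aff (isCuspidal_coe f) hd one_pos)
  map_add' _ _ := rfl
  map_smul' _ _ := rfl

theorem degen_apply {M N d : ℕ} [NeZero M] [NeZero N] (hd : 0 < d) (h : M * d ∣ N) {k : ℤ}
    (f : CuspForm (Gamma0 M) k) (z : ℍ) : degen hd h k f z = f (aff d 1 0 z) := rfl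

theorem coe_degen {M N d : ℕ} [NeZero M] [NeZero N] (hd : 0 < d) (h : M * d ∣ N) {k : ℤ}
    (f : CuspForm (Gamma0 M) k) : (degen hd h k f : ℍ → ℂ) = fun z ↦ f (aff d 1 0 z) := rfl

theorem qParam_aff_one {d : ℕ} (hd : 0 < d) (z : ℍ) :
    Periodic.qParam 1 (aff d 1 0 z) = Periodic.qParam 1 z ^ d := by
  rw [Periodic.qParam, Periodic.qParam, coe_aff hd one_pos, ← Complex.exp_nat_mul]
  congr 1
  simp
  ring

theorem qExp_comp_mul {f : ℍ → ℂ} (hf : f ∈ QR 1) {d : ℕ} (hd : 0 < d)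
    (hg : (fun z ↦ f (aff d 1 0 z)) ∈ QR 1) (n : ℕ) :
    qCoeff (fun z ↦ f (aff d 1 0 z)) n = if d ∣ n then qCoeff f (n / d) else 0 := by
  refine qExp_unique (c := fun n ↦ if d ∣ n then qCoeff f (n / d) else 0) one_pos hg (fun z ↦ ?_) n
  have h1 := UpperHalfPlane.hasSum_qExpansion one_pos hf.1 hf.2.1 hf.2.2 (aff d 1 0 z)
  have hinj : Injective (fun n : ℕ ↦ d * n) := fun x y h ↦ Nat.eq_of_mul_eq_mul_left hd h
  rw [← hinj.hasSum_iff]
  · convert h1 using 1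
    ext n
    simp only [comp_apply]
    rw [if_pos (dvd_mul_right _ _), Nat.mul_div_cancel_left _ hd, qParam_aff_one hd, ← pow_mul]
    rfl
  · intro m hm
    have : ¬ d ∣ m := by
      rintro ⟨c, rfl⟩
      exact hm ⟨c, rfl⟩
    simp [this]

theorem qCoeff_degen {M N d : ℕ} [NeZero M] [NeZero N] (hd : 0 < d) (h : M * d ∣ N) {k : ℤ}
    (f : CuspForm (Gamma0 M) k) (n : ℕ) :
    qCoeff (degen hd h k f) n = if d ∣ n then qCoeff f (n / d) else 0 :=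
  qExp_comp_mul (coe_mem_QR f) hd (coe_mem_QR (degen hd h k f)) n

/-! ### passing to `Γ(N)` -/

/-- `f(z) ↦ f(z / N)` -/
def up (N : ℕ) [NeZero N] (k : ℤ) (f : CuspForm (Gamma0 N) k) : VN N k := by
  refine ⟨fun z ↦ f (aff 1 N 0 z), ?_, ?_, ?_⟩
  · intro γ hγ
    have hN : 0 < N := Nat.pos_of_ne_zero (NeZero.ne N)
    obtain ⟨c, hc⟩ := Gamma_le_Gup N hγ
    have hdet := det_eq γ
    let δ : SL(2, ℤ) := ⟨!![γ 0 0, c; N * γ 1 0, γ 1 1], by
      rw [Matrix.det_fin_two_of]; rw [hc] at hdet; linear_combination hdet⟩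
    have h1 := slash_aff (k := k) (f : ℍ → ℂ) (a := 1) (d := N) (a' := 1) (d' := N) (b := 0)
      (b' := 0) (γ := γ) (δ := δ) one_pos hN one_pos hN (by change _ = γ 0 0 * _; push_cast; ring)
      (by change _ = γ 0 0 * 0 + c * _; rw [hc]; push_cast; ring)
      (by change _ = (N * γ 1 0) * _; push_cast; ring)
      (by change _ = (N * γ 1 0) * 0 + γ 1 1 * _; push_cast; ring)
    rw [h1]
    have h2 : (f : ℍ → ℂ) ∣[k] δ = f := (isMN_coe f).slash δ (by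
      rw [mem_Gamma0_iff]; exact Dvd.intro _ rfl)
    rw [h2]
    have hN0 : (N : ℂ) ≠ 0 := by exact_mod_cast hN.ne'
    ext z
    simp [div_self hN0]
  · exact mdiff_comp_aff (isMN_coe f).holo one_pos (Nat.pos_of_ne_zero (NeZero.ne N)) 0
  · exact isCuspidal_aff (isCuspidal_coe f) one_pos (Nat.pos_of_ne_zero (NeZero.ne N))

theorem coe_up {N : ℕ} [NeZero N] {k : ℤ} (f : CuspForm (Gamma0 N) k) :
    (up N k f : ℍ → ℂ) = fun z ↦ f (aff 1 N 0 z) := rfl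

theorem up_slash {N : ℕ} [NeZero N] {k : ℤ} (f : CuspForm (Gamma0 N) k) {γ : SL(2, ℤ)}
    (hγ : γ ∈ Gup N) : (up N k f : ℍ → ℂ) ∣[k] γ = up N k f := by
  have hN : 0 < N := Nat.pos_of_ne_zero (NeZero.ne N)
  obtain ⟨c, hc⟩ := hγ
  have hdet := det_eq γ
  let δ : SL(2, ℤ) := ⟨!![γ 0 0, c; N * γ 1 0, γ 1 1], by
    rw [Matrix.det_fin_two_of]; rw [hc] at hdet; linear_combination hdet⟩
  have h1 := slash_aff (k := k) (f : ℍ → ℂ) (a := 1) (d := N) (a' := 1) (d' := N) (b := 0)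
    (b' := 0) (γ := γ) (δ := δ) one_pos hN one_pos hN (by change _ = γ 0 0 * _; push_cast; ring)
    (by change _ = γ 0 0 * 0 + c * _; rw [hc]; push_cast; ring)
    (by change _ = (N * γ 1 0) * _; push_cast; ring)
    (by change _ = (N * γ 1 0) * 0 + γ 1 1 * _; push_cast; ring)
  rw [coe_up, h1]
  have h2 : (f : ℍ → ℂ) ∣[k] δ = f := (isMN_coe f).slash δ (by
    rw [mem_Gamma0_iff]; exact Dvd.intro _ rfl)
  rw [h2]
  have hN0 : (N : ℂ) ≠ 0 := by exact_mod_cast hN.ne'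
  ext z
  simp [div_self hN0]

theorem coeff_up {N : ℕ} [NeZero N] {k : ℤ} (f : CuspForm (Gamma0 N) k) (n : ℕ) :
    (qExpansion N (up N k f : ℍ → ℂ)).coeff n = qCoeff f n := by
  have hN : 0 < N := Nat.pos_of_ne_zero (NeZero.ne N)
  rw [coe_up, coeff_comp_aff (coe_mem_QR f) one_pos hN 0 (one_mul N), caff]
  simp [zt, qCoeff]

/-- `w(z) ↦ w(M z)` -/
def down {N : ℕ} {k : ℤ} (w : VN N k) (M : ℕ) [NeZero M]
    (hw : ∀ γ ∈ Gup M, (w : ℍ → ℂ) ∣[k] γ = w) : CuspForm (Gamma0 M) k := by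
  have hM : 0 < M := Nat.pos_of_ne_zero (NeZero.ne M)
  have hc : IsCuspidal k (fun z ↦ (w : ℍ → ℂ) (aff M 1 0 z)) := isCuspidal_aff w.2.2.2 hM one_pos
  refine IsMN.cuspForm (f := fun z ↦ (w : ℍ → ℂ) (aff M 1 0 z)) ⟨?_, ?_, ?_⟩ hc
  · intro γ hγ
    rw [mem_Gamma0_iff] at hγ
    obtain ⟨c, hc⟩ := hγ
    have hdet := det_eq γ
    let δ : SL(2, ℤ) := ⟨!![γ 0 0, M * γ 0 1; c, γ 1 1], by
      rw [Matrix.det_fin_two_of]; rw [hc] at hdet; linear_combination hdet⟩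
    have h1 := slash_aff (k := k) (w : ℍ → ℂ) (a := M) (d := 1) (a' := M) (d' := 1) (b := 0)
      (b' := 0) (γ := γ) (δ := δ) hM one_pos hM one_pos (by change _ = γ 0 0 * _; push_cast; ring)
      (by change _ = γ 0 0 * 0 + (M * γ 0 1) * _; push_cast; ring)
      (by change _ = c * _; rw [hc]; push_cast; ring)
      (by change _ = c * 0 + γ 1 1 * _; push_cast; ring)
    rw [h1, hw δ (Dvd.intro _ rfl)]
    ext z
    simp
  · exact mdiff_comp_aff w.2.2.1 hM one_pos 0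
  · intro γ
    exact (hc γ).isBoundedAtImInfty

theorem coe_down {N : ℕ} {k : ℤ} (w : VN N k) (M : ℕ) [NeZero M]
    (hw : ∀ γ ∈ Gup M, (w : ℍ → ℂ) ∣[k] γ = w) :
    (down w M hw : ℍ → ℂ) = fun z ↦ (w : ℍ → ℂ) (aff M 1 0 z) := rfl

theorem aff_aff {a b : ℕ} (ha : 0 < a) (hb : 0 < b) (z : ℍ) :
    aff a 1 0 (aff b 1 0 z) = aff (a * b) 1 0 z := by
  apply UpperHalfPlane.ext
  rw [coe_aff ha one_pos, coe_aff hb one_pos, coe_aff (Nat.mul_pos ha hb) one_pos]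
  push_cast
  ring

theorem aff_aff_self {a : ℕ} (ha : 0 < a) (z : ℍ) : aff 1 a 0 (aff a 1 0 z) = z := by
  have ha0 : (a : ℂ) ≠ 0 := by exact_mod_cast ha.ne'
  apply UpperHalfPlane.ext
  rw [coe_aff one_pos ha, coe_aff ha one_pos]
  push_cast
  field_simp
  ring

instance neZero_div {N p : ℕ} [NeZero N] [h : Fact (p ∣ N)] : NeZero (N / p) :=
  ⟨(Nat.div_pos (Nat.le_of_dvd (Nat.pos_of_ne_zero (NeZero.ne N)) h.out)
    (Nat.pos_of_ne_zero (by rintro rfl; exact NeZero.ne N (Nat.eq_zero_of_zero_dvd h.out)))).ne'⟩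

/-- **Atkin–Lehner main lemma** for `Γ₀(N)`, any weight. -/
theorem main_lemma {N : ℕ} [NeZero N] {k : ℤ} (f : CuspForm (Gamma0 N) k)
    (h : ∀ n : ℕ, n.Coprime N → qCoeff f n = 0) :
    f ∈ ⨆ p : {p : ℕ // p.Prime ∧ p ∣ N}, LinearMap.range
      (haveI : Fact ((p : ℕ) ∣ N) := ⟨p.2.2⟩
       degen (M := N / (p : ℕ)) (N := N) p.2.1.pos (Nat.div_mul_cancel p.2.2).dvd k) := by
  have hN : 0 < N := Nat.pos_of_ne_zero (NeZero.ne N)
  obtain ⟨w, hw1, hw2⟩ := main_VN (up N k f) (fun γ hγ ↦ up_slash f hγ)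
    (fun n hn ↦ by rw [coeff_up]; exact h n hn)
  have hmem : ∀ p ∈ N.primeFactors, p.Prime ∧ p ∣ N := fun p hp ↦
    ⟨Nat.prime_of_mem_primeFactors hp, Nat.dvd_of_mem_primeFactors hp⟩
  have hf : ∀ z, f z = ∑ p ∈ N.primeFactors, (w p : ℍ → ℂ) (aff N 1 0 z) := by
    intro z
    have h1 := congrArg (fun g : VN N k ↦ (g : ℍ → ℂ) (aff N 1 0 z)) hw1
    simp only [coe_up, aff_aff_self hN] at h1
    rw [h1, ← Submodule.subtype_apply, map_sum, Finset.sum_apply]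
    rfl
  let F : {p : ℕ // p.Prime ∧ p ∣ N} → CuspForm (Gamma0 N) k := fun p ↦
    haveI : Fact ((p : ℕ) ∣ N) := ⟨p.2.2⟩
    degen (M := N / (p : ℕ)) (N := N) p.2.1.pos (Nat.div_mul_cancel p.2.2).dvd k
      (down (w p) (N / p) (hw2 p (by simp [p.2.1, p.2.2, NeZero.ne N])))
  have hFapp : ∀ (p : {p : ℕ // p.Prime ∧ p ∣ N}) z, F p z = (w p : ℍ → ℂ) (aff N 1 0 z) := by
    intro p z
    haveI : Fact ((p : ℕ) ∣ N) := ⟨p.2.2⟩
    have hpos : 0 < N / (p : ℕ) := Nat.div_pos (Nat.le_of_dvd hN p.2.2) p.2.1.pos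
    change (w p : ℍ → ℂ) (aff (N / (p : ℕ)) 1 0 (aff (p : ℕ) 1 0 z)) = _
    rw [aff_aff hpos p.2.1.pos, Nat.div_mul_cancel p.2.2]
  have hf2 : f = ∑ p : N.primeFactors, F ⟨p, hmem p p.2⟩ := by
    ext z
    rw [hf z, sum_app, ← Finset.sum_coe_sort]
    exact Finset.sum_congr rfl fun p _ ↦ (hFapp ⟨p, hmem p p.2⟩ z).symm
  rw [hf2]
  refine Submodule.sum_mem _ fun p _ ↦ ?_
  exact Submodule.mem_iSup_of_mem (⟨p, hmem p p.2⟩ : {p : ℕ // p.Prime ∧ p ∣ N}) ⟨_, rfl⟩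

end

end Fermat.Agent.AL
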