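import Mathlib
import Fermat.Agent.H24.Pet
import Fermat.Agent.AL.Level

/-!
# Unfolding: adjoints of the degeneracy maps for the Petersson product
-/

set_option autoImplicit false
set_option linter.style.haveILetI false

noncomputable section

namespace Fermat.Agent.AL

open MeasureTheory UpperHalfPlane ModularGroup CongruenceSubgroup Filter Matrix
open scoped MatrixGroups ENNReal NNReal Modular ModularForm ComplexConjugate
open Fermat.Agent.IntStr Fermat.Agent.H24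

/-- Weight functions for a subgroup of the modular group. -/
structure IsWt (Γ : Subgroup SL(2, ℤ)) (w : ℍ → ℝ) : Prop where
  meas : Measurable w
  nonneg : ∀ τ, 0 ≤ w τ
  int : Integrable w
  sum : ∀ τ, HasSum (fun γ : Γ => w ((γ : SL(2, ℤ)) • τ)) 1

theorem isWt_wt (Γ : Subgroup SL(2, ℤ)) [Γ.FiniteIndex] : IsWt Γ (wt Γ) :=
  ⟨measurable_wt Γ, wt_nonneg Γ, integrable_wt Γ, hasSum_wt Γ⟩

variable {Γ : Subgroup SL(2, ℤ)} {w w1 w2 : ℍ → ℝ}

theorem IsWt.integrable_mul (hw : IsWt Γ w) {h : ℍ → ℂ} (hc : Continuous h) {C : ℝ}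
    (hC : ∀ τ, ‖h τ‖ ≤ C) : Integrable fun τ : ℍ => (w τ : ℂ) * h τ := by
  have h1 : Integrable fun τ : ℍ => (w τ : ℂ) := hw.int.ofReal
  have h2 := h1.bdd_mul (f := h) hc.aestronglyMeasurable (Eventually.of_forall hC)
  exact h2.congr (Eventually.of_forall fun τ => mul_comm _ _)

/-- insertion of the partition of unity -/
theorem IsWt.hasSum_insert (hw : IsWt Γ w) {h : ℍ → ℂ} (hint : Integrable h) :
    HasSum (fun γ : Γ => ∫ τ : ℍ, (w ((γ : SL(2, ℤ)) • τ) : ℂ) * h τ) (∫ τ : ℍ, h τ) := by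
  have hm : ∀ γ : Γ, Measurable fun τ : ℍ => w ((γ : SL(2, ℤ)) • τ) :=
    fun γ => hw.meas.comp (continuous_smul_SL (γ : SL(2, ℤ))).measurable
  refine hasSum_integral_of_dominated_convergence
    (bound := fun γ τ => w ((γ : SL(2, ℤ)) • τ) * ‖h τ‖) ?_ ?_ ?_ ?_ ?_
  · intro γ
    exact (Complex.measurable_ofReal.comp (hm γ)).aestronglyMeasurable.mul
      hint.aestronglyMeasurable
  · intro γ
    refine Eventually.of_forall fun τ => ?_
    rw [norm_mul, Complex.norm_real, Real.norm_of_nonneg (hw.nonneg _)]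
  · exact Eventually.of_forall fun τ => ((hw.sum τ).mul_right _).summable
  · refine hint.norm.congr (Eventually.of_forall fun τ => ?_)
    change ‖h τ‖ = ∑' γ : Γ, w ((γ : SL(2, ℤ)) • τ) * ‖h τ‖
    rw [((hw.sum τ).mul_right ‖h τ‖).tsum_eq, one_mul]
  · refine Eventually.of_forall fun τ => ?_
    have h1 : HasSum (fun γ : Γ => (w ((γ : SL(2, ℤ)) • τ) : ℂ)) 1 := by
      rw [← Complex.ofReal_one]
      exact Complex.hasSum_ofReal.mpr (hw.sum τ)
    simpa using h1.mul_right (h τ)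

theorem integrable_smul_SL (g : SL(2, ℤ)) {w : ℍ → ℝ} (hw : Integrable w) :
    Integrable (fun τ : ℍ => w (g • τ)) :=
  (measurePreserving_smul (Matrix.SpecialLinearGroup.mapGL ℝ g)
      (volume : Measure ℍ)).integrable_comp_of_integrable hw

theorem integrable_smul_SL' (g : SL(2, ℤ)) {w : ℍ → ℂ} (hw : Integrable w) :
    Integrable (fun τ : ℍ => w (g • τ)) :=
  (measurePreserving_smul (Matrix.SpecialLinearGroup.mapGL ℝ g)
      (volume : Measure ℍ)).integrable_comp_of_integrable hw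

theorem integral_smul_SL (g : SL(2, ℤ)) (h : ℍ → ℂ) : ∫ τ : ℍ, h (g • τ) = ∫ τ : ℍ, h τ :=
  integral_smul_eq_self (μ := (volume : Measure ℍ)) h
    (g := Matrix.SpecialLinearGroup.mapGL ℝ g)

/-- **Unfolding.** -/
theorem IsWt.unfold (h1 : IsWt Γ w1) (h2 : IsWt Γ w2) {h : ℍ → ℂ} (hc : Continuous h) {C : ℝ}
    (hC : ∀ τ, ‖h τ‖ ≤ C) (hinv : ∀ γ ∈ Γ, ∀ τ, h (γ • τ) = h τ) :
    ∫ τ, (w1 τ : ℂ) * h τ = ∫ τ, (w2 τ : ℂ) * h τ := by
  have e1 := h2.hasSum_insert (h1.integrable_mul hc hC)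
  have e2 := h1.hasSum_insert (h2.integrable_mul hc hC)
  have e3 : HasSum (fun γ : Γ => ∫ τ : ℍ, (w1 (((γ⁻¹ : Γ) : SL(2, ℤ)) • τ) : ℂ) *
      ((w2 τ : ℂ) * h τ)) (∫ τ, (w2 τ : ℂ) * h τ) := (Equiv.inv Γ).hasSum_iff.mpr e2
  refine e1.unique ?_
  refine Eq.mp (congrArg (fun F => HasSum F _) (funext fun γ => ?_)) e3
  rw [← integral_smul_SL (γ : SL(2, ℤ))
    (fun τ => (w1 (((γ⁻¹ : Γ) : SL(2, ℤ)) • τ) : ℂ) * ((w2 τ : ℂ) * h τ))]
  refine integral_congr_ae (Eventually.of_forall fun τ => ?_)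
  change (w1 (((γ⁻¹ : Γ) : SL(2, ℤ)) • (γ : SL(2, ℤ)) • τ) : ℂ) *
    ((w2 ((γ : SL(2, ℤ)) • τ) : ℂ) * h ((γ : SL(2, ℤ)) • τ)) =
      (w2 ((γ : SL(2, ℤ)) • τ) : ℂ) * ((w1 τ : ℂ) * h τ)
  rw [Subgroup.coe_inv, inv_smul_smul, hinv _ γ.2]
  ring

/-! ### Cosets -/

/-- A system of representatives of `K \ Γ`. -/
structure IsReps (K Γ : Subgroup SL(2, ℤ)) {ι : Type*} (r : ι → SL(2, ℤ)) : Prop where
  le : K ≤ Γ
  mem : ∀ i, r i ∈ Γ
  bij : Function.Bijective (fun x : ι × K => (⟨(r x.1)⁻¹ * (x.2 : SL(2, ℤ)),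
    Γ.mul_mem (Γ.inv_mem (mem x.1)) (le x.2.2)⟩ : Γ))

theorem exists_reps {K Γ : Subgroup SL(2, ℤ)} (hle : K ≤ Γ) [K.FiniteIndex] :
    ∃ (ι : Type) (_ : Fintype ι) (r : ι → SL(2, ℤ)), IsReps K Γ r := by
  haveI : (K.subgroupOf Γ).FiniteIndex := inferInstance
  refine ⟨Γ ⧸ (K.subgroupOf Γ), Fintype.ofFinite _, fun q => ((q.out : Γ) : SL(2, ℤ))⁻¹,
    hle, fun q => Γ.inv_mem q.out.2, ?_, ?_⟩
  · rintro ⟨q, k⟩ ⟨q', k'⟩ h
    have h1 : (q.out : Γ) * ⟨k, hle k.2⟩ = q'.out * ⟨k', hle k'.2⟩ := by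
      apply Subtype.ext
      have := congrArg Subtype.val h
      simpa using this
    have h2 : q = q' := by
      rw [← QuotientGroup.out_eq' q, ← QuotientGroup.out_eq' q']
      rw [QuotientGroup.eq]
      have h3 : (q.out : Γ)⁻¹ * q'.out = ⟨k, hle k.2⟩ * (⟨k', hle k'.2⟩ : Γ)⁻¹ := by
        rw [eq_mul_inv_iff_mul_eq, mul_assoc, ← h1, inv_mul_cancel_left]
      rw [h3, Subgroup.mem_subgroupOf]
      exact K.mul_mem k.2 (K.inv_mem k'.2)
    subst h2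
    have h4 := mul_left_cancel h1
    have h5 : k = k' := Subtype.ext (congrArg (fun z : Γ => (z : SL(2, ℤ))) h4)
    rw [h5]
  · intro g
    obtain ⟨h, hh⟩ := QuotientGroup.mk_out_eq_mul (K.subgroupOf Γ) g
    refine ⟨⟨(g : Γ ⧸ (K.subgroupOf Γ)), ⟨((h⁻¹ : K.subgroupOf Γ) : Γ), ?_⟩⟩, ?_⟩
    · exact Subgroup.mem_subgroupOf.mp (h⁻¹).2
    · apply Subtype.ext
      change (((Quotient.out (g : Γ ⧸ (K.subgroupOf Γ)) : Γ) : SL(2, ℤ))⁻¹)⁻¹ *
        (((h⁻¹ : K.subgroupOf Γ) : Γ) : SL(2, ℤ)) = g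
      rw [hh, inv_inv, Subgroup.coe_mul, Subgroup.coe_inv, Subgroup.coe_inv, mul_inv_cancel_right]

variable {K : Subgroup SL(2, ℤ)} {ι : Type} [Fintype ι] {r : ι → SL(2, ℤ)}

theorem IsReps.hasSum (hr : IsReps K Γ r) {F : SL(2, ℤ) → ℝ} {a : ℝ}
    (h : HasSum (fun γ : Γ => F γ) a) :
    HasSum (fun k : K => ∑ i, F ((r i)⁻¹ * (k : SL(2, ℤ)))) a := by
  have h1 : HasSum (fun x : ι × K => F ((r x.1)⁻¹ * (x.2 : SL(2, ℤ)))) a :=
    (Equiv.ofBijective _ hr.bij).hasSum_iff.mpr h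
  have h3 : HasSum (fun x : K × ι => F ((r x.2)⁻¹ * (x.1 : SL(2, ℤ)))) a :=
    (Equiv.prodComm K ι).hasSum_iff.mpr h1
  exact h3.prod_fiberwise (fun k : K => hasSum_fintype _)

theorem IsWt.reps (hr : IsReps K Γ r) (hw : IsWt Γ w) :
    IsWt K (fun τ => ∑ i, w ((r i)⁻¹ • τ)) where
  meas := Finset.measurable_sum _ fun i _ =>
    hw.meas.comp (continuous_smul_SL (r i)⁻¹).measurable
  nonneg τ := Finset.sum_nonneg fun i _ => hw.nonneg _
  int := integrable_finsetSum _ fun i _ => integrable_smul_SL (r i)⁻¹ hw.int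
  sum τ := by
    have h4 := hr.hasSum (F := fun g => w (g • τ)) (hw.sum τ)
    simp only [mul_smul] at h4
    exact h4

/-- The trace is adjoint to the inclusion. -/
theorem integral_trace (hr : IsReps K Γ r) (hw : IsWt Γ w1) (hw2 : IsWt K w2) {k : ℤ}
    {u v : ℍ → ℂ} (hu : ∀ γ ∈ Γ, u ∣[k] γ = u) (hv : ∀ γ ∈ K, v ∣[k] γ = v)
    (hc : Continuous (petersson k u v)) {C : ℝ} (hC : ∀ τ, ‖petersson k u v τ‖ ≤ C) :
    ∫ τ, (w1 τ : ℂ) * petersson k u (∑ i, v ∣[k] (r i)) τ =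
      ∫ τ, (w2 τ : ℂ) * petersson k u v τ := by
  have hpet : ∀ (γ : SL(2, ℤ)), γ ∈ Γ → ∀ τ, petersson k u (v ∣[k] γ) τ =
      petersson k u v (γ • τ) := by
    intro γ hγ τ
    have h := petersson_slash_SL k u v γ τ
    rw [hu γ hγ] at h
    exact h
  have hinv : ∀ γ ∈ K, ∀ τ, petersson k u v (γ • τ) = petersson k u v τ := by
    intro γ hγ τ
    rw [← hpet γ (hr.le hγ) τ, hv γ hγ]
  rw [← (hw.reps hr).unfold hw2 hc hC hinv]
  have hint : ∀ i, Integrable (fun τ : ℍ => (w1 ((r i)⁻¹ • τ) : ℂ) * petersson k u v τ) := by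
    intro i
    have h1 : Integrable fun τ : ℍ => (w1 ((r i)⁻¹ • τ) : ℂ) :=
      (integrable_smul_SL (r i)⁻¹ hw.int).ofReal
    have h2 := h1.bdd_mul (f := petersson k u v) hc.aestronglyMeasurable
      (Eventually.of_forall hC)
    exact h2.congr (Eventually.of_forall fun τ => mul_comm _ _)
  have e1 : ∀ τ, ((∑ i, w1 ((r i)⁻¹ • τ) : ℝ) : ℂ) * petersson k u v τ =
      ∑ i, (w1 ((r i)⁻¹ • τ) : ℂ) * petersson k u v τ := by
    intro τ
    rw [Complex.ofReal_sum, Finset.sum_mul]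
  simp only [e1]
  rw [integral_finsetSum _ fun i _ => hint i]
  have e2 : ∀ τ, (w1 τ : ℂ) * petersson k u (∑ i, v ∣[k] (r i)) τ =
      ∑ i, (w1 τ : ℂ) * petersson k u v (r i • τ) := by
    intro τ
    rw [petersson_sum_right, Finset.mul_sum]
    refine Finset.sum_congr rfl fun i _ => ?_
    rw [hpet _ (hr.mem i)]
  simp only [e2]
  have e3 : ∀ i, ∫ τ, (w1 τ : ℂ) * petersson k u v (r i • τ) =
      ∫ τ, (w1 ((r i)⁻¹ • τ) : ℂ) * petersson k u v τ := by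
    intro i
    rw [← integral_smul_SL (r i) (fun τ => (w1 ((r i)⁻¹ • τ) : ℂ) * petersson k u v τ)]
    refine integral_congr_ae (Eventually.of_forall fun τ => ?_)
    change _ = (w1 ((r i)⁻¹ • r i • τ) : ℂ) * petersson k u v (r i • τ)
    rw [inv_smul_smul]
  rw [integral_finsetSum]
  · exact Finset.sum_congr rfl fun i _ => e3 i
  · intro i _
    have hi := hint i
    generalize petersson k u v = P at hi ⊢
    have h5 : Integrable (fun τ : ℍ => (w1 ((r i)⁻¹ • (r i • τ)) : ℂ) * P (r i • τ)) :=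
      integrable_smul_SL' (w := fun τ => (w1 ((r i)⁻¹ • τ) : ℂ) * P τ) (r i) hi
    have h6 : (fun τ : ℍ => (w1 ((r i)⁻¹ • (r i • τ)) : ℂ) * P (r i • τ)) =
        fun τ : ℍ => (w1 τ : ℂ) * P (r i • τ) := by
      funext τ
      rw [inv_smul_smul]
    rw [h6] at h5
    exact h5

end Fermat.Agent.AL
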