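import Mathlib
import Fermat.Agent.AL.Unfold

/-!
# The adjoints of the degeneracy maps
-/

set_option autoImplicit false
set_option linter.style.haveILetI false

noncomputable section

namespace Fermat.Agent.AL

open MeasureTheory UpperHalfPlane ModularGroup CongruenceSubgroup Filter Matrix
open scoped MatrixGroups ENNReal NNReal Modular ModularForm ComplexConjugate Topology Manifold
open Fermat.Agent.IntStr Fermat.Agent.H24

/-- affine maps and the action of the modular group -/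
theorem aff_smul {a d a' d' : ℕ} {b b' : ℤ} {γ δ : SL(2, ℤ)}
    (ha : 0 < a) (hd : 0 < d) (ha' : 0 < a') (hd' : 0 < d')
    (h1 : a * γ 0 0 + b * γ 1 0 = δ 0 0 * a') (h2 : a * γ 0 1 + b * γ 1 1 = δ 0 0 * b' + δ 0 1 * d')
    (h3 : d * γ 1 0 = δ 1 0 * a') (h4 : d * γ 1 1 = δ 1 0 * b' + δ 1 1 * d') (z : ℍ) :
    aff a d b (γ • z) = δ • aff a' d' b' z := by
  have hd0 : (d : ℂ) ≠ 0 := by exact_mod_cast hd.ne'
  have hd0' : (d' : ℂ) ≠ 0 := by exact_mod_cast hd'.ne'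
  have hγ := denom_ne_zero γ z
  apply UpperHalfPlane.ext
  rw [coe_aff ha hd, coe_specialLinearGroup_apply, coe_specialLinearGroup_apply]
  simp only [algebraMap_int_eq, eq_intCast, Complex.ofReal_intCast]
  have n1 : (γ 1 0 : ℂ) * z + γ 1 1 ≠ 0 := by
    rwa [ModularGroup.denom_apply] at hγ
  rw [coe_aff ha' hd']
  have e1 : (a : ℂ) * γ 0 0 + b * γ 1 0 = δ 0 0 * a' := by exact_mod_cast h1
  have e2 : (a : ℂ) * γ 0 1 + b * γ 1 1 = δ 0 0 * b' + δ 0 1 * d' := by exact_mod_cast h2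
  have e3 : (d : ℂ) * γ 1 0 = δ 1 0 * a' := by exact_mod_cast h3
  have e4 : (d : ℂ) * γ 1 1 = δ 1 0 * b' + δ 1 1 * d' := by exact_mod_cast h4
  have hX : ((δ 1 0 : ℤ) : ℂ) * ((a' * (z : ℂ) + b') / d') + δ 1 1 =
      (d / d') * (γ 1 0 * z + γ 1 1) := by
    field_simp
    linear_combination (-(z : ℂ)) * e3 - e4
  have hY : ((δ 0 0 : ℤ) : ℂ) * ((a' * (z : ℂ) + b') / d') + δ 0 1 =
      (a * (γ 0 0 * z + γ 0 1) + b * (γ 1 0 * z + γ 1 1)) / d' := by
    field_simp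
    linear_combination (-(z : ℂ)) * e1 - e2
  have n2 : (z : ℂ) * γ 1 0 + γ 1 1 ≠ 0 := by rwa [mul_comm] at n1
  rw [hX, hY]
  field_simp

/-- the dilation as a matrix -/
def dil (d : ℕ) (hd : 0 < d) : GL (Fin 2) ℝ :=
  Matrix.GeneralLinearGroup.mkOfDetNeZero !![(d : ℝ), 0; 0, 1] (by
    rw [Matrix.det_fin_two_of]
    simpa using hd.ne')

theorem dil_smul {d : ℕ} (hd : 0 < d) (z : ℍ) : dil d hd • z = aff d 1 0 z := by
  have hdet : 0 < ((dil d hd).det : ℝ) := by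
    have : ((dil d hd).det : ℝ) = d := by
      rw [Matrix.GeneralLinearGroup.val_det_apply]
      change (!![(d : ℝ), 0; 0, 1]).det = d
      rw [Matrix.det_fin_two_of]; ring
    rw [this]; exact_mod_cast hd
  apply UpperHalfPlane.ext
  rw [coe_aff hd one_pos, UpperHalfPlane.coe_smul_of_det_pos hdet]
  simp [num, denom, dil, Matrix.GeneralLinearGroup.mkOfDetNeZero]

theorem aff_inv {d : ℕ} (hd : 0 < d) (z : ℍ) : aff 1 d 0 z = (dil d hd)⁻¹ • z := by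
  rw [eq_inv_smul_iff, dil_smul]
  have hd0 : (d : ℂ) ≠ 0 := by exact_mod_cast hd.ne'
  apply UpperHalfPlane.ext
  rw [coe_aff hd one_pos, coe_aff one_pos hd]
  push_cast
  field_simp
  ring

theorem integral_aff {d : ℕ} (hd : 0 < d) (h : ℍ → ℂ) :
    ∫ τ : ℍ, h (aff d 1 0 τ) = ∫ τ : ℍ, h τ := by
  simp only [← dil_smul hd]
  exact integral_smul_eq_self (μ := (volume : Measure ℍ)) h (g := dil d hd)

theorem continuous_aff_inv {d : ℕ} (hd : 0 < d) : Continuous (aff 1 d 0) := by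
  have : aff 1 d 0 = fun z => (dil d hd)⁻¹ • z := funext (aff_inv hd)
  rw [this]
  exact continuous_const_smul _

theorem im_aff {d : ℕ} (hd : 0 < d) (z : ℍ) : (aff d 1 0 z).im = d * z.im := by
  have h := coe_aff hd one_pos 0 z
  have h1 := congrArg Complex.im h
  simpa using h1

/-- The group `δ Γ₀(L e d) δ⁻¹`. -/
def Kd (L e d : ℕ) : Subgroup SL(2, ℤ) := Gamma0 (L * e) ⊓ Gup d

theorem Kd_le (L e d : ℕ) : Kd L e d ≤ Gamma0 L := fun γ hγ => by
  have h := mem_Gamma0_iff.mp hγ.1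
  rw [mem_Gamma0_iff]
  refine dvd_trans ?_ h
  push_cast
  exact Dvd.intro _ rfl

section

variable {L e d : ℕ} [NeZero L] [NeZero (L * e * d)]

/-- The conjugation. -/
def conjK (hd : 0 < d) : Gamma0 (L * e * d) → Kd L e d := fun γ =>
  ⟨⟨!![(γ : SL(2, ℤ)) 0 0, d * (γ : SL(2, ℤ)) 0 1; (γ : SL(2, ℤ)) 1 0 / d, (γ : SL(2, ℤ)) 1 1], by
    obtain ⟨c, hc⟩ := mem_Gamma0_iff.mp γ.2
    have hd' : (d : ℤ) ≠ 0 := by exact_mod_cast hd.ne'
    have h1 : (γ : SL(2, ℤ)) 1 0 / d = L * e * c := by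
      rw [hc]
      push_cast
      rw [show (L * e * d * c : ℤ) = L * e * c * d by ring, Int.mul_ediv_cancel _ hd']
    rw [Matrix.det_fin_two_of, h1]
    have := det_eq (γ : SL(2, ℤ))
    rw [hc] at this
    push_cast at this
    linear_combination this⟩, by
    obtain ⟨c, hc⟩ := mem_Gamma0_iff.mp γ.2
    have hd' : (d : ℤ) ≠ 0 := by exact_mod_cast hd.ne'
    have h1 : (γ : SL(2, ℤ)) 1 0 / d = L * e * c := by
      rw [hc]
      push_cast
      rw [show (L * e * d * c : ℤ) = L * e * c * d by ring, Int.mul_ediv_cancel _ hd']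
    refine ⟨mem_Gamma0_iff.mpr ?_, ?_⟩
    · change ((L * e : ℕ) : ℤ) ∣ (γ : SL(2, ℤ)) 1 0 / d
      rw [h1]
      push_cast
      exact Dvd.intro _ rfl
    · exact Dvd.intro _ rfl⟩

omit [NeZero L] [NeZero (L * e * d)] in
theorem conjK_10 (hd : 0 < d) (γ : Gamma0 (L * e * d)) :
    d * (conjK hd γ : SL(2, ℤ)) 1 0 = (γ : SL(2, ℤ)) 1 0 := by
  change d * ((γ : SL(2, ℤ)) 1 0 / d) = (γ : SL(2, ℤ)) 1 0
  refine Int.mul_ediv_cancel' ?_
  have := mem_Gamma0_iff.mp γ.2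
  refine dvd_trans ?_ this
  push_cast
  exact Dvd.intro_left _ rfl

omit [NeZero L] [NeZero (L * e * d)] in
theorem conjK_bijective (hd : 0 < d) : Function.Bijective (conjK (L := L) (e := e) hd) := by
  have hd' : (d : ℤ) ≠ 0 := by exact_mod_cast hd.ne'
  constructor
  · intro γ γ' h
    have h00 : (γ : SL(2, ℤ)) 0 0 = (γ' : SL(2, ℤ)) 0 0 :=
      congrArg (fun x : Kd L e d => (x : SL(2, ℤ)) 0 0) h
    have h01 : (d : ℤ) * (γ : SL(2, ℤ)) 0 1 = d * (γ' : SL(2, ℤ)) 0 1 :=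
      congrArg (fun x : Kd L e d => (x : SL(2, ℤ)) 0 1) h
    have h10 : (γ : SL(2, ℤ)) 1 0 = (γ' : SL(2, ℤ)) 1 0 := by
      rw [← conjK_10 hd γ, ← conjK_10 hd γ', h]
    have h11 : (γ : SL(2, ℤ)) 1 1 = (γ' : SL(2, ℤ)) 1 1 :=
      congrArg (fun x : Kd L e d => (x : SL(2, ℤ)) 1 1) h
    apply Subtype.ext
    ext i j
    fin_cases i <;> fin_cases j
    · exact h00
    · exact mul_left_cancel₀ hd' h01
    · exact h10
    · exact h11
  · intro κ
    obtain ⟨b, hb⟩ := κ.2.2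
    obtain ⟨c, hc⟩ := mem_Gamma0_iff.mp κ.2.1
    have hdet := det_eq (κ : SL(2, ℤ))
    refine ⟨⟨⟨!![(κ : SL(2, ℤ)) 0 0, b; d * (κ : SL(2, ℤ)) 1 0, (κ : SL(2, ℤ)) 1 1], by
      rw [Matrix.det_fin_two_of]; rw [hb] at hdet; linear_combination hdet⟩, ?_⟩, ?_⟩
    · refine mem_Gamma0_iff.mpr ?_
      change ((L * e * d : ℕ) : ℤ) ∣ d * (κ : SL(2, ℤ)) 1 0
      rw [hc]
      exact ⟨c, by push_cast; ring⟩
    · apply Subtype.ext
      ext i j
      fin_cases i <;> fin_cases j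
      · rfl
      · exact hb.symm
      · change (d * (κ : SL(2, ℤ)) 1 0) / d = (κ : SL(2, ℤ)) 1 0
        exact Int.mul_ediv_cancel_left _ hd'
      · rfl

omit [NeZero L] [NeZero (L * e * d)] in
theorem aff_conjK (hd : 0 < d) (γ : Gamma0 (L * e * d)) (z : ℍ) :
    aff 1 d 0 ((conjK hd γ : SL(2, ℤ)) • z) = (γ : SL(2, ℤ)) • aff 1 d 0 z := by
  refine aff_smul one_pos hd one_pos hd ?_ ?_ ?_ ?_ z
  · change ((1 : ℕ) : ℤ) * (γ : SL(2, ℤ)) 0 0 + 0 * _ = (γ : SL(2, ℤ)) 0 0 * ((1 : ℕ) : ℤ)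
    push_cast; ring
  · change ((1 : ℕ) : ℤ) * (d * (γ : SL(2, ℤ)) 0 1) + 0 * _ =
      (γ : SL(2, ℤ)) 0 0 * 0 + (γ : SL(2, ℤ)) 0 1 * d
    push_cast; ring
  · rw [conjK_10]; push_cast; ring
  · change (d : ℤ) * (γ : SL(2, ℤ)) 1 1 = (γ : SL(2, ℤ)) 1 0 * 0 + (γ : SL(2, ℤ)) 1 1 * d
    ring

omit [NeZero L] [NeZero (L * e * d)] in
theorem integrable_aff_inv (hd : 0 < d) {w : ℍ → ℝ} (hw : Integrable w) :
    Integrable (fun τ : ℍ => w (aff 1 d 0 τ)) := by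
  have h1 : Integrable (fun τ : ℍ => w ((dil d hd)⁻¹ • τ)) :=
    (measurePreserving_smul (dil d hd)⁻¹ (volume : Measure ℍ)).integrable_comp_of_integrable hw
  have h2 : (fun τ : ℍ => w (aff 1 d 0 τ)) = fun τ : ℍ => w ((dil d hd)⁻¹ • τ) := by
    funext τ
    rw [aff_inv hd]
  rw [h2]
  exact h1

omit [NeZero L] in
theorem isWt_Kd (hd : 0 < d) : IsWt (Kd L e d) (fun τ => wt (Gamma0 (L * e * d)) (aff 1 d 0 τ)) where
  meas := (measurable_wt _).comp (continuous_aff_inv hd).measurable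
  nonneg τ := wt_nonneg _ _
  int := integrable_aff_inv hd (integrable_wt (Gamma0 (L * e * d)))
  sum τ := by
    have h1 := hasSum_wt (Gamma0 (L * e * d)) (aff 1 d 0 τ)
    have h2 : HasSum (fun γ : Gamma0 (L * e * d) => wt (Gamma0 (L * e * d))
        (aff 1 d 0 ((conjK hd γ : SL(2, ℤ)) • τ))) 1 := by
      simpa only [aff_conjK] using h1
    exact (Equiv.ofBijective _ (conjK_bijective (L := L) (e := e) hd)).hasSum_iff.mp h2

omit [NeZero L] in
theorem slash_Kd (hd : 0 < d) {k : ℤ} (v : CuspForm (Gamma0 (L * e * d)) k) {κ : SL(2, ℤ)}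
    (hκ : κ ∈ Kd L e d) : (fun z => v (aff 1 d 0 z)) ∣[k] κ = fun z => v (aff 1 d 0 z) := by
  obtain ⟨γ, hγ⟩ := (conjK_bijective (L := L) (e := e) hd).2 ⟨κ, hκ⟩
  have hd' : (d : ℂ) ≠ 0 := by exact_mod_cast hd.ne'
  have hκ' : (conjK hd γ : SL(2, ℤ)) = κ := congrArg Subtype.val hγ
  rw [← hκ', slash_aff (δ := (γ : SL(2, ℤ))) (a' := 1) (d' := d) (b' := 0) (v : ℍ → ℂ) one_pos hd
    one_pos hd (by
      change ((1 : ℕ) : ℤ) * (γ : SL(2, ℤ)) 0 0 + 0 * _ = (γ : SL(2, ℤ)) 0 0 * ((1 : ℕ) : ℤ)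
      push_cast; ring) (by
      change ((1 : ℕ) : ℤ) * (d * (γ : SL(2, ℤ)) 0 1) + 0 * _ =
        (γ : SL(2, ℤ)) 0 0 * 0 + (γ : SL(2, ℤ)) 0 1 * d
      push_cast; ring) (by rw [conjK_10]; push_cast; ring) (by
      change (d : ℤ) * (γ : SL(2, ℤ)) 1 1 = (γ : SL(2, ℤ)) 1 0 * 0 + (γ : SL(2, ℤ)) 1 1 * d
      ring)]
  have h2 : (v : ℍ → ℂ) ∣[k] (γ : SL(2, ℤ)) = v := (isMN_coe v).slash _ γ.2
  rw [h2]
  ext z
  simp [div_self hd']

end

/-! ### Traces of cusp forms -/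

section Trace

variable {K Γ : Subgroup SL(2, ℤ)} {ι : Type} [Fintype ι] {r : ι → SL(2, ℤ)} {k : ℤ}

theorem IsReps.slash_sum (hr : IsReps K Γ r) {v : ℍ → ℂ} (hv : ∀ γ ∈ K, v ∣[k] γ = v)
    {γ : SL(2, ℤ)} (hγ : γ ∈ Γ) : (∑ i, v ∣[k] (r i)) ∣[k] γ = ∑ i, v ∣[k] (r i) := by
  have h1 : ∀ i, ∃ j, ∃ κ ∈ K, r i * γ = κ * r j := by
    intro i
    obtain ⟨⟨j, κ⟩, h⟩ := hr.bij.2 ⟨(r i * γ)⁻¹, Γ.inv_mem (Γ.mul_mem (hr.mem i) hγ)⟩
    have h' : (r j)⁻¹ * (κ : SL(2, ℤ)) = (r i * γ)⁻¹ := congrArg Subtype.val h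
    refine ⟨j, (κ : SL(2, ℤ))⁻¹, K.inv_mem κ.2, ?_⟩
    rw [← inv_inv (r i * γ), ← h', _root_.mul_inv_rev, inv_inv]
  choose σ κ hκ hσ using h1
  have hinj : Function.Injective σ := by
    intro i i' h
    have h2 : r i' = (κ i' * (κ i)⁻¹) * r i := by
      have e1 := hσ i
      have e2 := hσ i'
      rw [← h] at e2
      have e3 : r (σ i) = (κ i)⁻¹ * (r i * γ) := by rw [e1, inv_mul_cancel_left]
      rw [e3] at e2
      have e4 : r i' * γ = (κ i' * (κ i)⁻¹ * r i) * γ := by rw [e2]; group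
      exact mul_right_cancel e4
    have h3 := hr.bij.1 (a₁ := (i, ⟨1, K.one_mem⟩)) (a₂ := (i', ⟨κ i' * (κ i)⁻¹,
      K.mul_mem (hκ i') (K.inv_mem (hκ i))⟩)) (by
        apply Subtype.ext
        change (r i)⁻¹ * 1 = (r i')⁻¹ * (κ i' * (κ i)⁻¹)
        rw [h2]
        group)
    exact congrArg Prod.fst h3
  have hbij : Function.Bijective σ := Finite.injective_iff_bijective.mp hinj
  rw [SlashAction.sum_slash]
  rw [← hbij.sum_comp (fun j => v ∣[k] (r j))]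
  refine Finset.sum_congr rfl fun i _ => ?_
  rw [← SlashAction.slash_mul, hσ i, SlashAction.slash_mul, hv _ (hκ i)]

theorem mdiff_sum {f : ι → ℍ → ℂ} (hf : ∀ i, MDiff (f i)) : MDiff (∑ i, f i) := by
  classical
  induction (Finset.univ : Finset ι) using Finset.induction_on with
  | empty => rw [Finset.sum_empty]; exact mdifferentiable_const
  | insert a s ha ih => rw [Finset.sum_insert ha]; exact (hf a).add ih

theorem isCuspidal_sum {f : ι → ℍ → ℂ} (hf : ∀ i, IsCuspidal k (f i)) :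
    IsCuspidal k (∑ i, f i) := by
  intro γ
  rw [SlashAction.sum_slash]
  classical
  induction (Finset.univ : Finset ι) using Finset.induction_on with
  | empty => rw [Finset.sum_empty]; exact zero_zeroAtFilter _
  | insert a s ha ih => rw [Finset.sum_insert ha]; exact ZeroAtFilter.add (hf a γ) ih

/-- The trace. -/
theorem exists_cuspForm {L : ℕ} [NeZero L] {v : ℍ → ℂ} (hv : MDiff v) (hc : IsCuspidal k v)
    (hinv : ∀ γ ∈ Gamma0 L, (∑ i, v ∣[k] (r i)) ∣[k] γ = ∑ i, v ∣[k] (r i)) :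
    ∃ y : CuspForm (Gamma0 L) k, (y : ℍ → ℂ) = ∑ i, v ∣[k] (r i) := by
  have h1 : MDiff (∑ i, v ∣[k] (r i)) := mdiff_sum fun i => MDifferentiable.slash hv k _
  have h2 : IsCuspidal k (∑ i, v ∣[k] (r i)) := isCuspidal_sum fun i γ => by
    rw [← SlashAction.slash_mul]
    exact hc _
  have h3 : IsMN L k (∑ i, v ∣[k] (r i)) := ⟨hinv, h1, fun γ => (h2 γ).isBoundedAtImInfty⟩
  exact ⟨h3.cuspForm h2, rfl⟩

end Trace

section Adjoint

variable {L e d : ℕ} [NeZero L] [NeZero (L * e * d)]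

instance finiteIndex_Kd : (Kd L e d).FiniteIndex := by
  haveI h0 : NeZero (L * e) := ⟨fun h => NeZero.ne (L * e * d) (by rw [h, zero_mul])⟩
  haveI h1 : NeZero (L * e * d) := inferInstance
  have h2 : Gamma (L * e * d) ≤ Kd L e d := by
    intro γ hγ
    rw [mem_Gamma_iff] at hγ
    refine ⟨mem_Gamma0_iff.mpr (dvd_trans ?_ hγ.2.2.1), dvd_trans ?_ hγ.2.1⟩
    · push_cast; exact Dvd.intro _ rfl
    · push_cast; exact Dvd.intro_left _ rfl
  exact Subgroup.finiteIndex_of_le h2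

/-- **The adjoint of a degeneracy map.** -/
theorem exists_adj (hd : 0 < d) (h : L * d ∣ L * e * d) {k : ℤ}
    (v : CuspForm (Gamma0 (L * e * d)) k) :
    ∃ (ι : Type) (_ : Fintype ι) (r : ι → SL(2, ℤ)) (y : CuspForm (Gamma0 L) k),
      (∀ i, r i ∈ Gamma0 L) ∧
      (y : ℍ → ℂ) = ∑ i, (fun z => v (aff 1 d 0 z)) ∣[k] (r i) ∧
      ∀ c : CuspForm (Gamma0 L) k, ip (degen hd h k c) v = (d : ℂ) ^ (-k) * ip c y := by
  obtain ⟨ι, hι, r, hr⟩ := exists_reps (Kd_le L e d)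
  have hv : ∀ γ ∈ Kd L e d, (fun z => v (aff 1 d 0 z)) ∣[k] γ = fun z => v (aff 1 d 0 z) :=
    fun γ hγ => slash_Kd hd v hγ
  obtain ⟨y, hy⟩ := exists_cuspForm (r := r) (L := L)
    (mdiff_comp_aff (isMN_coe v).holo one_pos hd 0) (isCuspidal_aff (isCuspidal_coe v) one_pos hd)
    (fun γ hγ => hr.slash_sum hv hγ)
  refine ⟨ι, hι, r, y, hr.mem, hy, fun c => ?_⟩
  have hd' : (d : ℂ) ≠ 0 := by exact_mod_cast hd.ne'
  have hpet : ∀ τ, petersson k c (fun z => v (aff 1 d 0 z)) (aff d 1 0 τ) =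
      (d : ℂ) ^ k * petersson k (degen hd h k c) v τ := by
    intro τ
    simp only [petersson]
    rw [aff_aff_self hd, im_aff hd, degen_apply]
    push_cast
    rw [mul_zpow]
    ring
  have hpet' : petersson k c (fun z => v (aff 1 d 0 z)) =
      fun τ => (d : ℂ) ^ k * petersson k (degen hd h k c) v (aff 1 d 0 τ) := by
    funext τ
    have := hpet (aff 1 d 0 τ)
    rw [← this]
    congr 1
    rw [aff_inv hd, ← dil_smul hd, smul_inv_smul]
  have hcont : Continuous (petersson k c (fun z => v (aff 1 d 0 z))) := by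
    rw [hpet']
    exact continuous_const.mul ((continuous_pet _ _).comp (continuous_aff_inv hd))
  obtain ⟨C, hC⟩ := exists_bound_pet (degen hd h k c) v
  have hbd : ∀ τ, ‖petersson k c (fun z => v (aff 1 d 0 z)) τ‖ ≤ ‖(d : ℂ) ^ k‖ * C := by
    intro τ
    rw [hpet', norm_mul]
    exact mul_le_mul_of_nonneg_left (hC _) (norm_nonneg _)
  have hcinv : ∀ γ ∈ Gamma0 L, (c : ℍ → ℂ) ∣[k] γ = c := fun γ hγ => (isMN_coe c).slash γ hγ
  have key := integral_trace hr (isWt_wt (Gamma0 L)) (isWt_Kd (L := L) (e := e) hd) hcinv hv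
    hcont hbd
  have e1 : ip c y = ∫ τ, (wt (Gamma0 L) τ : ℂ) *
      petersson k c (∑ i, (fun z => v (aff 1 d 0 z)) ∣[k] (r i)) τ := by
    rw [ip, hy]
  rw [e1, key, ← integral_aff hd]
  have e2 : ∀ τ, (wt (Gamma0 (L * e * d)) (aff 1 d 0 (aff d 1 0 τ)) : ℂ) *
      petersson k c (fun z => v (aff 1 d 0 z)) (aff d 1 0 τ) =
      (d : ℂ) ^ k * ((wt (Gamma0 (L * e * d)) τ : ℂ) * petersson k (degen hd h k c) v τ) := by
    intro τ
    rw [hpet, aff_aff_self hd]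
    ring
  simp only [e2]
  rw [integral_const_mul, ← mul_assoc, ← zpow_add₀ hd', neg_add_cancel, zpow_zero, one_mul]
  rfl

end Adjoint

end Fermat.Agent.AL
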