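import Mathlib
import Fermat.Agent.AL.Level
import Fermat.Agent.H22.Hecke

set_option autoImplicit false

/-!
# Further versions of the main lemma
-/

namespace Fermat.Agent.AL

open UpperHalfPlane Function ModularForm PowerSeries CongruenceSubgroup Filter
open scoped Manifold Topology MatrixGroups ModularForm Real
open Fermat.Agent.IntStr
open ModularFormClass (qCoeff)

noncomputable section

attribute [local instance] Gamma_normal

theorem sqprod_ne_zero {l : List ℕ} (hl : ∀ q ∈ l, q.Prime) : (l.map (· ^ 2)).prod ≠ 0 := by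
  refine List.prod_ne_zero fun h0 ↦ ?_
  obtain ⟨a, ha, ha2⟩ := List.mem_map.mp h0
  exact (pow_pos (hl a ha).pos 2).ne' ha2

variable {N : ℕ} [NeZero N] {k : ℤ}

/-- A form supported on multiples of `p`, `p ∣ N`, comes from level `N / p`. -/
theorem one_prime {p : ℕ} (hp : p.Prime) (hpN : p ∣ N) [NeZero (N / p)] (f : CuspForm (Gamma0 N) k)
    (h : ∀ n : ℕ, ¬ p ∣ n → qCoeff f n = 0) :
    ∃ g : CuspForm (Gamma0 (N / p)) k, f = degen hp.pos (Nat.div_mul_cancel hpN).dvd k g := by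
  have hN : 0 < N := Nat.pos_of_ne_zero (NeZero.ne N)
  have hNr : (0 : ℝ) < N := by exact_mod_cast hN
  have h1 : cyc (rho N k (tq N p)) p (up N k f) = up N k f := by
    apply Subtype.ext
    refine eq_of_qExpansion_eq hNr (VN.mem_QR (Subtype.mem _)) (VN.mem_QR (Subtype.mem _)) ?_
    ext n
    rw [coeff_cyc hp.pos hpN, coeff_up]
    split_ifs with hn
    · rfl
    · exact (h n hn).symm
  have ht : (rho N k (tq N p)) ^ p = 1 := by
    rw [← map_pow]
    have : (tq N p) ^ p = 1 := by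
      rw [← QuotientGroup.mk_pow, QuotientGroup.eq_one_iff, ← zpow_natCast, ← _root_.zpow_mul]
      apply T_mem_Gamma
      exact_mod_cast (Nat.div_mul_cancel hpN).symm.dvd
    rw [this, map_one]
  have h2 := fixed_of_cyc ht h1
  have h3 := gup_div_fixed hp hpN (up N k f) (fun γ hγ ↦ up_slash f hγ) h2
  refine ⟨down (up N k f) (N / p) h3, ?_⟩
  have hpos : 0 < N / p := Nat.pos_of_ne_zero (NeZero.ne _)
  ext z
  change f z = f (aff 1 N 0 (aff (N / p) 1 0 (aff p 1 0 z)))
  rw [aff_aff hpos hp.pos, Nat.div_mul_cancel hpN, aff_aff_self hN]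

/-- `f(z) = h(p z)` with `f, h` of level `N` prime to `p` is impossible. -/
theorem eq_zero_of_eq_degen {p : ℕ} (hp : p.Prime) (hpN : ¬ p ∣ N) (f h : CuspForm (Gamma0 N) k)
    (hfh : ∀ z, f z = h (aff p 1 0 z)) : f = 0 := by
  have hcop : Nat.Coprime p N := (Nat.Prime.coprime_iff_not_dvd hp).mpr hpN
  obtain ⟨u, v, huv⟩ := (Nat.isCoprime_iff_coprime.mpr hcop)
  let γ : SL(2, ℤ) := ⟨!![u, -v; N, p], by rw [Matrix.det_fin_two_of]; linear_combination huv⟩
  let δ : SL(2, ℤ) := ⟨!![p * u, -v; N, 1], by rw [Matrix.det_fin_two_of]; linear_combination huv⟩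
  have h1 := slash_aff (k := k) (h : ℍ → ℂ) (a := p) (d := 1) (a' := 1) (d' := p) (b := 0)
    (b' := 0) (γ := γ) (δ := δ) hp.pos one_pos one_pos hp.pos
    (by change (p : ℤ) * u + 0 * _ = (p * u) * _; push_cast; ring)
    (by change (p : ℤ) * (-v) + 0 * _ = _ * 0 + (-v) * _; push_cast; ring)
    (by change ((1 : ℕ) : ℤ) * N = N * ((1 : ℕ) : ℤ); ring)
    (by change ((1 : ℕ) : ℤ) * p = N * 0 + 1 * p; push_cast; ring)
  have hγ : γ ∈ Gamma0 N := by rw [mem_Gamma0_iff]; exact dvd_rfl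
  have hδ : δ ∈ Gamma0 N := by rw [mem_Gamma0_iff]; exact dvd_rfl
  have h2 : (f : ℍ → ℂ) = fun z ↦ h (aff p 1 0 z) := funext hfh
  have h3 := (isMN_coe f).slash γ hγ
  have h4 := (isMN_coe h).slash δ hδ
  rw [h2, h1, h4] at h3
  have hp0 : (p : ℂ) ≠ 0 := by exact_mod_cast hp.ne_zero
  -- `h(z) = p ^ k h(p ^ 2 z)`
  have h5 : ∀ z, (h : ℍ → ℂ) z = (p : ℂ) ^ k * h (aff (p ^ 2) 1 0 z) := by
    intro z
    have h6 := congrFun h3 (aff p 1 0 z)
    simp only [Nat.cast_one, one_div] at h6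
    rw [aff_aff_self hp.pos, aff_aff hp.pos hp.pos, ← pow_two] at h6
    rw [← h6, inv_zpow, ← mul_assoc, mul_inv_cancel₀ (zpow_ne_zero k hp0), one_mul]
  have hp2 : 0 < p ^ 2 := pow_pos hp.pos 2
  haveI : NeZero (N * p ^ 2) := ⟨mul_ne_zero (NeZero.ne N) hp2.ne'⟩
  have hcoef : ∀ n, qCoeff h n = (p : ℂ) ^ k * if p ^ 2 ∣ n then qCoeff h (n / p ^ 2) else 0 := by
    intro n
    have h7 : (h : ℍ → ℂ) = (p : ℂ) ^ k • fun z ↦ h (aff (p ^ 2) 1 0 z) := funext h5
    have hmem : (fun z ↦ h (aff (p ^ 2) 1 0 z)) ∈ QR 1 :=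
      coe_mem_QR (degen (M := N) (N := N * p ^ 2) hp2 dvd_rfl k h)
    have h8 := map_smul (qHom 1 one_pos) ((p : ℂ) ^ k) ⟨_, hmem⟩
    have h9 := congrArg (fun F ↦ PowerSeries.coeff n F) h8
    simp only [qHom_apply, PowerSeries.coeff_smul, smul_eq_mul] at h9
    rw [← qExp_comp_mul (coe_mem_QR h) hp2 hmem n, qCoeff, qCoeff, ← h9]
    conv_lhs => rw [h7]
    rfl
  have hzero : ∀ n, qCoeff h n = 0 := by
    intro n
    induction n using Nat.strong_induction_on with
    | _ n ih =>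
      rcases Nat.eq_zero_or_pos n with rfl | hn
      · exact H22.cusp_qCoeff_zero h
      · rw [hcoef]
        split_ifs with hd
        · rw [ih (n / p ^ 2) (Nat.div_lt_self hn (Nat.one_lt_pow two_ne_zero hp.one_lt)), mul_zero]
        · rw [mul_zero]
  have hh : h = 0 := cusp_ext fun n ↦ by rw [hzero, qCoeff_zero']
  ext z
  rw [hfh, hh]
  rfl

/-- A form of level prime to `p` supported on multiples of `p` vanishes. -/
theorem eq_zero_of_support {p : ℕ} (hp : p.Prime) (hpN : ¬ p ∣ N) (f : CuspForm (Gamma0 N) k)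
    (h : ∀ n : ℕ, ¬ p ∣ n → qCoeff f n = 0) : f = 0 := by
  haveI : NeZero (N * p) := ⟨mul_ne_zero (NeZero.ne N) hp.ne_zero⟩
  have hdiv : N * p / p = N := Nat.mul_div_cancel N hp.pos
  haveI : NeZero (N * p / p) := ⟨by rw [hdiv]; exact NeZero.ne N⟩
  have hd : N * 1 ∣ N * p := by rw [mul_one]; exact dvd_mul_right _ _
  obtain ⟨g, hg⟩ := one_prime (N := N * p) hp (dvd_mul_left _ _) (degen one_pos hd k f)
    (fun n hn ↦ by rw [qCoeff_degen, if_pos (one_dvd n), Nat.div_one]; exact h n hn)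
  have hM : N * p / p * 1 ∣ N := by rw [hdiv, mul_one]
  refine eq_zero_of_eq_degen hp hpN f (degen one_pos hM k g) fun z ↦ ?_
  have h1 := congrArg (fun F : CuspForm (Gamma0 (N * p)) k ↦ F z) hg
  simp only [degen_apply] at h1 ⊢
  have haff : ∀ z : ℍ, aff 1 1 0 z = z := fun z ↦ by
    apply UpperHalfPlane.ext
    rw [coe_aff one_pos one_pos]
    simp
  rw [haff] at h1 ⊢
  exact h1

/-- depletion at a prime -/
theorem exists_depletion {q : ℕ} (hq : q.Prime) (f : CuspForm (Gamma0 N) k) (M : ℕ) [NeZero M]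
    (hM : N * q ^ 2 ∣ M) :
    ∃ g : CuspForm (Gamma0 M) k, ∀ n, qCoeff g n = if q ∣ n then 0 else qCoeff f n := by
  haveI : NeZero (N * q) := ⟨mul_ne_zero (NeZero.ne N) hq.ne_zero⟩
  have h1 : N * 1 ∣ N * q := by rw [mul_one]; exact dvd_mul_right _ _
  have h2 : N * q * q ∣ M := by rwa [mul_assoc, ← pow_two]
  have h3 : N * 1 ∣ M := h1.trans ((dvd_mul_right _ _).trans h2)
  refine ⟨degen one_pos h3 k f - degen hq.pos h2 k
    (CuspForm.heckeULin k (dvd_mul_left q N) (degen one_pos h1 k f)), fun n ↦ ?_⟩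
  rw [qCoeff_sub, qCoeff_degen, qCoeff_degen, if_pos (one_dvd n), Nat.div_one,
    H22.qCoeff_heckeULin, coeffHeckeU_apply, qCoeff_degen, if_pos (one_dvd _), Nat.div_one]
  split_ifs with hd
  · rw [Nat.div_mul_cancel hd, sub_self]
  · rw [sub_zero]

/-- depletion at a finite set of primes -/
theorem exists_depletion_list (l : List ℕ) (hl : ∀ q ∈ l, q.Prime) (f : CuspForm (Gamma0 N) k)
    (M : ℕ) [NeZero M] (hM : N * (l.map (· ^ 2)).prod ∣ M) :
    ∃ g : CuspForm (Gamma0 M) k, ∀ n, qCoeff g n = if ∀ q ∈ l, ¬ q ∣ n then qCoeff f n else 0 := by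
  induction l generalizing M with
  | nil =>
    simp only [List.map_nil, List.prod_nil] at hM
    refine ⟨degen one_pos hM k f, fun n ↦ ?_⟩
    rw [qCoeff_degen]
    simp
  | cons q l ih =>
    have hq := hl q (by simp)
    have hprod : (l.map (· ^ 2)).prod ≠ 0 := sqprod_ne_zero fun q hq ↦ hl q (by simp [hq])
    haveI : NeZero (N * (l.map (· ^ 2)).prod) := ⟨mul_ne_zero (NeZero.ne N) hprod⟩
    obtain ⟨g, hg⟩ := ih (fun q hq ↦ hl q (by simp [hq])) (N * (l.map (· ^ 2)).prod) dvd_rfl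
    obtain ⟨g', hg'⟩ := exists_depletion hq g M (by
      rw [List.map_cons, List.prod_cons] at hM
      convert hM using 1
      ring)
    refine ⟨g', fun n ↦ ?_⟩
    rw [hg', hg]
    by_cases hd : q ∣ n
    · simp [hd]
    · simp [hd]

/-- forms of level `N` supported away from numbers prime to finitely many primes not dividing the
level vanish -/
theorem eq_zero_of_support_list (l : List ℕ) (hl : ∀ q ∈ l, q.Prime ∧ ¬ q ∣ N) (hnd : l.Nodup)
    (f : CuspForm (Gamma0 N) k)
    (h : ∀ n : ℕ, (∀ q ∈ l, ¬ q ∣ n) → qCoeff f n = 0) : f = 0 := by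
  induction l with
  | nil => exact cusp_ext fun n ↦ by rw [h n (by simp), qCoeff_zero']
  | cons q l ih =>
    have hq := hl q (by simp)
    rw [List.nodup_cons] at hnd
    refine ih (fun q hq ↦ hl q (by simp [hq])) hnd.2 fun n hn ↦ ?_
    have hl' : ∀ q ∈ l, q.Prime := fun q hq ↦ (hl q (by simp [hq])).1
    have hprod : (l.map (· ^ 2)).prod ≠ 0 := sqprod_ne_zero hl'
    haveI : NeZero (N * (l.map (· ^ 2)).prod) := ⟨mul_ne_zero (NeZero.ne N) hprod⟩
    obtain ⟨g, hg⟩ := exists_depletion_list l hl' f (N * (l.map (· ^ 2)).prod) dvd_rfl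
    have hndvd : ¬ q ∣ N * (l.map (· ^ 2)).prod := by
      intro hd
      rcases hq.1.dvd_mul.mp hd with hd | hd
      · exact hq.2 hd
      · obtain ⟨a, ha, ha2⟩ := (Prime.dvd_prod_iff hq.1.prime).mp hd
        obtain ⟨b, hb, rfl⟩ := List.mem_map.mp ha
        have := (Nat.prime_dvd_prime_iff_eq hq.1 (hl' b hb)).mp (hq.1.dvd_of_dvd_pow ha2)
        exact hnd.1 (this ▸ hb)
    have hg0 : g = 0 := by
      refine eq_zero_of_support hq.1 hndvd g fun m hm ↦ ?_
      rw [hg]
      split_ifs with hm'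
      · exact h m (by
          intro a ha
          rcases List.mem_cons.mp ha with rfl | ha
          · exact hm
          · exact hm' a ha)
      · rfl
    have h2 := hg n
    rw [if_pos hn, hg0, qCoeff_zero'] at h2
    exact h2.symm

/-- If the coefficients of `f` vanish at all `n` prime to `N D` then they vanish at all `n` prime
to `N`. -/
theorem coeff_eq_zero_of_coprime (f : CuspForm (Gamma0 N) k) {D : ℕ} (hD : D ≠ 0)
    (h : ∀ n : ℕ, n.Coprime N → n.Coprime D → qCoeff f n = 0) :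
    ∀ n : ℕ, n.Coprime N → qCoeff f n = 0 := by
  intro n hn
  have hl : ∀ q ∈ N.primeFactors.toList, q.Prime := fun q hq ↦
    Nat.prime_of_mem_primeFactors (by simpa using hq)
  set M := N * (N.primeFactors.toList.map (· ^ 2)).prod with hM
  have hprod : (N.primeFactors.toList.map (· ^ 2)).prod ≠ 0 := sqprod_ne_zero hl
  haveI : NeZero M := ⟨mul_ne_zero (NeZero.ne N) hprod⟩
  have hMdvd : ∀ q : ℕ, q.Prime → q ∣ M → q ∣ N := by
    intro q hq hd
    rcases hq.dvd_mul.mp hd with hd | hd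
    · exact hd
    · obtain ⟨a, ha, ha2⟩ := (Prime.dvd_prod_iff hq.prime).mp hd
      obtain ⟨b, hb, rfl⟩ := List.mem_map.mp ha
      have := (Nat.prime_dvd_prime_iff_eq hq (hl b hb)).mp (hq.dvd_of_dvd_pow ha2)
      rw [this]
      exact Nat.dvd_of_mem_primeFactors (by simpa using hb)
  have hcop : ∀ m : ℕ, (∀ q ∈ N.primeFactors.toList, ¬ q ∣ m) ↔ m.Coprime N := by
    intro m
    constructor
    · intro hm
      by_contra hc
      obtain ⟨p, hp, hpm, hpN⟩ := Nat.Prime.not_coprime_iff_dvd.mp hc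
      exact hm p (by simp [hp, hpN, NeZero.ne N]) hpm
    · intro hm q hq hqm
      have h1 := hl q hq
      have h2 : q ∣ N := Nat.dvd_of_mem_primeFactors (by simpa using hq)
      exact Nat.not_coprime_of_dvd_of_dvd h1.one_lt hqm h2 hm
  obtain ⟨F, hF⟩ := exists_depletion_list N.primeFactors.toList hl f M dvd_rfl
  have hF0 : F = 0 := by
    refine eq_zero_of_support_list (D.primeFactors \ N.primeFactors).toList ?_
      (Finset.nodup_toList _) F ?_
    · intro q hq
      simp only [Finset.mem_toList, Finset.mem_sdiff, Nat.mem_primeFactors] at hq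
      exact ⟨hq.1.1, fun hd ↦ hq.2 ⟨hq.1.1, hMdvd q hq.1.1 hd, NeZero.ne N⟩⟩
    · intro m hm
      rw [hF]
      split_ifs with hm'
      · have hmN := (hcop m).mp hm'
        refine h m hmN ?_
        by_contra hc
        obtain ⟨p, hp, hpm, hpD⟩ := Nat.Prime.not_coprime_iff_dvd.mp hc
        refine hm p ?_ hpm
        simp only [Finset.mem_toList, Finset.mem_sdiff, Nat.mem_primeFactors]
        exact ⟨⟨hp, hpD, hD⟩, fun hpN ↦ Nat.not_coprime_of_dvd_of_dvd hp.one_lt hpm hpN.2.1 hmN⟩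
      · rfl
  have h2 := hF n
  rw [if_pos ((hcop n).mpr hn), hF0, qCoeff_zero'] at h2
  exact h2.symm

end

end Fermat.Agent.AL
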