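import Mathlib
import Fermat.Agent.AL.Extended
import Fermat.Agent.H22.Eigen
import Fermat.Prelude.Def_CuspForm_Newforms

set_option autoImplicit false
set_option linter.style.haveILetI false
set_option linter.deprecated false

/-!
# Strong multiplicity one for newforms of weight two and level `Γ₀(N)`
-/

namespace Fermat.Agent.AL

open UpperHalfPlane Function ModularForm PowerSeries CongruenceSubgroup Filter
open scoped Manifold Topology MatrixGroups ModularForm Real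
open ModularFormClass (qCoeff)

noncomputable section

/-! ### common eigenvectors -/

section Eigen

variable {K V W ι : Type*} [Field K] [IsAlgClosed K] [AddCommGroup V] [Module K V]
  [FiniteDimensional K V] [AddCommGroup W] [Module K W]

theorem exists_common_eigenvector (T : ι → Module.End K V) (hT : ∀ i j, T i * T j = T j * T i)
    (B : V →ₗ[K] W) (hB : ∀ i v, B v = 0 → B (T i v) = 0) (J : Set ι) (a : ι → K) (w : V)
    (hw : B w ≠ 0) (hev : ∀ i ∈ J, B (T i w) = a i • B w) :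
    ∃ (v : V) (lam : ι → K), v ≠ 0 ∧ (∀ i, T i v = lam i • v) ∧ ∀ i ∈ J, lam i = a i := by
  classical
  let A := Algebra.adjoin K (Set.range T)
  letI : CommRing A := Algebra.adjoinCommRingOfComm K (by
    rintro _ ⟨i, rfl⟩ _ ⟨j, rfl⟩
    exact hT i j)
  let ρ : A →+* Module.End K V := A.val.toRingHom
  have hρ : Function.Injective ρ := Subtype.val_injective
  have hstab : ∀ (x : A) (v : V), B v = 0 → B (ρ x v) = 0 := by
    rintro ⟨x, hx⟩
    change ∀ v : V, B v = 0 → B (x v) = 0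
    induction hx using Algebra.adjoin_induction with
    | mem x hx => obtain ⟨i, rfl⟩ := hx; exact hB i
    | algebraMap r => intro v hv; simp [hv]
    | add x y _ _ hx hy =>
      intro v hv
      rw [LinearMap.add_apply, map_add, hx v hv, hy v hv, add_zero]
    | mul x y _ _ hx hy =>
      intro v hv
      exact hx _ (hy v hv)
  let I : Ideal A :=
    { carrier := {x | B (ρ x w) = 0}
      add_mem' := fun {x y} hx hy ↦ by
        change B (ρ (x + y) w) = 0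
        rw [map_add, LinearMap.add_apply, map_add, hx, hy, add_zero]
      zero_mem' := by
        change B (ρ 0 w) = 0
        rw [map_zero, LinearMap.zero_apply, map_zero]
      smul_mem' := fun c x hx ↦ by
        change B (ρ (c * x) w) = 0
        rw [map_mul]
        exact hstab c _ hx }
  have hI : I ≠ ⊤ := by
    rw [Ideal.ne_top_iff_one]
    intro h1
    have : B (ρ 1 w) = 0 := h1
    rw [map_one, Module.End.one_apply] at this
    exact hw this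
  obtain ⟨P, hP, hIP⟩ := Ideal.exists_le_maximal I hI
  haveI := hP.isPrime
  obtain ⟨χ, v, hv, hχ, hker⟩ := Fermat.Agent.H22.exists_character_of_prime ρ hρ P
  have hmem : ∀ i, T i ∈ A := fun i ↦ Algebra.subset_adjoin ⟨i, rfl⟩
  let t : ι → A := fun i ↦ ⟨T i, hmem i⟩
  let s : K → A := fun c ↦ algebraMap K A c
  have hs : ∀ c, χ (s c) = c := by
    intro c
    have h1 := hχ (s c)
    have h2 : ρ (s c) v = c • v := rfl
    rw [h2] at h1
    by_contra hc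
    have h3 : (c - χ (s c)) • v = 0 := by rw [sub_smul, ← h1, sub_self]
    rcases smul_eq_zero.mp h3 with h | h
    · exact hc (sub_eq_zero.mp h).symm
    · exact hv h
  refine ⟨v, fun i ↦ χ (t i), hv, fun i ↦ hχ (t i), fun i hi ↦ ?_⟩
  have h1 : t i - s (a i) ∈ P := hIP (by
    change B (ρ (t i - s (a i)) w) = 0
    rw [map_sub, LinearMap.sub_apply, map_sub, sub_eq_zero]
    change B (T i w) = B (a i • w)
    rw [hev i hi, map_smul])
  have h2 : t i - s (χ (t i)) ∈ P := hker (by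
    rw [RingHom.mem_ker, map_sub, hs, sub_self])
  have h3 : s (χ (t i) - a i) ∈ P := by
    have h4 : s (χ (t i) - a i) = (t i - s (a i)) - (t i - s (χ (t i))) := by
      change algebraMap K A _ = (t i - algebraMap K A _) - (t i - algebraMap K A _)
      rw [map_sub]
      ring
    rw [h4]
    exact P.sub_mem h1 h2
  by_contra hne
  refine hP.ne_top (P.eq_top_of_isUnit_mem h3 ?_)
  exact (IsUnit.mk0 _ (sub_ne_zero.mpr hne)).map (algebraMap K A)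

end Eigen

/-! ### Hecke operators and degeneracy maps -/

section Degen

variable {M N d : ℕ} [NeZero M] [NeZero N]

theorem degen_heckeTLin (hd : 0 < d) (h : M * d ∣ N) (k : ℤ) {ℓ : ℕ} (hℓ : ℓ.Prime)
    (hM : ¬ ℓ ∣ M) (hN : ¬ ℓ ∣ N) (f : CuspForm (Gamma0 M) k) :
    degen hd h k (CuspForm.heckeTLin k hℓ hM f) = CuspForm.heckeTLin k hℓ hN (degen hd h k f) := by
  have hdN : d ∣ N := (dvd_mul_left d M).trans h
  have hcop : Nat.Coprime d ℓ := (Nat.Coprime.symm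
    ((Nat.Prime.coprime_iff_not_dvd hℓ).mpr fun hh ↦ hN (hh.trans hdN)))
  refine cusp_ext fun n ↦ ?_
  rw [qCoeff_degen, H22.qCoeff_heckeTLin, H22.qCoeff_heckeTLin, coeffHeckeT_apply,
    coeffHeckeT_apply, qCoeff_degen, qCoeff_degen]
  have h1 : d ∣ n * ℓ ↔ d ∣ n := hcop.dvd_mul_right
  by_cases hdn : d ∣ n
  · rw [if_pos hdn, if_pos (h1.mpr hdn)]
    obtain ⟨m, rfl⟩ := hdn
    have h2 : ℓ ∣ d * m ↔ ℓ ∣ m := hcop.symm.dvd_mul_left
    rw [Nat.mul_div_cancel_left _ hd, mul_assoc, Nat.mul_div_cancel_left _ hd]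
    congr 1
    by_cases hm : ℓ ∣ m
    · obtain ⟨c, rfl⟩ := hm
      rw [if_pos (dvd_mul_right _ _), if_pos (h2.mpr (dvd_mul_right _ _)),
        Nat.mul_div_cancel_left _ hℓ.pos,
        show d * (ℓ * c) = ℓ * (d * c) by ring, Nat.mul_div_cancel_left _ hℓ.pos,
        if_pos (dvd_mul_right _ _), Nat.mul_div_cancel_left _ hd]
    · rw [if_neg hm, if_neg (fun hh ↦ hm (h2.mp hh))]
  · rw [if_neg hdn, if_neg (fun hh ↦ hdn (h1.mp hh)), zero_add]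
    split_ifs with h3 h4
    · exact absurd (h4.trans (Nat.div_dvd_of_dvd h3)) hdn
    · rw [mul_zero]
    · rfl

end Degen

/-! ### eigenforms away from finitely many primes -/

section Away

variable {N : ℕ} [NeZero N]

/-- The coefficients of an eigenvector (for `ℓ` prime to `N D`) at integers prime to `N D` vanish
when the first one vanishes. -/
theorem coeff_eq_zero_away {D : ℕ} {f : CuspForm (Gamma0 N) 2} {a : ℕ → ℂ}
    (hf : ∀ (ℓ : ℕ) (hℓ : ℓ.Prime) (hℓN : ¬ ℓ ∣ N), ¬ ℓ ∣ D →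
      CuspForm.heckeTLin 2 hℓ hℓN f = a ℓ • f) (h1 : qCoeff f 1 = 0) (n : ℕ)
    (hn : n.Coprime N) (hD : n.Coprime D) : qCoeff f n = 0 := by
  induction n using Nat.strong_induction_on with
  | _ n ih =>
    rcases Nat.eq_zero_or_pos n with rfl | hnpos
    · exact H22.cusp_qCoeff_zero f
    rcases eq_or_ne n 1 with rfl | hn1
    · exact h1
    · obtain ⟨ℓ, hℓ, m, rfl⟩ := Nat.exists_prime_and_dvd hn1
      have hm : 0 < m := Nat.pos_of_ne_zero (by rintro rfl; simp at hnpos)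
      have hmlt : m < ℓ * m := by nlinarith [hℓ.one_lt]
      have hℓN : ¬ ℓ ∣ N := (Nat.Prime.coprime_iff_not_dvd hℓ).mp hn.coprime_mul_right
      have hℓD : ¬ ℓ ∣ D := (Nat.Prime.coprime_iff_not_dvd hℓ).mp hD.coprime_mul_right
      have hmN : m.Coprime N := hn.coprime_mul_left
      have hmD : m.Coprime D := hD.coprime_mul_left
      have h2 := congrArg (fun g : CuspForm (Gamma0 N) 2 => qCoeff ⇑g m) (hf ℓ hℓ hℓN hℓD)
      simp only [H22.qCoeff_heckeTLin, qCoeff_smul, coeffHeckeT_apply] at h2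
      rw [ih m hmlt hmN hmD, mul_zero, mul_comm m ℓ] at h2
      split_ifs at h2 with hd
      · obtain ⟨c, rfl⟩ := hd
        have hc : c < ℓ * (ℓ * c) :=
          lt_of_le_of_lt (Nat.le_mul_of_pos_left c hℓ.pos) hmlt
        rw [Nat.mul_div_cancel_left _ hℓ.pos, ih c hc hmN.coprime_mul_left
          hmD.coprime_mul_left, mul_zero, add_zero] at h2
        exact h2
      · simpa using h2

/-- `T_ℓ` acts on a normalised eigenform by its `ℓ`-th coefficient. -/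
theorem eigenform_T {f : CuspForm (Gamma0 N) 2} (hf : f.IsNormalizedEigenform) {ℓ : ℕ}
    (hℓ : ℓ.Prime) (hℓN : ¬ ℓ ∣ N) : CuspForm.heckeTLin 2 hℓ hℓN f = qCoeff f ℓ • f := by
  have := H22.heckeFormsGen_eigenform hf ⟨ℓ, hℓ⟩
  rwa [CuspForm.heckeFormsGen_of_not_dvd (ℓ := ⟨ℓ, hℓ⟩) hℓN] at this

theorem hecke_comm_prop (x y : CuspForm.heckeAlgebra N 2 ∅) :
    (x : Module.End ℂ (CuspForm (Gamma0 N) 2)) * (y : Module.End ℂ (CuspForm (Gamma0 N) 2)) =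
      (y : Module.End ℂ (CuspForm (Gamma0 N) 2)) * (x : Module.End ℂ (CuspForm (Gamma0 N) 2)) := by
  have := congrArg (Subtype.val) (mul_comm x y)
  exact this

/-- A nonzero form which is an eigenvector of `T_ℓ` for all `ℓ` prime to `N D` gives a normalised
eigenform of the same level with the same eigenvalues. -/
theorem exists_eigenform_away {D : ℕ} {f : CuspForm (Gamma0 N) 2} (hf0 : f ≠ 0) {a : ℕ → ℂ}
    (hf : ∀ (ℓ : ℕ) (hℓ : ℓ.Prime) (hℓN : ¬ ℓ ∣ N), ¬ ℓ ∣ D →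
      CuspForm.heckeTLin 2 hℓ hℓN f = a ℓ • f) :
    ∃ g : CuspForm (Gamma0 N) 2, g.IsNormalizedEigenform ∧
      ∀ ℓ : ℕ, ℓ.Prime → ¬ ℓ ∣ N → ¬ ℓ ∣ D → qCoeff g ℓ = a ℓ := by
  have := H22.finiteDimensional_cuspForm N 2
  obtain ⟨v, lam, hv, h1, h2⟩ := exists_common_eigenvector (K := ℂ)
    (V := CuspForm (Gamma0 N) 2) (W := CuspForm (Gamma0 N) 2) (ι := Nat.Primes)
    (fun ℓ ↦ (CuspForm.heckeFormsGen N 2 ℓ : Module.End ℂ (CuspForm (Gamma0 N) 2)))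
    (fun i j ↦ hecke_comm_prop _ _) LinearMap.id (fun i v hv ↦ by
      rw [LinearMap.id_apply] at hv ⊢; rw [hv, map_zero])
    {ℓ : Nat.Primes | ¬ (ℓ : ℕ) ∣ N ∧ ¬ (ℓ : ℕ) ∣ D} (fun ℓ ↦ a ℓ) f hf0 (by
      rintro ℓ ⟨hN, hD⟩
      rw [CuspForm.heckeFormsGen_of_not_dvd hN]
      exact hf ℓ ℓ.2 hN hD)
  set lam' : ℕ → ℂ := fun ℓ ↦ if hℓ : ℓ.Prime then lam ⟨ℓ, hℓ⟩ else 0 with hlam'
  have hT : ∀ (ℓ : ℕ) (hℓ : ℓ.Prime) (hℓN : ¬ ℓ ∣ N),
      CuspForm.heckeTLin 2 hℓ hℓN v = lam' ℓ • v := fun ℓ hℓ hℓN ↦ by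
    have := h1 ⟨ℓ, hℓ⟩
    rw [CuspForm.heckeFormsGen_of_not_dvd (ℓ := ⟨ℓ, hℓ⟩) hℓN] at this
    rw [hlam']
    dsimp only
    rw [dif_pos hℓ]
    exact this
  have hU : ∀ (ℓ : ℕ) (_ : ℓ.Prime) (hℓN : ℓ ∣ N),
      CuspForm.heckeULin 2 hℓN v = lam' ℓ • v := fun ℓ hℓ hℓN ↦ by
    have := h1 ⟨ℓ, hℓ⟩
    rw [CuspForm.heckeFormsGen_of_dvd (q := ⟨ℓ, hℓ⟩) hℓN] at this
    rw [hlam']
    dsimp only
    rw [dif_pos hℓ]
    exact this
  have h3 : qCoeff ⇑v 1 ≠ 0 := H22.eigen_qCoeff_one_ne_zero hv hT hU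
  set g : CuspForm (Gamma0 N) 2 := (qCoeff ⇑v 1)⁻¹ • v with hg
  have hg1 : qCoeff ⇑g 1 = 1 := by
    rw [hg, qCoeff_smul, inv_mul_cancel₀ h3]
  obtain ⟨hnorm, hl⟩ := H22.isNormalizedEigenform_of_eigen (v := g) (lam := lam') hg1
    (fun ℓ hℓ hℓN ↦ by rw [hg, map_smul, hT ℓ hℓ hℓN, smul_comm])
    (fun ℓ hℓ hℓN ↦ by rw [hg, map_smul, hU ℓ hℓ hℓN, smul_comm])
  refine ⟨g, hnorm, fun ℓ hℓ hN hD ↦ ?_⟩
  rw [hl ℓ hℓ, hlam']
  dsimp only
  rw [dif_pos hℓ]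
  exact h2 ⟨ℓ, hℓ⟩ ⟨hN, hD⟩

/-- upgrading "almost all" to "all" -/
theorem coeff_eq_of_away {M : ℕ} [NeZero M] (hM : M ∣ N) {D : ℕ} (hD : D ≠ 0)
    {g : CuspForm (Gamma0 N) 2} (hg : g.IsNormalizedEigenform) {g' : CuspForm (Gamma0 M) 2}
    (hg' : g'.IsNormalizedEigenform)
    (h : ∀ ℓ : ℕ, ℓ.Prime → ¬ ℓ ∣ N → ¬ ℓ ∣ D → qCoeff g' ℓ = qCoeff g ℓ) (n : ℕ)
    (hn : n.Coprime N) : qCoeff g' n = qCoeff g n := by
  have hM1 : M * 1 ∣ N := by rwa [mul_one]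
  have key := coeff_eq_zero_of_coprime (degen one_pos hM1 2 g' - g) hD (fun n hn hnD ↦ by
    refine coeff_eq_zero_away (a := fun ℓ ↦ qCoeff g ℓ) (D := D) ?_ ?_ n hn hnD
    · intro ℓ hℓ hℓN hℓD
      have hℓM : ¬ ℓ ∣ M := fun hh ↦ hℓN (hh.trans hM)
      rw [map_sub, eigenform_T hg hℓ hℓN, ← degen_heckeTLin one_pos hM1 2 hℓ hℓM hℓN,
        eigenform_T hg' hℓ hℓM, map_smul, h ℓ hℓ hℓN hℓD, smul_sub]
    · rw [qCoeff_sub, qCoeff_degen, if_pos (one_dvd _), Nat.div_one, hg.qCoeff_one,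
        hg'.qCoeff_one, sub_self]) n hn
  rw [qCoeff_sub, qCoeff_degen, if_pos (one_dvd _), Nat.div_one, sub_eq_zero] at key
  exact key

/-- The system of eigenvalues of a newform of level `N` does not occur (not even for almost all
primes) at a proper divisor of the level. -/
theorem no_proper_level {g : CuspForm (Gamma0 N) 2} (hg : g.IsNewform) {M : ℕ} [NeZero M]
    (hM : M ∣ N) (hne : M ≠ N) {D : ℕ} (hD : D ≠ 0) (f : CuspForm (Gamma0 M) 2)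
    (hf : ∀ (ℓ : ℕ) (hℓ : ℓ.Prime) (hℓM : ¬ ℓ ∣ M), ¬ ℓ ∣ D →
      CuspForm.heckeTLin 2 hℓ hℓM f = qCoeff g ℓ • f) : f = 0 := by
  by_contra hf0
  obtain ⟨g', hg', h1⟩ := exists_eigenform_away hf0 hf
  refine hg.2 M hM hne ⟨g', hg', fun ℓ hℓ hℓN ↦ ?_⟩
  refine coeff_eq_of_away hM hD hg.1 hg' (fun ℓ hℓ hℓN hℓD ↦
    h1 ℓ hℓ (fun hh ↦ hℓN (hh.trans hM)) hℓD) ℓ ?_
  exact (Nat.Prime.coprime_iff_not_dvd hℓ).mpr hℓN

/-- **Strong multiplicity one** for newforms on `Γ₀(N)`. -/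
theorem strong_multiplicity_one {g : CuspForm (Gamma0 N) 2} (hg : g.IsNewform) {D : ℕ}
    (hD : D ≠ 0) (f : CuspForm (Gamma0 N) 2)
    (hf : ∀ (ℓ : ℕ) (hℓ : ℓ.Prime) (hℓN : ¬ ℓ ∣ N), ¬ ℓ ∣ D →
      CuspForm.heckeTLin 2 hℓ hℓN f = qCoeff g ℓ • f) : f = qCoeff f 1 • g := by
  set h := f - qCoeff f 1 • g with hh
  rw [← sub_eq_zero, ← hh]
  by_contra h0
  have hT : ∀ (ℓ : ℕ) (hℓ : ℓ.Prime) (hℓN : ¬ ℓ ∣ N), ¬ ℓ ∣ D →
      CuspForm.heckeTLin 2 hℓ hℓN h = qCoeff g ℓ • h := fun ℓ hℓ hℓN hℓD ↦ by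
    rw [hh, map_sub, hf ℓ hℓ hℓN hℓD, map_smul, eigenform_T hg.1 hℓ hℓN, smul_sub, smul_comm]
  have hzero : ∀ n : ℕ, n.Coprime N → qCoeff h n = 0 := by
    refine coeff_eq_zero_of_coprime h hD fun n hn hnD ↦
      coeff_eq_zero_away hT ?_ n hn hnD
    rw [hh, qCoeff_sub, qCoeff_smul, hg.1.qCoeff_one, mul_one, sub_self]
  have hmain := main_lemma h hzero
  classical
  let ι := {p : ℕ // p.Prime ∧ p ∣ N}
  haveI : Finite ι := Set.Finite.subset (Set.finite_Iic N) (fun p hp ↦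
    Nat.le_of_dvd (Nat.pos_of_ne_zero (NeZero.ne N)) hp.2)
  haveI : Fintype ι := Fintype.ofFinite ι
  haveI hfact : ∀ p : ι, Fact ((p : ℕ) ∣ N) := fun p ↦ ⟨p.2.2⟩
  have hpos : ∀ p : ι, 0 < N / (p : ℕ) := fun p ↦
    Nat.div_pos (Nat.le_of_dvd (Nat.pos_of_ne_zero (NeZero.ne N)) p.2.2) p.2.1.pos
  let V := (p : ι) → CuspForm (Gamma0 (N / (p : ℕ))) 2
  haveI : ∀ p : ι, FiniteDimensional ℂ (CuspForm (Gamma0 (N / (p : ℕ))) 2) := fun p ↦
    H22.finiteDimensional_cuspForm _ 2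
  haveI : FiniteDimensional ℂ V := inferInstanceAs (FiniteDimensional ℂ
    ((p : ι) → CuspForm (Gamma0 (N / (p : ℕ))) 2))
  let dg : (p : ι) → CuspForm (Gamma0 (N / (p : ℕ))) 2 →ₗ[ℂ] CuspForm (Gamma0 N) 2 := fun p ↦
    degen (M := N / (p : ℕ)) (N := N) p.2.1.pos (Nat.div_mul_cancel p.2.2).dvd 2
  let B : V →ₗ[ℂ] CuspForm (Gamma0 N) 2 := ∑ p : ι, (dg p) ∘ₗ LinearMap.proj p
  have hBapp : ∀ v : V, B v = ∑ p : ι, dg p (v p) := fun v ↦ by
    simp only [B, LinearMap.sum_apply]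
    rfl
  have hrange : (⨆ p : ι, LinearMap.range (dg p)) ≤ LinearMap.range B := by
    refine iSup_le fun p ↦ ?_
    rintro _ ⟨x, rfl⟩
    refine ⟨Pi.single p x, ?_⟩
    rw [hBapp, Finset.sum_eq_single p]
    · rw [Pi.single_eq_same]
    · intro b _ hb
      rw [Pi.single_eq_of_ne hb, map_zero]
    · intro hb
      exact absurd (Finset.mem_univ p) hb
  obtain ⟨w, hw⟩ := hrange hmain
  let κ := {ℓ : ℕ // ℓ.Prime ∧ ¬ ℓ ∣ N ∧ ¬ ℓ ∣ D}
  have hnd : ∀ (ℓ : κ) (p : ι), ¬ (ℓ : ℕ) ∣ N / (p : ℕ) := fun ℓ p hdiv ↦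
    ℓ.2.2.1 (hdiv.trans (Nat.div_dvd_of_dvd p.2.2))
  let T : κ → Module.End ℂ V := fun ℓ ↦ LinearMap.pi fun p ↦
    (CuspForm.heckeTLin 2 ℓ.2.1 (hnd ℓ p)) ∘ₗ LinearMap.proj p
  have hTapp : ∀ (ℓ : κ) (v : V) (p : ι), T ℓ v p = CuspForm.heckeTLin 2 ℓ.2.1 (hnd ℓ p) (v p) :=
    fun ℓ v p ↦ rfl
  have hBT : ∀ (ℓ : κ) (v : V), B (T ℓ v) = CuspForm.heckeTLin 2 ℓ.2.1 ℓ.2.2.1 (B v) := by
    intro ℓ v
    rw [hBapp, hBapp, map_sum]
    refine Finset.sum_congr rfl fun p _ ↦ ?_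
    rw [hTapp]
    exact degen_heckeTLin _ _ 2 ℓ.2.1 (hnd ℓ p) ℓ.2.2.1 (v p)
  have hcomm : ∀ i j, T i * T j = T j * T i := by
    intro i j
    refine LinearMap.ext fun v ↦ funext fun p ↦ ?_
    change CuspForm.heckeTLin 2 i.2.1 (hnd i p) (CuspForm.heckeTLin 2 j.2.1 (hnd j p) (v p)) =
      CuspForm.heckeTLin 2 j.2.1 (hnd j p) (CuspForm.heckeTLin 2 i.2.1 (hnd i p) (v p))
    have := LinearMap.congr_fun (hecke_comm_prop
      (CuspForm.heckeAlgebra.T (S := ∅) (k := 2) i.2.1 (hnd i p) (Set.notMem_empty _))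
      (CuspForm.heckeAlgebra.T (S := ∅) (k := 2) j.2.1 (hnd j p) (Set.notMem_empty _))) (v p)
    exact this
  obtain ⟨v, lam, hv, h1, h2⟩ := exists_common_eigenvector (K := ℂ) T hcomm B
    (fun i v hv ↦ by rw [hBT, hv, map_zero]) Set.univ (fun ℓ ↦ qCoeff g ℓ) w
    (by rw [hw]; exact h0) (fun ℓ _ ↦ by rw [hBT, hw, hT ℓ ℓ.2.1 ℓ.2.2.1 ℓ.2.2.2])
  apply hv
  funext p
  haveI := hfact p
  refine no_proper_level hg (Nat.div_dvd_of_dvd p.2.2)
    (Nat.div_lt_self (Nat.pos_of_ne_zero (NeZero.ne N)) p.2.1.one_lt).ne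
    (D := N * D) (mul_ne_zero (NeZero.ne N) hD) (v p) ?_
  intro ℓ hℓ hℓM hℓD
  have hℓN : ¬ ℓ ∣ N := fun hh ↦ hℓD (hh.mul_right D)
  have hℓD' : ¬ ℓ ∣ D := fun hh ↦ hℓD (hh.mul_left N)
  have h3 := congrFun (h1 ⟨ℓ, hℓ, hℓN, hℓD'⟩) p
  rw [h2 _ (Set.mem_univ _)] at h3
  exact h3

end Away

end

end Fermat.Agent.AL
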