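import Mathlib
import Fermat.Agent.AL.Adj

/-!
# The orthogonal complement of the `p`-old forms
-/

set_option autoImplicit false
set_option linter.style.haveILetI false

noncomputable section

namespace Fermat.Agent.AL

open UpperHalfPlane ModularGroup CongruenceSubgroup Filter Matrix
open scoped MatrixGroups Modular ModularForm ComplexConjugate Topology Manifold
open Fermat.Agent.IntStr Fermat.Agent.H24

/-! ### Group theory -/

section Group

theorem exists_solve {p : ℕ} (hp : p.Prime) {x : ℤ} (hx : ¬ (p : ℤ) ∣ x) (c : ℤ) :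
    ∃ t : ℤ, (p : ℤ) ∣ c + x * t := by
  have h1 : IsCoprime x (p : ℤ) :=
    ((Nat.prime_iff_prime_int.mp hp).coprime_iff_not_dvd.mpr hx).symm
  obtain ⟨u, v, huv⟩ := h1
  exact ⟨-c * u, v * c, by linear_combination (-c) * huv⟩

/-- The auxiliary group. -/
def HH (M M' : ℕ) : Subgroup SL(2, ℤ) := Gamma M' ⊓ Gamma0 M

theorem HH_conj {M M' : ℕ} {g h : SL(2, ℤ)} (hg : g ∈ Gamma0 M) (hh : h ∈ HH M M') :
    g * h * g⁻¹ ∈ HH M M' :=
  ⟨Gamma_normal' M' hh.1, (Gamma0 M).mul_mem ((Gamma0 M).mul_mem hg hh.2) ((Gamma0 M).inv_mem hg)⟩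

variable {p M M' : ℕ}

theorem T_mem_HH (n : ℤ) (h : (M' : ℤ) ∣ n) : ModularGroup.T ^ n ∈ HH M M' :=
  ⟨T_mem_Gamma h, mem_Gamma0_iff.mpr (by rw [Tz_10]; exact dvd_zero _)⟩

theorem lo_mem_HH (n : ℤ) (h : (M' : ℤ) ∣ n) (h' : (M : ℤ) ∣ n) : lo n ∈ HH M M' :=
  ⟨lo_mem_Gamma h, mem_Gamma0_iff.mpr (by rw [lo_10]; exact h')⟩

theorem exists_HH_one (hp : p.Prime) (hM' : ¬ p ∣ M') {g : SL(2, ℤ)} (hg : g ∈ Gamma0 M) :
    ∃ h ∈ HH M M', g * h ∈ Gamma0 (M * p) := by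
  have hpz := Nat.prime_iff_prime_int.mp hp
  have hM'z : ¬ (p : ℤ) ∣ M' := fun h => hM' (Int.natCast_dvd_natCast.mp h)
  have key : ∀ g : SL(2, ℤ), g ∈ Gamma0 M → ¬ (p : ℤ) ∣ g 1 1 →
      ∃ h ∈ HH M M', g * h ∈ Gamma0 (M * p) := by
    intro g hg h11
    obtain ⟨c, hc⟩ := mem_Gamma0_iff.mp hg
    obtain ⟨t, s, ht⟩ := exists_solve hp (x := g 1 1 * M')
      (fun h => (hpz.dvd_or_dvd h).elim h11 hM'z) c
    refine ⟨lo (M * M' * t), lo_mem_HH _ ⟨M * t, by ring⟩ ⟨M' * t, by ring⟩, ?_⟩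
    rw [mem_Gamma0_iff, mul_10, lo_00, lo_10, hc]
    refine ⟨s, ?_⟩
    push_cast
    linear_combination (M : ℤ) * ht
  by_cases h11 : (p : ℤ) ∣ g 1 1
  · have h10 : ¬ (p : ℤ) ∣ g 1 0 := fun h => by
      have h1 : (p : ℤ) ∣ 1 := by
        rw [← det_eq g]
        exact dvd_sub (Dvd.dvd.mul_left h11 _) (Dvd.dvd.mul_left h _)
      exact hpz.not_dvd_one h1
    have hT := T_mem_HH (M := M) (M' := M') M' dvd_rfl
    obtain ⟨h, hh, hgh⟩ := key (g * ModularGroup.T ^ (M' : ℤ)) ((Gamma0 M).mul_mem hg hT.2) (by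
      rw [mul_11, Tz_01, Tz_11, mul_one]
      intro h
      have h2 : (p : ℤ) ∣ g 1 0 * M' := (dvd_add_left h11).mp h
      exact (hpz.dvd_or_dvd h2).elim h10 hM'z)
    exact ⟨_, (HH M M').mul_mem hT hh, by rw [← mul_assoc]; exact hgh⟩
  · exact key g hg h11

theorem exists_HH_two (hp : p.Prime) (hM' : ¬ p ∣ M') {g : SL(2, ℤ)} (hg : g ∈ Gamma0 M) :
    ∃ h ∈ HH M M', g * h ∈ Gup p := by
  have hpz := Nat.prime_iff_prime_int.mp hp
  have hM'z : ¬ (p : ℤ) ∣ M' := fun h => hM' (Int.natCast_dvd_natCast.mp h)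
  have key : ∀ g : SL(2, ℤ), g ∈ Gamma0 M → ¬ (p : ℤ) ∣ g 0 0 →
      ∃ h ∈ HH M M', g * h ∈ Gup p := by
    intro g hg h00
    obtain ⟨t, s, ht⟩ := exists_solve hp (x := g 0 0 * M')
      (fun h => (hpz.dvd_or_dvd h).elim h00 hM'z) (g 0 1)
    refine ⟨ModularGroup.T ^ (M' * t : ℤ), T_mem_HH _ ⟨t, rfl⟩, ?_⟩
    rw [mem_Gup, mul_01, Tz_01, Tz_11]
    exact ⟨s, by linear_combination ht⟩
  by_cases h00 : (p : ℤ) ∣ g 0 0
  · have h01 : ¬ (p : ℤ) ∣ g 0 1 := fun h => by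
      have h1 : (p : ℤ) ∣ 1 := by
        rw [← det_eq g]
        exact dvd_sub (Dvd.dvd.mul_right h00 _) (Dvd.dvd.mul_right h _)
      exact hpz.not_dvd_one h1
    have hM : ¬ (p : ℤ) ∣ M := fun h => by
      have h10 : (p : ℤ) ∣ g 1 0 := h.trans (mem_Gamma0_iff.mp hg)
      have h1 : (p : ℤ) ∣ 1 := by
        rw [← det_eq g]
        exact dvd_sub (Dvd.dvd.mul_right h00 _) (Dvd.dvd.mul_left h10 _)
      exact hpz.not_dvd_one h1
    have hL := lo_mem_HH (M := M) (M' := M') (M * M') ⟨M, by ring⟩ ⟨M', rfl⟩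
    obtain ⟨h, hh, hgh⟩ := key (g * lo (M * M')) ((Gamma0 M).mul_mem hg hL.2) (by
      rw [mul_00, lo_00, lo_10, mul_one]
      intro h
      have h2 : (p : ℤ) ∣ g 0 1 * (M * M') := (dvd_add_right h00).mp h
      rcases hpz.dvd_or_dvd h2 with h3 | h3
      · exact h01 h3
      · exact (hpz.dvd_or_dvd h3).elim hM hM'z)
    exact ⟨_, (HH M M').mul_mem hL hh, by rw [← mul_assoc]; exact hgh⟩
  · exact key g hg h00

end Group

/-! ### Descent of the level -/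

section Descent

variable {k : ℤ} {ι : Type} [Fintype ι] {r : ι → SL(2, ℤ)} {M M' : ℕ} {v : ℍ → ℂ}

theorem sum_slash_HH (hr : ∀ i, r i ∈ Gamma0 M) (hv : ∀ h ∈ HH M M', v ∣[k] h = v)
    {h : SL(2, ℤ)} (hh : h ∈ HH M M') : (∑ i, v ∣[k] (r i)) ∣[k] h = ∑ i, v ∣[k] (r i) := by
  rw [SlashAction.sum_slash]
  refine Finset.sum_congr rfl fun i _ => ?_
  rw [← SlashAction.slash_mul]
  have e : r i * h = (r i * h * (r i)⁻¹) * r i := by group
  rw [e, SlashAction.slash_mul, hv _ (HH_conj (hr i) hh)]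

theorem inv_of_HH {Y : ℍ → ℂ} (hH : ∀ h ∈ HH M M', Y ∣[k] h = Y) {P : SL(2, ℤ) → Prop}
    (hP : ∀ g, P g → Y ∣[k] g = Y) (hex : ∀ g ∈ Gamma0 M, ∃ h ∈ HH M M', P (g * h))
    {g : SL(2, ℤ)} (hg : g ∈ Gamma0 M) : Y ∣[k] g = Y := by
  obtain ⟨h, hh, hgh⟩ := hex g hg
  have e : g = (g * h) * h⁻¹ := by group
  rw [e, SlashAction.slash_mul, hP _ hgh, hH _ ((HH M M').inv_mem hh)]

end Descent

/-! ### arithmetic -/

theorem exists_M' {p M m : ℕ} (hp : p.Prime) (hM : M ≠ 0) (hm : m ≠ 0) (hpm : ¬ p ∣ m) :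
    ∃ M' : ℕ, ¬ p ∣ M' ∧ m ∣ M' ∧ ∀ c : ℤ, (M : ℤ) ∣ c → (M' : ℤ) ∣ c →
      ((M * m : ℕ) : ℤ) ∣ c := by
  have hMm : M * m ≠ 0 := mul_ne_zero hM hm
  refine ⟨(M / p ^ M.factorization p) * m, ?_, Dvd.intro_left _ rfl, ?_⟩
  · intro h
    rcases hp.dvd_mul.mp h with h | h
    · exact Nat.not_dvd_ordCompl hp hM h
    · exact hpm h
  · intro c h1 h2
    have h3 : M * m = p ^ M.factorization p * ((M / p ^ M.factorization p) * m) := by
      rw [← mul_assoc, Nat.ordProj_mul_ordCompl_eq_self]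
    rw [h3]
    push_cast
    have hcop : IsCoprime ((p : ℤ) ^ M.factorization p)
        (((M / p ^ M.factorization p : ℕ) : ℤ) * m) := by
      have h4 : Nat.Coprime (p ^ M.factorization p) ((M / p ^ M.factorization p) * m) := by
        refine Nat.Coprime.pow_left _ ((Nat.Prime.coprime_iff_not_dvd hp).mpr fun h => ?_)
        rcases hp.dvd_mul.mp h with h | h
        · exact Nat.not_dvd_ordCompl hp hM h
        · exact hpm h
      have := Nat.isCoprime_iff_coprime.mpr h4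
      push_cast at this
      exact this
    have h5 : ((p : ℤ) ^ M.factorization p) ∣ c := by
      refine dvd_trans ?_ h1
      exact_mod_cast Nat.ordProj_dvd M p
    have h6 : (((M / p ^ M.factorization p : ℕ) : ℤ) * m) ∣ c := by exact_mod_cast h2
    exact hcop.mul_dvd h5 h6

/-! ### The orthogonality statement -/

section Orth

variable {p M e d : ℕ} {k : ℤ}

theorem exists_sharp {γ : SL(2, ℤ)} (hγ : γ ∈ Gamma0 (M * p)) :
    ∃ δ : SL(2, ℤ), δ ∈ Gamma0 M ∧ δ ∈ Gup p ∧ δ 0 0 = γ 0 0 ∧ δ 0 1 = p * γ 0 1 ∧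
      p * δ 1 0 = γ 1 0 ∧ δ 1 1 = γ 1 1 := by
  obtain ⟨c, hc⟩ := mem_Gamma0_iff.mp hγ
  have hdet := det_eq γ
  push_cast at hc
  refine ⟨⟨!![γ 0 0, p * γ 0 1; M * c, γ 1 1], by
    rw [Matrix.det_fin_two_of]; rw [hc] at hdet; linear_combination hdet⟩,
    mem_Gamma0_iff.mpr (Dvd.intro _ rfl), mem_Gup.mpr (Dvd.intro _ rfl), rfl, rfl, ?_, rfl⟩
  change (p : ℤ) * (M * c) = γ 1 0
  rw [hc]; ring

theorem exists_flat {δ : SL(2, ℤ)} (hδ : δ ∈ Gamma0 M) (hδ' : δ ∈ Gup p) :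
    ∃ γ : SL(2, ℤ), γ ∈ Gamma0 (M * p) ∧ δ 0 0 = γ 0 0 ∧ δ 0 1 = p * γ 0 1 ∧
      p * δ 1 0 = γ 1 0 ∧ δ 1 1 = γ 1 1 := by
  obtain ⟨b, hb⟩ := mem_Gup.mp hδ'
  obtain ⟨c, hc⟩ := mem_Gamma0_iff.mp hδ
  have hdet := det_eq δ
  refine ⟨⟨!![δ 0 0, b; p * δ 1 0, δ 1 1], by
    rw [Matrix.det_fin_two_of]; rw [hb] at hdet; linear_combination hdet⟩,
    mem_Gamma0_iff.mpr ?_, rfl, hb, rfl, rfl⟩
  change ((M * p : ℕ) : ℤ) ∣ p * δ 1 0
  rw [hc]
  exact ⟨c, by push_cast; ring⟩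

theorem slash_aff_sharp {f : ℍ → ℂ} {γ δ : SL(2, ℤ)} (hp0 : 0 < p) (h0 : δ 0 0 = γ 0 0)
    (h1 : δ 0 1 = p * γ 0 1) (h2 : p * δ 1 0 = γ 1 0) (h3 : δ 1 1 = γ 1 1) :
    (fun z => f (aff p 1 0 z)) ∣[k] γ = fun z => (f ∣[k] δ) (aff p 1 0 z) := by
  rw [slash_aff (δ := δ) (a' := p) (d' := 1) (b' := 0) f hp0 one_pos hp0 one_pos
    (by rw [h0]; push_cast; ring) (by rw [h1]; push_cast; ring)
    (by rw [← h2]; push_cast; ring) (by rw [h3]; push_cast; ring)]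
  ext z
  simp

theorem aff_surj (hp0 : 0 < p) {f g : ℍ → ℂ}
    (h : (fun z => f (aff p 1 0 z)) = fun z => g (aff p 1 0 z)) : f = g := by
  funext z
  have h1 := congrFun h (aff 1 p 0 z)
  have h2 : aff p 1 0 (aff 1 p 0 z) = z := by
    rw [aff_inv hp0, ← dil_smul hp0, smul_inv_smul]
  simpa only [h2] using h1

theorem aff_comm (hp0 : 0 < p) (hd : 0 < d) (z : ℍ) :
    aff p 1 0 (aff 1 d 0 z) = aff 1 d 0 (aff p 1 0 z) := by
  apply UpperHalfPlane.ext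
  rw [coe_aff hp0 one_pos, coe_aff one_pos hd, coe_aff one_pos hd, coe_aff hp0 one_pos]
  ring

variable [NeZero M] [NeZero (M * p)] [NeZero (M * e * d)] [NeZero (M * p * e * d)]

/-- The degeneracy maps of degree prime to `p` preserve orthogonality to the `p`-old forms. -/
theorem orth_degen (hp : p.Prime) (hd : 0 < d) (hpm : ¬ p ∣ e * d)
    (h : M * p * d ∣ M * p * e * d) (c : CuspForm (Gamma0 (M * p)) k)
    (hc : ∀ x : CuspForm (Gamma0 M) k,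
      ip c (degen one_pos (by rw [mul_one]; exact Dvd.intro _ rfl) k x) = 0 ∧
      ip c (degen hp.pos dvd_rfl k x) = 0)
    (h1 : M * e * d * 1 ∣ M * p * e * d) (h2 : M * e * d * p ∣ M * p * e * d)
    (x : CuspForm (Gamma0 (M * e * d)) k) :
    ip (degen hd h k c) (degen one_pos h1 k x) = 0 ∧
      ip (degen hd h k c) (degen hp.pos h2 k x) = 0 := by
  have hM0 : M ≠ 0 := NeZero.ne M
  have hed : e * d ≠ 0 := fun h0 => NeZero.ne (M * e * d) (by rw [mul_assoc, h0, mul_zero])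
  obtain ⟨M', hM'p, hm, hdiv⟩ := exists_M' hp hM0 hed hpm
  have hHK : HH M M' ≤ Kd M e d := by
    intro g hg
    have hg1 := mem_Gamma_iff.mp hg.1
    have hg2 := mem_Gamma0_iff.mp hg.2
    refine ⟨mem_Gamma0_iff.mpr ?_, ?_⟩
    · refine dvd_trans ?_ (hdiv _ hg2 hg1.2.2.1)
      rw [← mul_assoc]
      push_cast
      exact Dvd.intro _ rfl
    · refine mem_Gup.mpr (dvd_trans ?_ hg1.2.1)
      exact_mod_cast (Dvd.intro_left e rfl : d ∣ e * d).trans hm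
  have hxH : ∀ g ∈ HH M M', (fun z => x (aff 1 d 0 z)) ∣[k] g = fun z => x (aff 1 d 0 z) :=
    fun g hg => slash_Kd hd x (hHK hg)
  constructor
  · obtain ⟨ι, _, r, y, hr, hy, hadj⟩ := exists_adj hd h (degen one_pos h1 k x)
    rw [hadj c]
    have hr' : ∀ i, r i ∈ Gamma0 M := fun i => mem_Gamma0_iff.mpr (dvd_trans (by
      push_cast; exact Dvd.intro _ rfl) (mem_Gamma0_iff.mp (hr i)))
    have hfun : (fun z => degen one_pos h1 k x (aff 1 d 0 z)) = fun z => x (aff 1 d 0 z) := by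
      funext z
      rw [degen_apply]
      congr 1
      apply UpperHalfPlane.ext
      rw [coe_aff one_pos one_pos]
      push_cast
      ring
    rw [hfun] at hy
    have hYH : ∀ g ∈ HH M M', (∑ i, (fun z => x (aff 1 d 0 z)) ∣[k] (r i)) ∣[k] g =
        ∑ i, (fun z => x (aff 1 d 0 z)) ∣[k] (r i) := fun g hg => sum_slash_HH hr' hxH hg
    have hYinv : ∀ g ∈ Gamma0 M, (∑ i, (fun z => x (aff 1 d 0 z)) ∣[k] (r i)) ∣[k] g =
        ∑ i, (fun z => x (aff 1 d 0 z)) ∣[k] (r i) := fun g hg =>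
      inv_of_HH hYH (P := fun g => g ∈ Gamma0 (M * p)) (fun g hg => by
        rw [← hy]; exact (isMN_coe y).slash g hg) (fun g hg => exists_HH_one hp hM'p hg) hg
    obtain ⟨y', hy'⟩ := exists_cuspForm (r := r) (L := M)
      (mdiff_comp_aff (isMN_coe x).holo one_pos hd 0)
      (isCuspidal_aff (isCuspidal_coe x) one_pos hd) hYinv
    have hyy : y = degen one_pos (by rw [mul_one]; exact Dvd.intro _ rfl) k y' := by
      apply DFunLike.coe_injective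
      rw [hy, coe_degen, ← hy']
      funext z
      congr 1
      apply UpperHalfPlane.ext
      rw [coe_aff one_pos one_pos]
      push_cast
      ring
    rw [hyy, (hc y').1, mul_zero]
  · obtain ⟨ι, _, r, y, hr, hy, hadj⟩ := exists_adj hd h (degen hp.pos h2 k x)
    rw [hadj c]
    choose s hs1 hs2 hs3 hs4 hs5 hs6 using fun i => exists_sharp (hr i)
    have hfun : (fun z => degen hp.pos h2 k x (aff 1 d 0 z)) =
        fun z => (fun z => x (aff 1 d 0 z)) (aff p 1 0 z) := by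
      funext z
      rw [degen_apply, aff_comm hp.pos hd]
    have hy2 : (y : ℍ → ℂ) =
        fun z => (∑ i, (fun z => x (aff 1 d 0 z)) ∣[k] (s i)) (aff p 1 0 z) := by
      rw [hy, hfun]
      funext z
      rw [Finset.sum_apply, Finset.sum_apply]
      refine Finset.sum_congr rfl fun i _ => ?_
      rw [slash_aff_sharp (f := fun z => x (aff 1 d 0 z)) hp.pos (hs3 i) (hs4 i) (hs5 i) (hs6 i)]
    have hYH : ∀ g ∈ HH M M', (∑ i, (fun z => x (aff 1 d 0 z)) ∣[k] (s i)) ∣[k] g =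
        ∑ i, (fun z => x (aff 1 d 0 z)) ∣[k] (s i) := fun g hg => sum_slash_HH hs1 hxH hg
    have hYG : ∀ g, (g ∈ Gamma0 M ∧ g ∈ Gup p) →
        (∑ i, (fun z => x (aff 1 d 0 z)) ∣[k] (s i)) ∣[k] g =
        ∑ i, (fun z => x (aff 1 d 0 z)) ∣[k] (s i) := by
      rintro g ⟨hg1, hg2⟩
      obtain ⟨γ, hγ, e0, e1, e2, e3⟩ := exists_flat hg1 hg2
      apply aff_surj hp.pos
      rw [← slash_aff_sharp hp.pos e0 e1 e2 e3, ← hy2]
      exact (isMN_coe y).slash γ hγ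
    have hYinv : ∀ g ∈ Gamma0 M, (∑ i, (fun z => x (aff 1 d 0 z)) ∣[k] (s i)) ∣[k] g =
        ∑ i, (fun z => x (aff 1 d 0 z)) ∣[k] (s i) := fun g hg =>
      inv_of_HH hYH (P := fun g => g ∈ Gamma0 M ∧ g ∈ Gup p) hYG (fun g hg => by
        obtain ⟨h, hh, hgh⟩ := exists_HH_two (M' := M') hp hM'p hg
        exact ⟨h, hh, (Gamma0 M).mul_mem hg hh.2, hgh⟩) hg
    obtain ⟨y', hy'⟩ := exists_cuspForm (r := s) (L := M)
      (mdiff_comp_aff (isMN_coe x).holo one_pos hd 0)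
      (isCuspidal_aff (isCuspidal_coe x) one_pos hd) hYinv
    have hyy : y = degen hp.pos dvd_rfl k y' := by
      apply DFunLike.coe_injective
      rw [hy2, coe_degen, hy']
    rw [hyy, (hc y').2, mul_zero]

end Orth

end Fermat.Agent.AL
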