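import Mathlib
import Fermat.Agent.AL.POrth
import Fermat.Agent.AL.Newform

/-!
# The level of a newform is determined by almost all of its eigenvalues
-/

set_option autoImplicit false
set_option linter.style.haveILetI false

noncomputable section

namespace Fermat.Agent.AL

open UpperHalfPlane ModularGroup CongruenceSubgroup Filter Matrix
open scoped MatrixGroups Modular ModularForm ComplexConjugate Topology Manifold
open Fermat.Agent.IntStr Fermat.Agent.H24
open ModularFormClass (qCoeff)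

/-! ### orthogonal decompositions -/

theorem exists_orth_decomp {V : Type*} [AddCommGroup V] [Module ℂ V] [FiniteDimensional ℂ V]
    (c : InnerProductSpace.Core ℂ V) (A : Submodule ℂ V) (v : V) :
    ∃ a ∈ A, ∀ u ∈ A, c.inner (v - a) u = 0 := by
  letI := c.toNormedAddCommGroup
  letI : InnerProductSpace ℂ V := InnerProductSpace.ofCore c.toCore
  haveI : FiniteDimensional ℂ V := inferInstance
  obtain ⟨y, hy, z, hz, hv⟩ := A.exists_add_mem_mem_orthogonal v
  refine ⟨y, hy, fun u hu => ?_⟩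
  have h1 : v - y = z := by rw [hv, add_sub_cancel_left]
  rw [h1]
  exact (Submodule.mem_orthogonal' A z).mp hz u hu

section POrth

variable {k : ℤ}

theorem ip_add_right {N : ℕ} [NeZero N] (f g h : CuspForm (Gamma0 N) k) :
    ip f (g + h) = ip f g + ip f h := by
  have h1 := (petCore (N := N) (k := k)).conj_inner_symm f (g + h)
  have h2 := (petCore (N := N) (k := k)).conj_inner_symm f g
  have h3 := (petCore (N := N) (k := k)).conj_inner_symm f h
  have h4 := (petCore (N := N) (k := k)).add_left g h f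
  change conj (ip (g + h) f) = ip f (g + h) at h1
  change conj (ip g f) = ip f g at h2
  change conj (ip h f) = ip f h at h3
  change ip (g + h) f = ip g f + ip h f at h4
  rw [← h1, h4, map_add, h2, h3]

theorem ip_smul_right {N : ℕ} [NeZero N] (c : ℂ) (f g : CuspForm (Gamma0 N) k) :
    ip f (c • g) = c * ip f g := by
  have h1 := (petCore (N := N) (k := k)).conj_inner_symm f (c • g)
  have h2 := (petCore (N := N) (k := k)).conj_inner_symm f g
  have h4 := (petCore (N := N) (k := k)).smul_left g f c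
  change conj (ip (c • g) f) = ip f (c • g) at h1
  change conj (ip g f) = ip f g at h2
  change ip (c • g) f = conj c * ip g f at h4
  rw [← h1, h4, map_mul, Complex.conj_conj, h2]

theorem ip_smul_left {N : ℕ} [NeZero N] (c : ℂ) (f g : CuspForm (Gamma0 N) k) :
    ip (c • f) g = conj c * ip f g := (petCore (N := N) (k := k)).smul_left f g c

/-- the linear form `⟨f, ·⟩` -/
def ipL {N : ℕ} [NeZero N] (f : CuspForm (Gamma0 N) k) : CuspForm (Gamma0 N) k →ₗ[ℂ] ℂ where
  toFun := ip f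
  map_add' := ip_add_right f
  map_smul' c g := ip_smul_right c f g

/-- The orthogonal complement. -/
def orthC {N : ℕ} [NeZero N] (A : Submodule ℂ (CuspForm (Gamma0 N) k)) :
    Submodule ℂ (CuspForm (Gamma0 N) k) where
  carrier := {c | ∀ u ∈ A, ip c u = 0}
  add_mem' {a b} ha hb u hu := by
    have h4 := (petCore (N := N) (k := k)).add_left a b u
    change ip (a + b) u = ip a u + ip b u at h4
    rw [h4, ha u hu, hb u hu, add_zero]
  zero_mem' u hu := by
    have h4 := (petCore (N := N) (k := k)).smul_left 0 u 0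
    rw [zero_smul, map_zero, zero_mul] at h4
    exact h4
  smul_mem' c a ha u hu := by
    rw [ip_smul_left, ha u hu, mul_zero]

theorem mem_orthC {N : ℕ} [NeZero N] {A : Submodule ℂ (CuspForm (Gamma0 N) k)}
    {c : CuspForm (Gamma0 N) k} : c ∈ orthC A ↔ ∀ u ∈ A, ip c u = 0 := Iff.rfl

theorem exists_decomp {N : ℕ} [NeZero N] (A : Submodule ℂ (CuspForm (Gamma0 N) k))
    (v : CuspForm (Gamma0 N) k) : ∃ a ∈ A, ∃ c ∈ orthC A, v = a + c := by
  have hfd := Fermat.Agent.H22.finiteDimensional_cuspForm N k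
  obtain ⟨a, ha, h⟩ := exists_orth_decomp (petCore (N := N) (k := k)) A v
  exact ⟨a, ha, v - a, h, by abel⟩

theorem orthC_disjoint {N : ℕ} [NeZero N] {A : Submodule ℂ (CuspForm (Gamma0 N) k)}
    {v : CuspForm (Gamma0 N) k} (h1 : v ∈ A) (h2 : v ∈ orthC A) : v = 0 :=
  ip_definite v (h2 v h1)

/-- The `p`-old forms. -/
def pOld {p M N : ℕ} (hp : p.Prime) [NeZero M] [NeZero N] (hN : M * p = N) (k : ℤ) :
    Submodule ℂ (CuspForm (Gamma0 N) k) :=
  LinearMap.range (degen one_pos (by rw [mul_one, ← hN]; exact Dvd.intro _ rfl : M * 1 ∣ N) k) ⊔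
    LinearMap.range (degen hp.pos hN.dvd k)

theorem mem_orth_pOld {p M N : ℕ} (hp : p.Prime) [NeZero M] [NeZero N] (hN : M * p = N)
    {c : CuspForm (Gamma0 N) k} : c ∈ orthC (pOld hp hN k) ↔
      ∀ x : CuspForm (Gamma0 M) k,
        ip c (degen one_pos (by rw [mul_one, ← hN]; exact Dvd.intro _ rfl : M * 1 ∣ N) k x) = 0 ∧
        ip c (degen hp.pos hN.dvd k x) = 0 := by
  constructor
  · intro h x
    exact ⟨h _ (Submodule.mem_sup_left ⟨x, rfl⟩), h _ (Submodule.mem_sup_right ⟨x, rfl⟩)⟩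
  · intro h u hu
    obtain ⟨a, ⟨x, rfl⟩, b, ⟨y, rfl⟩, rfl⟩ := Submodule.mem_sup.mp hu
    rw [ip_add_right, (h x).1, (h y).2, add_zero]

theorem orth_pOld_degen {p M N M' N' e d : ℕ} (hp : p.Prime) [NeZero M] [NeZero N] [NeZero M']
    [NeZero N'] (hN : M * p = N) (hN' : M' * p = N') (hd : 0 < d) (hNN' : N' = N * e * d)
    (hpm : ¬ p ∣ e * d) (h : N * d ∣ N') {c : CuspForm (Gamma0 N) k}
    (hc : c ∈ orthC (pOld hp hN k)) : degen hd h k c ∈ orthC (pOld hp hN' k) := by
  subst hN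
  subst hNN'
  have hM' : M' = M * e * d := by
    have h1 : M' * p = (M * e * d) * p := by rw [hN']; ring
    exact Nat.eq_of_mul_eq_mul_right hp.pos h1
  subst hM'
  rw [mem_orth_pOld] at hc ⊢
  intro x
  exact orth_degen hp hd hpm h c hc _ _ x

end POrth

section Degen

variable {k : ℤ}

theorem degen_degen {M N N' a b : ℕ} [NeZero M] [NeZero N] [NeZero N'] (ha : 0 < a) (hb : 0 < b)
    (h1 : M * a ∣ N) (h2 : N * b ∣ N') (h3 : M * (b * a) ∣ N') (f : CuspForm (Gamma0 M) k) :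
    degen hb h2 k (degen ha h1 k f) = degen (Nat.mul_pos hb ha) h3 k f := by
  apply DFunLike.coe_injective
  funext z
  rw [degen_apply, degen_apply, degen_apply, aff_aff ha hb, mul_comm a b]

theorem degen_congr {M N a b : ℕ} [NeZero M] [NeZero N] (hab : a = b) (ha : 0 < a) (hb : 0 < b)
    (h1 : M * a ∣ N) (h2 : M * b ∣ N) (f : CuspForm (Gamma0 M) k) :
    degen ha h1 k f = degen hb h2 k f := by
  subst hab
  rfl

end Degen

/-! ### newforms are orthogonal to old forms -/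

theorem newform_orth {N : ℕ} [NeZero N] {f : CuspForm (Gamma0 N) 2} (hf : f.IsNewform) {M d : ℕ}
    [NeZero M] (hd : 0 < d) (h : M * d ∣ N) (hne : M ≠ N) (x : CuspForm (Gamma0 M) 2) :
    ip f (degen hd h 2 x) = 0 := by
  have hMN : M ∣ N := (Dvd.intro _ rfl).trans h
  have key : (⊤ : Submodule ℂ (CuspForm (Gamma0 M) 2)) ≤
      LinearMap.ker ((ipL f).comp (degen hd h 2)) := by
    rw [← iSup_iInf_eigenspace_heckeT M 2]
    refine iSup_le fun χ y hy => ?_
    rw [Submodule.mem_iInf] at hy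
    have hT : ∀ ℓ : GoodPr M, CuspForm.heckeTLin 2 ℓ.2.1 ℓ.2.2 y = χ ℓ • y := fun ℓ =>
      Module.End.mem_eigenspace_iff.mp (hy ℓ)
    rw [LinearMap.mem_ker, LinearMap.comp_apply]
    change ip f (degen hd h 2 y) = 0
    by_cases hχ : ∀ (ℓ : ℕ) (hℓ : ℓ.Prime) (hℓM : ¬ ℓ ∣ M), ¬ ℓ ∣ N → χ ⟨ℓ, hℓ, hℓM⟩ = qCoeff f ℓ
    · have hy0 : y = 0 := no_proper_level hf hMN hne (NeZero.ne N) y (fun ℓ hℓ hℓM hℓN => by
        rw [hT ⟨ℓ, hℓ, hℓM⟩, hχ ℓ hℓ hℓM hℓN])
      rw [hy0, map_zero]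
      exact (ipL f).map_zero
    · push Not at hχ
      obtain ⟨ℓ, hℓ, hℓM, hℓN, hne'⟩ := hχ
      haveI : Fact ℓ.Prime := ⟨hℓ⟩
      have h1 := ip_heckeT f (degen hd h 2 y) hℓN
      have hf1 : CuspForm.heckeTLin 2 hℓ hℓN f = qCoeff f ℓ • f := eigenform_T hf.1 hℓ hℓN
      have hf2 : CuspForm.heckeTLin 2 hℓ hℓN (degen hd h 2 y) = χ ⟨ℓ, hℓ, hℓM⟩ •
          degen hd h 2 y := by
        rw [← degen_heckeTLin hd h 2 hℓ hℓM hℓN, hT ⟨ℓ, hℓ, hℓM⟩, map_smul]
      rw [hf1, hf2, ip_smul_left, ip_smul_right,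
        conj_eigenvalue hℓ hℓN hf.ne_zero hf1] at h1
      have h2 : (qCoeff f ℓ - χ ⟨ℓ, hℓ, hℓM⟩) * ip f (degen hd h 2 y) = 0 := by
        rw [sub_mul, h1, sub_self]
      exact (mul_eq_zero.mp h2).resolve_left (sub_ne_zero.mpr (Ne.symm hne'))
  exact LinearMap.mem_ker.mp (key (Submodule.mem_top (x := x)))

/-- the span of the images of the degeneracy maps decomposes. -/
theorem iSup_range_le {p M R : ℕ} (hp : p.Prime) [NeZero M] [NeZero R] (hR : M * p = R) {k : ℤ} :
    (⨆ r : {r : ℕ // r.Prime ∧ r ∣ R}, LinearMap.range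
      (haveI : Fact ((r : ℕ) ∣ R) := ⟨r.2.2⟩
       degen (M := R / (r : ℕ)) (N := R) r.2.1.pos (Nat.div_mul_cancel r.2.2).dvd k)) ≤
      pOld hp hR k ⊔ (orthC (pOld hp hR k) ⊓ LinearMap.ker (cL R k 1)) := by
  refine iSup_le ?_
  rintro ⟨r, hr, hrR⟩
  haveI : Fact (r ∣ R) := ⟨hrR⟩
  rintro _ ⟨x, rfl⟩
  by_cases hrp : r = p
  · subst hrp
    have hM : R / r = M := by rw [← hR, Nat.mul_div_cancel _ hr.pos]
    refine Submodule.mem_sup_left (Submodule.mem_sup_right ?_)
    have : ∀ (M' : ℕ) [NeZero M'] (hM' : M' = M) (h : M' * r ∣ R) (x : CuspForm (Gamma0 M') k),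
        degen hr.pos h k x ∈ LinearMap.range (degen (M := M) hp.pos hR.dvd k) := by
      intro M' _ hM' h x
      subst hM'
      exact ⟨x, rfl⟩
    exact this (R / r) hM _ x
  · -- the level `R / r`
    have hrM : r ∣ M := by
      rw [← hR] at hrR
      rcases hr.dvd_mul.mp hrR with h | h
      · exact h
      · exact absurd ((Nat.prime_dvd_prime_iff_eq hr hp).mp h) hrp
    obtain ⟨M₁, rfl⟩ := hrM
    have hM₁ : NeZero M₁ := ⟨fun h => NeZero.ne (r * M₁) (by rw [h, mul_zero])⟩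
    have hRr : M₁ * p = R / r := by
      rw [← hR, mul_assoc, Nat.mul_div_cancel_left _ hr.pos]
    obtain ⟨a, ha, c, hc, hx⟩ := exists_decomp (pOld hp hRr k) x
    subst hx
    rw [map_add]
    refine Submodule.add_mem_sup ?_ ?_
    · obtain ⟨_, ⟨y, rfl⟩, _, ⟨z, rfl⟩, rfl⟩ := Submodule.mem_sup.mp ha
      rw [map_add]
      have hdvd1 : M₁ * r ∣ r * M₁ := by rw [mul_comm]
      have hdvd2 : M₁ * (r * 1) ∣ R := by
        rw [mul_one, ← hR, mul_comm M₁ r]; exact Dvd.intro _ rfl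
      have hdvd3 : M₁ * (r * p) ∣ R := by
        rw [← hR, ← mul_assoc, mul_comm M₁ r]
      refine Submodule.add_mem_sup ⟨degen hr.pos hdvd1 k y, ?_⟩ ⟨degen hr.pos hdvd1 k z, ?_⟩
      · rw [degen_degen hr.pos one_pos _ _ (by rw [one_mul]; simpa using hdvd2),
          degen_degen one_pos hr.pos _ _ hdvd2]
        exact degen_congr (mul_comm _ _) _ _ _ _ y
      · rw [degen_degen hr.pos hp.pos _ _ (by rw [mul_comm p r]; exact hdvd3),
          degen_degen hp.pos hr.pos _ _ hdvd3]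
        exact degen_congr (mul_comm _ _) _ _ _ _ z
    · refine ⟨orth_pOld_degen (e := 1) hp hRr hR hr.pos ?_ ?_ _ hc, ?_⟩
      · rw [mul_one, Nat.div_mul_cancel hrR]
      · rw [one_mul]
        intro h
        exact hrp ((Nat.prime_dvd_prime_iff_eq hp hr).mp h).symm
      · rw [SetLike.mem_coe, LinearMap.mem_ker, cL_apply, qCoeff_degen, if_neg]
        exact hr.not_dvd_one

/-- **The level of a newform divides every level at which its system of eigenvalues occurs.** -/
theorem newform_level_dvd {N N' : ℕ} [NeZero N] [NeZero N'] {f : CuspForm (Gamma0 N) 2}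
    (hf : f.IsNewform) {D : ℕ} (hD : D ≠ 0) {g : CuspForm (Gamma0 N') 2} (hg0 : g ≠ 0)
    (hg : ∀ (ℓ : ℕ) (hℓ : ℓ.Prime) (hℓN : ¬ ℓ ∣ N'), ¬ ℓ ∣ D →
      CuspForm.heckeTLin 2 hℓ hℓN g = qCoeff f ℓ • g) : N ∣ N' := by
  obtain ⟨g, hg, hgf⟩ := exists_eigenform_away hg0 hg
  have hN0 := NeZero.ne N
  have hN0' := NeZero.ne N'
  rw [← Nat.factorization_le_iff_dvd hN0 hN0']
  intro p
  by_contra hlt
  push Not at hlt
  have hp : p.Prime := by
    by_contra hp
    rw [Nat.factorization_eq_zero_of_not_prime N hp] at hlt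
    exact absurd hlt (Nat.not_lt_zero _)
  set R := Nat.lcm N N' with hRdef
  have hR0 : R ≠ 0 := Nat.lcm_ne_zero hN0 hN0'
  haveI : NeZero R := ⟨hR0⟩
  have hRp : R.factorization p = N.factorization p := by
    rw [hRdef, Nat.factorization_lcm hN0 hN0', Finsupp.sup_apply]
    exact sup_eq_left.mpr hlt.le
  have hpN : p ∣ N := (hp.dvd_iff_one_le_factorization hN0).mpr (by omega)
  have hpR : p ∣ R := hpN.trans (Nat.dvd_lcm_left N N')
  obtain ⟨M, hM⟩ := hpR
  have hMR : M * p = R := by rw [mul_comm]; exact hM.symm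
  have hM0 : M ≠ 0 := fun h => hR0 (by rw [← hMR, h, zero_mul])
  haveI : NeZero M := ⟨hM0⟩
  have hN'M : N' ∣ M := by
    rw [← Nat.factorization_le_iff_dvd hN0' hM0]
    intro r
    have h1 : N'.factorization r ≤ R.factorization r :=
      (Nat.factorization_le_iff_dvd hN0' hR0).mpr (Nat.dvd_lcm_right N N') r
    have h2 : R.factorization r = M.factorization r + p.factorization r := by
      rw [← hMR, Nat.factorization_mul hM0 hp.ne_zero, Finsupp.add_apply]
    by_cases hrp : r = p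
    · subst hrp
      have h3 : r.factorization r = 1 := hp.factorization_self
      omega
    · have h3 : p.factorization r = 0 := by
        rw [hp.factorization, Finsupp.single_apply, if_neg (Ne.symm hrp)]
      omega
  obtain ⟨N₁, hN₁⟩ := hpN
  have hN₁N : N₁ * p = N := by rw [mul_comm]; exact hN₁.symm
  have hN₁0 : NeZero N₁ := ⟨fun h => hN0 (by rw [← hN₁N, h, zero_mul])⟩
  -- the orthogonality of `f`
  have hforth : f ∈ orthC (pOld hp hN₁N 2) := by
    rw [mem_orth_pOld]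
    have hne : N₁ ≠ N := by
      intro h
      rw [← hN₁N] at h
      have h1 : N₁ * 1 = N₁ * p := by rw [mul_one]; exact h
      exact hp.one_lt.ne (Nat.eq_of_mul_eq_mul_left (Nat.pos_of_ne_zero (NeZero.ne N₁)) h1)
    exact fun x => ⟨newform_orth hf _ _ hne x, newform_orth hf _ _ hne x⟩
  obtain ⟨e, he⟩ := Nat.dvd_lcm_left N N'
  rw [← hRdef] at he
  have he0 : e ≠ 0 := fun h => hR0 (by rw [he, h, mul_zero])
  have hpe : ¬ p ∣ e := by
    intro h
    have h1 : R.factorization p = N.factorization p + e.factorization p := by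
      rw [he, Nat.factorization_mul hN0 he0, Finsupp.add_apply]
    have h2 := (hp.dvd_iff_one_le_factorization he0).mp h
    omega
  have hfR : N * 1 ∣ R := by rw [mul_one]; exact Nat.dvd_lcm_left N N'
  have hf'orth : degen one_pos hfR 2 f ∈ orthC (pOld hp hMR 2) :=
    orth_pOld_degen (e := e) hp hN₁N hMR one_pos (by rw [mul_one]; exact he)
      (by rw [mul_one]; exact hpe) _ hforth
  have hgM : N' * 1 ∣ M := by rw [mul_one]; exact hN'M
  have hMR1 : M * 1 ∣ R := by rw [mul_one, ← hMR]; exact Dvd.intro _ rfl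
  set f' := degen one_pos hfR 2 f with hf'
  set g' := degen one_pos hMR1 2 (degen one_pos hgM 2 g) with hg'
  have hg'old : g' ∈ pOld hp hMR 2 := Submodule.mem_sup_left ⟨_, rfl⟩
  have hzero : ∀ n : ℕ, n.Coprime R → qCoeff (⇑(f' - g')) n = 0 := by
    refine coeff_eq_zero_of_coprime _ hD (fun n hn hnD =>
      coeff_eq_zero_away (a := fun ℓ => qCoeff f ℓ) (D := D) ?_ ?_ n hn hnD)
    · intro ℓ hℓ hℓR hℓD
      have hℓN : ¬ ℓ ∣ N := fun h => hℓR (h.trans (Nat.dvd_lcm_left N N'))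
      have hℓN' : ¬ ℓ ∣ N' := fun h => hℓR (h.trans (Nat.dvd_lcm_right N N'))
      have hℓM : ¬ ℓ ∣ M := fun h => hℓR (h.trans ((Dvd.intro _ rfl).trans hMR.dvd))
      rw [map_sub, hf', hg', ← degen_heckeTLin one_pos hfR 2 hℓ hℓN hℓR,
        ← degen_heckeTLin one_pos hMR1 2 hℓ hℓM hℓR,
        ← degen_heckeTLin one_pos hgM 2 hℓ hℓN' hℓM, eigenform_T hf.1 hℓ hℓN,
        eigenform_T hg hℓ hℓN', hgf ℓ hℓ hℓN' hℓD]
      simp only [map_smul, smul_sub]
    · rw [qCoeff_sub, hf', hg', qCoeff_degen, qCoeff_degen, qCoeff_degen]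
      simp only [one_dvd, if_true, Nat.div_one]
      rw [hf.1.qCoeff_one, hg.qCoeff_one, sub_self]
  have hmain := iSup_range_le hp hMR (main_lemma _ hzero)
  obtain ⟨a, ha, c, hc, hac⟩ := Submodule.mem_sup.mp hmain
  have h1 : f' - c = a + g' := by
    rw [sub_eq_iff_eq_add]
    have : f' = (f' - g') + g' := by abel
    rw [this, ← hac]
    abel
  have h2 : f' - c = 0 := by
    refine orthC_disjoint (A := pOld hp hMR 2) ?_ (Submodule.sub_mem _ hf'orth hc.1)
    rw [h1]
    exact Submodule.add_mem _ ha hg'old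
  have h3 : f' = c := sub_eq_zero.mp h2
  have h4 : qCoeff f' 1 = 0 := by
    rw [h3]
    exact LinearMap.mem_ker.mp hc.2
  rw [hf', qCoeff_degen, if_pos (one_dvd _), Nat.div_one, hf.1.qCoeff_one] at h4
  exact one_ne_zero h4

/-- **Newforms with the same eigenvalues at almost all primes have the same level.** -/
theorem newform_level_eq {N N' : ℕ} [NeZero N] [NeZero N'] {f : CuspForm (Gamma0 N) 2}
    (hf : f.IsNewform) {g : CuspForm (Gamma0 N') 2} (hg : g.IsNewform) {D : ℕ} (hD : D ≠ 0)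
    (h : ∀ ℓ : ℕ, ℓ.Prime → ¬ ℓ ∣ N → ¬ ℓ ∣ N' → ¬ ℓ ∣ D → qCoeff f ℓ = qCoeff g ℓ) :
    N = N' := by
  have hN0 := NeZero.ne N
  have hN0' := NeZero.ne N'
  refine Nat.dvd_antisymm ?_ ?_
  · refine newform_level_dvd hf (D := N * D) (mul_ne_zero hN0 hD) hg.ne_zero
      (fun ℓ hℓ hℓN hℓD => ?_)
    rw [eigenform_T hg.1 hℓ hℓN, h ℓ hℓ (fun h => hℓD (h.mul_right _)) hℓN
      (fun h => hℓD (h.mul_left _))]
  · refine newform_level_dvd hg (D := N' * D) (mul_ne_zero hN0' hD) hf.ne_zero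
      (fun ℓ hℓ hℓN hℓD => ?_)
    rw [eigenform_T hf.1 hℓ hℓN, h ℓ hℓ hℓN (fun h => hℓD (h.mul_right _))
      (fun h => hℓD (h.mul_left _))]

end Fermat.Agent.AL
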