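import Mathlib
import Fermat.Agent.AL.LevelUnique
import Fermat.Agent.TC.Old

/-!
# The basis of oldforms attached to a newform
-/

set_option autoImplicit false
set_option linter.style.haveILetI false

noncomputable section

namespace Fermat.Agent.AL

open UpperHalfPlane ModularGroup CongruenceSubgroup Filter Matrix
open scoped MatrixGroups Modular ModularForm ComplexConjugate Topology Manifold
open Fermat.Agent.IntStr Fermat.Agent.H24 Fermat.Agent.TC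
open ModularFormClass (qCoeff)

/-- The eigenvalues of a newform at the primes not dividing `D`. -/
def nfSys (D : ℕ) {N₀ : ℕ} (g : CuspForm (Gamma0 N₀) 2) : Pr D → ℂ := fun ℓ => qCoeff g ℓ

variable {N₀ : ℕ} [NeZero N₀]

/-- the oldforms attached to `g` -/
def oldSpan (g : CuspForm (Gamma0 N₀) 2) (N : ℕ) [NeZero N] : Submodule ℂ (CuspForm (Gamma0 N) 2) :=
  Submodule.span ℂ {F | ∃ (d : ℕ) (hd : 0 < d) (h : N₀ * d ∣ N), F = degen hd h 2 g}

theorem degen_mem_oldSpan (g : CuspForm (Gamma0 N₀) 2) {N d : ℕ} [NeZero N] (hd : 0 < d)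
    (h : N₀ * d ∣ N) : degen hd h 2 g ∈ oldSpan g N := Submodule.subset_span ⟨d, hd, h, rfl⟩

theorem degen_oldSpan (g : CuspForm (Gamma0 N₀) 2) {N M e : ℕ} [NeZero N] [NeZero M]
    (he : 0 < e) (h : M * e ∣ N) {x : CuspForm (Gamma0 M) 2} (hx : x ∈ oldSpan g M) :
    degen he h 2 x ∈ oldSpan g N := by
  have h1 : oldSpan g M ≤ (oldSpan g N).comap (degen he h 2) := by
    refine Submodule.span_le.mpr ?_
    rintro _ ⟨d, hd, h', rfl⟩
    have h3 : N₀ * (e * d) ∣ N := by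
      refine dvd_trans ?_ h
      rw [show N₀ * (e * d) = (N₀ * d) * e by ring]
      exact Nat.mul_dvd_mul_right h' e
    change degen he h 2 (degen hd h' 2 g) ∈ oldSpan g N
    rw [AL.degen_degen hd he h' h h3]
    exact degen_mem_oldSpan g _ h3
  exact h1 hx

/-- **The oldform basis.** A form of level `N` with the eigenvalues of the newform `g` at almost
all primes is a linear combination of the forms `g(d z)`, `d ∣ N / N₀`. -/
theorem mem_oldSpan {g : CuspForm (Gamma0 N₀) 2} (hg : g.IsNewform) {D : ℕ} (hD : D ≠ 0)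
    (hN₀D : N₀ ∣ D) :
    ∀ (N : ℕ) [NeZero N] (hND : N ∣ D) (f : CuspForm (Gamma0 N) 2),
      f ∈ simEig (TD hND) (nfSys D g) → f ∈ oldSpan g N := by
  intro N
  induction N using Nat.strong_induction_on with
  | _ N ih =>
  intro _ hND f hf
  by_cases hf0 : f = 0
  · rw [hf0]; exact zero_mem _
  have hNN : N₀ ∣ N := newform_level_dvd hg hD hf0 (fun ℓ hℓ hℓN hℓD => by
    exact (mem_simEig _ _ _).mp hf ⟨ℓ, hℓ, hℓD⟩)
  have hL1 : N₀ * 1 ∣ N := by rw [mul_one]; exact hNN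
  set G : CuspForm (Gamma0 N) 2 := degen one_pos hL1 2 g with hG
  have hGχ : G ∈ simEig (TD hND) (nfSys D g) := by
    rw [mem_simEig]
    intro ℓ
    have h1 := degen_heckeTLin one_pos hL1 2 ℓ.2.1 (fun hh => ℓ.2.2 (hh.trans hN₀D))
      (fun hh => ℓ.2.2 (hh.trans hND)) g
    rw [eigenform_T hg.1 ℓ.2.1, map_smul] at h1
    exact h1.symm
  have hGold : G ∈ oldSpan g N := degen_mem_oldSpan g one_pos hL1
  set f' := f - qCoeff f 1 • G with hf'
  have hf'χ : f' ∈ simEig (TD hND) (nfSys D g) := sub_mem hf (Submodule.smul_mem _ _ hGχ)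
  have hf'1 : qCoeff f' 1 = 0 := by
    rw [hf', qCoeff_sub, qCoeff_smul, hG, qCoeff_degen, if_pos (one_dvd _), Nat.div_one,
      hg.1.qCoeff_one, mul_one, sub_self]
  have hf'0 : ∀ n : ℕ, n.Coprime N → qCoeff f' n = 0 := by
    refine coeff_eq_zero_of_coprime f' hD fun n hn hnD => ?_
    refine coeff_eq_zero_away (D := D) (a := fun ℓ => qCoeff g ℓ) ?_ hf'1 n hn hnD
    intro ℓ hℓ hℓN hℓD
    exact (mem_simEig _ _ _).mp hf'χ ⟨ℓ, hℓ, hℓD⟩
  have hmain := main_lemma f' hf'0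
  let ι := {p : ℕ // p.Prime ∧ p ∣ N}
  haveI hfact : ∀ p : ι, Fact ((p : ℕ) ∣ N) := fun p ↦ ⟨p.2.2⟩
  have hdvd : ∀ p : ι, N / (p : ℕ) ∣ D := fun p => (Nat.div_dvd_of_dvd p.2.2).trans hND
  let dgn : (p : ι) → CuspForm (Gamma0 (N / (p : ℕ))) 2 →ₗ[ℂ] CuspForm (Gamma0 N) 2 := fun p ↦
    degen (M := N / (p : ℕ)) (N := N) p.2.1.pos (Nat.div_mul_cancel p.2.2).dvd 2
  let Gs : (Pr D → ℂ) → Submodule ℂ (CuspForm (Gamma0 N) 2) := fun χ =>
    ⨆ p : ι, (simEig (TD (hdvd p)) χ).map (dgn p)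
  have hGs : ∀ χ, Gs χ ≤ simEig (TD hND) χ := by
    intro χ
    refine iSup_le fun p => ?_
    rintro _ ⟨h, hh, rfl⟩
    rw [mem_simEig]
    intro ℓ
    have h1 := degen_heckeTLin p.2.1.pos (Nat.div_mul_cancel p.2.2).dvd 2 ℓ.2.1
      (fun hh => ℓ.2.2 (hh.trans (hdvd p))) (fun hh => ℓ.2.2 (hh.trans hND)) h
    have h2 := (mem_simEig _ _ _).mp hh ℓ
    have h3 : CuspForm.heckeTLin 2 ℓ.2.1 (fun hh => ℓ.2.2 (hh.trans (hdvd p))) h = χ ℓ • h := h2
    rw [h3, map_smul] at h1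
    exact h1.symm
  have hmem : f' ∈ ⨆ χ, Gs χ := by
    refine (iSup_le fun p => ?_ : (⨆ p : ι, LinearMap.range (dgn p)) ≤ ⨆ χ, Gs χ) hmain
    rw [LinearMap.range_eq_map, ← iSup_simEig (hdvd p), Submodule.map_iSup]
    exact iSup_mono fun χ => le_iSup (fun p : ι => (simEig (TD (hdvd p)) χ).map (dgn p)) p
  have hkey : f' ∈ Gs (nfSys D g) := mem_of_mem_iSup _ (TD_comm hND) Gs hGs hf'χ hmem
  have hle : Gs (nfSys D g) ≤ oldSpan g N := by
    refine iSup_le fun p => ?_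
    rintro _ ⟨h, hh, rfl⟩
    have hlt : N / (p : ℕ) < N :=
      Nat.div_lt_self (Nat.pos_of_ne_zero (NeZero.ne N)) p.2.1.one_lt
    exact degen_oldSpan g _ _ (ih (N / (p : ℕ)) hlt (hdvd p) h hh)
  have hfin : f = f' + qCoeff f 1 • G := by rw [hf']; abel
  rw [hfin]
  exact add_mem (hle hkey) (Submodule.smul_mem _ _ hGold)

theorem oldSpan_le {g : CuspForm (Gamma0 N₀) 2} (hg : g.IsNewform) {D : ℕ}
    (hN₀D : N₀ ∣ D) {N : ℕ} [NeZero N] (hND : N ∣ D) :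
    oldSpan g N ≤ simEig (TD hND) (nfSys D g) := by
  refine Submodule.span_le.mpr ?_
  rintro _ ⟨d, hd, h, rfl⟩
  rw [SetLike.mem_coe, mem_simEig]
  intro ℓ
  have h1 := degen_heckeTLin hd h 2 ℓ.2.1 (fun hh => ℓ.2.2 (hh.trans hN₀D))
    (fun hh => ℓ.2.2 (hh.trans hND)) g
  rw [eigenform_T hg.1 ℓ.2.1, map_smul] at h1
  exact h1.symm

/-- the eigenspace of a newform -/
theorem simEig_eq_oldSpan {g : CuspForm (Gamma0 N₀) 2} (hg : g.IsNewform) {D : ℕ} (hD : D ≠ 0)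
    (hN₀D : N₀ ∣ D) {N : ℕ} [NeZero N] (hND : N ∣ D) :
    simEig (TD hND) (nfSys D g) = oldSpan g N :=
  le_antisymm (fun f hf => mem_oldSpan hg hD hN₀D N hND f hf) (oldSpan_le hg hN₀D hND)

/-- The family of oldforms. -/
def oldFam (g : CuspForm (Gamma0 N₀) 2) {N : ℕ} [NeZero N] (h : N₀ ∣ N)
    (d : (N / N₀).divisors) : CuspForm (Gamma0 N) 2 :=
  degen (Nat.pos_of_mem_divisors d.2) (by
    have h1 := Nat.dvd_of_mem_divisors d.2
    have h2 := Nat.mul_dvd_mul_left N₀ h1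
    rwa [Nat.mul_div_cancel' h] at h2 : N₀ * (d : ℕ) ∣ N) 2 g

theorem range_oldFam (g : CuspForm (Gamma0 N₀) 2) {N : ℕ} [NeZero N] (h : N₀ ∣ N) :
    Submodule.span ℂ (Set.range (oldFam g h)) = oldSpan g N := by
  refine le_antisymm (Submodule.span_le.mpr ?_) (Submodule.span_le.mpr ?_)
  · rintro _ ⟨d, rfl⟩
    exact degen_mem_oldSpan g _ _
  · rintro _ ⟨d, hd, h', rfl⟩
    have hmem : d ∈ (N / N₀).divisors := by
      rw [Nat.mem_divisors]
      refine ⟨?_, (Nat.div_pos (Nat.le_of_dvd (Nat.pos_of_ne_zero (NeZero.ne N)) h)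
        (Nat.pos_of_ne_zero (NeZero.ne N₀))).ne'⟩
      obtain ⟨c, hc⟩ := h'
      refine ⟨c, ?_⟩
      rw [hc, mul_assoc, Nat.mul_div_cancel_left _ (Nat.pos_of_ne_zero (NeZero.ne N₀))]
    exact Submodule.subset_span ⟨⟨d, hmem⟩, rfl⟩

theorem oldFam_linearIndependent {g : CuspForm (Gamma0 N₀) 2} (hg : qCoeff g 1 = 1) {N : ℕ}
    [NeZero N] (h : N₀ ∣ N) : LinearIndependent ℂ (oldFam g h) := by
  rw [Fintype.linearIndependent_iff]
  intro c hc
  have key : ∀ n : ℕ, ∀ d : (N / N₀).divisors, (d : ℕ) = n → c d = 0 := by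
    intro n
    induction n using Nat.strong_induction_on with
    | _ n ih =>
    intro d hd
    have h1 := congrArg (fun f : CuspForm (Gamma0 N) 2 => qCoeff f n) hc
    simp only [qCoeff_sum, qCoeff_smul, oldFam, qCoeff_degen, qCoeff_zero'] at h1
    rw [Finset.sum_eq_single d] at h1
    · rw [if_pos hd.dvd, hd, Nat.div_self (hd ▸ Nat.pos_of_mem_divisors d.2), hg, mul_one] at h1
      exact h1
    · intro e _ hed
      by_cases hen : (e : ℕ) ∣ n
      · rcases lt_or_eq_of_le (Nat.le_of_dvd (hd ▸ Nat.pos_of_mem_divisors d.2) hen) with h2 | h2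
        · rw [ih _ h2 e rfl, zero_mul]
        · exact absurd (Subtype.ext (h2.trans hd.symm)) hed
      · rw [if_neg hen, mul_zero]
    · intro h2
      exact absurd (Finset.mem_univ d) h2
  intro d
  exact key d d rfl

/-- **The multiplicity** of the system of eigenvalues of a newform of level `N₀` in
`S₂(Γ₀(N))` is the number of divisors of `N / N₀`. -/
theorem finrank_oldSpan {g : CuspForm (Gamma0 N₀) 2} (hg : g.IsNewform) {N : ℕ} [NeZero N]
    (h : N₀ ∣ N) : Module.finrank ℂ (oldSpan g N) = (N / N₀).divisors.card := by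
  rw [← range_oldFam g h, finrank_span_eq_card (oldFam_linearIndependent hg.1.qCoeff_one h),
    Fintype.card_coe]

theorem finrank_simEig {g : CuspForm (Gamma0 N₀) 2} (hg : g.IsNewform) {D : ℕ} (hD : D ≠ 0)
    (hN₀D : N₀ ∣ D) {N : ℕ} [NeZero N] (hND : N ∣ D) (h : N₀ ∣ N) :
    Module.finrank ℂ (simEig (TD (N := N) hND) (nfSys D g)) = (N / N₀).divisors.card := by
  rw [simEig_eq_oldSpan hg hD hN₀D hND, finrank_oldSpan hg h]

/-- The system of eigenvalues of a newform occurs only at multiples of its level. -/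
theorem simEig_eq_bot {g : CuspForm (Gamma0 N₀) 2} (hg : g.IsNewform) {D : ℕ} (hD : D ≠ 0)
    (_hN₀D : N₀ ∣ D) {N : ℕ} [NeZero N] (hND : N ∣ D) (h : ¬ N₀ ∣ N) :
    simEig (TD (N := N) hND) (nfSys D g) = ⊥ := by
  rw [eq_bot_iff]
  intro f hf
  rw [Submodule.mem_bot]
  by_contra hf0
  exact h (newform_level_dvd hg hD hf0 fun ℓ hℓ hℓN hℓD =>
    (mem_simEig _ _ _).mp hf ⟨ℓ, hℓ, hℓD⟩)

/-- **Oldform basis, elementary form.** -/
theorem mem_oldSpan_of_eigen {g : CuspForm (Gamma0 N₀) 2} (hg : g.IsNewform) {D : ℕ} (hD : D ≠ 0)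
    {N : ℕ} [NeZero N] (f : CuspForm (Gamma0 N) 2)
    (hf : ∀ (ℓ : ℕ) (hℓ : ℓ.Prime) (hℓN : ¬ ℓ ∣ N), ¬ ℓ ∣ D →
      CuspForm.heckeTLin 2 hℓ hℓN f = qCoeff g ℓ • f) : f ∈ oldSpan g N := by
  refine mem_oldSpan hg (D := N₀ * N * D)
    (mul_ne_zero (mul_ne_zero (NeZero.ne N₀) (NeZero.ne N)) hD)
    ((Dvd.intro _ rfl).trans (Dvd.intro _ rfl : N₀ * N ∣ N₀ * N * D)) N
    ((Dvd.intro_left _ rfl).trans (Dvd.intro _ rfl : N₀ * N ∣ N₀ * N * D)) f ?_
  rw [mem_simEig]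
  intro ℓ
  exact hf ℓ ℓ.2.1 (fun h => ℓ.2.2 (h.trans
    ((Dvd.intro_left _ rfl).trans (Dvd.intro _ rfl : N₀ * N ∣ N₀ * N * D))))
    (fun h => ℓ.2.2 (h.mul_left _))

/-- Newforms with the same eigenvalues at almost all primes are equal. -/
theorem newform_unique {N N' : ℕ} [NeZero N] [NeZero N'] {f : CuspForm (Gamma0 N) 2}
    (hf : f.IsNewform) {g : CuspForm (Gamma0 N') 2} (hg : g.IsNewform) {D : ℕ} (hD : D ≠ 0)
    (h : ∀ ℓ : ℕ, ℓ.Prime → ¬ ℓ ∣ N → ¬ ℓ ∣ N' → ¬ ℓ ∣ D → qCoeff f ℓ = qCoeff g ℓ) :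
    N = N' ∧ (f : ℍ → ℂ) = g := by
  have hNN' := newform_level_eq hf hg hD h
  refine ⟨hNN', ?_⟩
  subst hNN'
  have h1 := strong_multiplicity_one hf hD g (fun ℓ hℓ hℓN hℓD => by
    rw [eigenform_T hg.1 hℓ hℓN, h ℓ hℓ hℓN hℓN hℓD])
  rw [hg.1.qCoeff_one, one_smul] at h1
  rw [h1]

end Fermat.Agent.AL
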