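import Mathlib
import Fermat.Agent.AL.OldBasis
import Fermat.Agent.H24H.Gpart

/-!
# Counting oldforms
-/

set_option autoImplicit false
set_option linter.style.haveILetI false

noncomputable section

namespace Fermat.Agent.AL

open CongruenceSubgroup
open Fermat.Agent.TC
open Fermat.Agent.H24H (gpart gsp)
open ModularFormClass (qCoeff)

section Abstract

variable {K V ι κ : Type*} [Field K] [AddCommGroup V] [Module K V]

theorem mem_of_indep {E : κ → Submodule K V} (hE : iSupIndep E) {G : κ → Submodule K V}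
    (hG : ∀ χ, G χ ≤ E χ) {χ : κ} {v : V} (hv : v ∈ E χ) (hv' : v ∈ ⨆ χ, G χ) : v ∈ G χ := by
  rw [iSup_split_single G χ, Submodule.mem_sup] at hv'
  obtain ⟨x, hx, y, hy, rfl⟩ := hv'
  have h1 : y ∈ E χ := by
    have := (E χ).sub_mem hv (hG χ hx)
    rwa [add_sub_cancel_left] at this
  have h2 : y ∈ ⨆ (χ') (_ : χ' ≠ χ), E χ' := (iSup₂_mono fun χ' _ => hG χ') hy
  have h3 := (Submodule.disjoint_def.mp (hE χ)) y h1 h2
  rw [h3, add_zero]
  exact hx

theorem finrank_iSup_of_indep [Fintype κ] [FiniteDimensional K V] {E : κ → Submodule K V}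
    (hE : iSupIndep E) : Module.finrank K (⨆ i, E i : Submodule K V) =
      ∑ i, Module.finrank K (E i) := by
  classical
  have h1 : ⨆ i, E i = LinearMap.range (DFinsupp.lsum ℕ fun i => (E i).subtype) :=
    Submodule.iSup_eq_range_dfinsupp_lsum E
  rw [h1, LinearMap.finrank_range_of_inj hE.dfinsupp_lsum_injective]
  exact Module.finrank_directSum (R := K) (M := fun i => E i)

theorem iInf_maxGen_eq_simEig {V : Type*} [AddCommGroup V] [Module ℂ V] {ι : Type*}
    (T : ι → Module.End ℂ V) (hT : ∀ i j, Commute (T i) (T j))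
    (htop : ⨆ χ, simEig T χ = ⊤) (χ : ι → ℂ) : gsp T χ = simEig T χ := by
  rw [gsp]
  refine le_antisymm (fun v hv => ?_) (iInf_mono fun i =>
    Module.End.eigenspace_le_maxGenEigenspace)
  have hind := Module.End.independent_iInf_maxGenEigenspace_of_forall_mapsTo T
    (fun i j φ => Module.End.mapsTo_maxGenEigenspace_of_comm (hT j i) φ)
  refine mem_of_indep hind (G := simEig T) (fun χ => iInf_mono fun i =>
    Module.End.eigenspace_le_maxGenEigenspace) hv ?_
  rw [htop]
  exact Submodule.mem_top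

end Abstract

variable {D : ℕ}

/-- The newforms of level `L` with system of eigenvalues in `Lam`. -/
abbrev NF (D L : ℕ) (Lam : Set (Pr D → ℂ)) : Type :=
  {g : CuspForm (Gamma0 L) 2 // g.IsNewform ∧ nfSys D g ∈ Lam}

/-- **The oldform count.** -/
theorem finrank_gpart (hD : D ≠ 0) {L : ℕ} [NeZero L] (hLD : L ∣ D) (Lam : Set (Pr D → ℂ)) :
    Module.finrank ℂ (gpart (TD (N := L) hLD) Lam) =
      ∑ L' ∈ L.divisors, (L / L').divisors.card * Nat.card (NF D L' Lam) := by
  classical
  haveI := H22.finiteDimensional_cuspForm L 2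
  -- the index set
  let X := Σ L' : L.divisors, NF D L' Lam
  have hX0 : ∀ x : X, ((x.1 : L.divisors) : ℕ) ∣ L := fun x => Nat.dvd_of_mem_divisors x.1.2
  haveI hXn : ∀ x : X, NeZero ((x.1 : L.divisors) : ℕ) := fun x =>
    ⟨(Nat.pos_of_mem_divisors x.1.2).ne'⟩
  let sys : X → (Pr D → ℂ) := fun x => nfSys D x.2.1
  have hsys : Function.Injective sys := by
    rintro ⟨⟨L1, h1⟩, g1, hg1, hl1⟩ ⟨⟨L2, h2⟩, g2, hg2, hl2⟩ h
    haveI : NeZero L1 := ⟨(Nat.pos_of_mem_divisors h1).ne'⟩
    haveI : NeZero L2 := ⟨(Nat.pos_of_mem_divisors h2).ne'⟩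
    have h3 : nfSys D g1 = nfSys D g2 := h
    obtain ⟨h4, h5⟩ := newform_unique hg1 hg2 hD (fun ℓ hℓ _ _ hℓD =>
      congrFun h3 ⟨ℓ, hℓ, hℓD⟩)
    subst h4
    have h6 : g1 = g2 := DFunLike.coe_injective h5
    subst h6
    rfl
  have hmem : ∀ x : X, sys x ∈ Lam := fun x => x.2.2.2
  have hne : ∀ x : X, simEig (TD (N := L) hLD) (sys x) ≠ ⊥ := by
    intro x hbot
    haveI := hXn x
    have hL1 : ((x.1 : L.divisors) : ℕ) * 1 ∣ L := by rw [mul_one]; exact hX0 x
    have h1 := oldSpan_le x.2.2.1 ((hX0 x).trans hLD) hLD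
      (degen_mem_oldSpan x.2.1 one_pos hL1)
    have h2 : degen one_pos hL1 2 x.2.1 = 0 := by
      rw [← Submodule.mem_bot (R := ℂ), ← hbot]
      exact h1
    have h3 := congrArg (fun f : CuspForm (Gamma0 L) 2 => qCoeff f 1) h2
    simp only [qCoeff_degen, qCoeff_zero'] at h3
    rw [if_pos (one_dvd _), Nat.div_one, x.2.2.1.1.qCoeff_one] at h3
    exact one_ne_zero h3
  have hfin : Finite X := by
    have h1 : {χ | simEig (TD (N := L) hLD) χ ≠ ⊥}.Finite :=
      WellFoundedGT.finite_ne_bot_of_iSupIndep (simEig_indep _ (TD_comm hLD))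
    haveI := h1.to_subtype
    exact Finite.of_injective (fun x : X => (⟨sys x, hne x⟩ :
      {χ | simEig (TD (N := L) hLD) χ ≠ ⊥})) (fun x y h => hsys (congrArg Subtype.val h))
  haveI : Fintype X := Fintype.ofFinite X
  have hgp : gpart (TD (N := L) hLD) Lam = ⨆ x : X, simEig (TD (N := L) hLD) (sys x) := by
    refine le_antisymm (iSup₂_le fun χ hχ => ?_) (iSup_le fun x => ?_)
    · rw [iInf_maxGen_eq_simEig _ (TD_comm hLD) (iSup_simEig hLD)]
      by_cases hb : simEig (TD (N := L) hLD) χ = ⊥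
      · rw [hb]; exact bot_le
      · obtain ⟨f, hf, hf0⟩ := Submodule.exists_mem_ne_zero_of_ne_bot hb
        obtain ⟨L', hL', g, h1, h2, h3⟩ := exists_newform hD χ L hLD f hf0 hf
        have h4 : nfSys D g = χ := funext h3
        have h5 : χ = sys ⟨⟨L', Nat.mem_divisors.mpr ⟨h1, NeZero.ne L⟩⟩, g, h2, by
          rw [h4]; exact hχ⟩ := h4.symm
        rw [h5]
        exact le_iSup (fun x : X => simEig (TD (N := L) hLD) (sys x)) _
    · refine le_trans ?_ (le_iSup₂ (f := fun χ (_ : χ ∈ Lam) =>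
        gsp (TD (N := L) hLD) χ) (sys x) (hmem x))
      rw [iInf_maxGen_eq_simEig _ (TD_comm hLD) (iSup_simEig hLD)]
  have hindX : iSupIndep (fun x : X => simEig (TD (N := L) hLD) (sys x)) :=
    (simEig_indep _ (TD_comm hLD)).comp hsys
  rw [hgp, finrank_iSup_of_indep hindX]
  have hrank : ∀ x : X, Module.finrank ℂ (simEig (TD (N := L) hLD) (sys x)) =
      (L / ((x.1 : L.divisors) : ℕ)).divisors.card := by
    intro x
    haveI := hXn x
    exact finrank_simEig x.2.2.1 hD ((hX0 x).trans hLD) hLD (hX0 x)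
  rw [Finset.sum_congr rfl fun x _ => hrank x, ← Finset.sum_coe_sort L.divisors]
  have hfib : ∀ L' : L.divisors, Finite (NF D L' Lam) := fun L' =>
    Finite.of_injective (fun g => (⟨L', g⟩ : X)) (fun a b h => by
      have := eq_of_heq (Sigma.mk.inj h).2
      exact this)
  haveI : ∀ L' : L.divisors, Fintype (NF D L' Lam) := fun L' => Fintype.ofFinite _
  have e1 := Fintype.sum_sigma (fun x : X => (L / ((x.1 : L.divisors) : ℕ)).divisors.card)
  have e2 : (∑ x : X, (L / ((x.1 : L.divisors) : ℕ)).divisors.card) =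
      ∑ L' : L.divisors, ∑ _g : NF D L' Lam, (L / (L' : ℕ)).divisors.card := by
    rw [← e1]
    exact Finset.sum_congr (by ext; simp) fun _ _ => rfl
  rw [e2]
  refine Finset.sum_congr rfl fun L' _ => ?_
  rw [Finset.sum_const, Finset.card_univ, smul_eq_mul, mul_comm, Nat.card_eq_fintype_card]

theorem card_divisors_squarefree {n : ℕ} (hn : Squarefree n) :
    n.divisors.card = 2 ^ n.primeFactors.card := by
  rw [Nat.card_divisors hn.ne_zero]
  rw [Finset.prod_congr rfl (g := fun _ => 2) (fun p hp => by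
    have h1 := (Nat.squarefree_iff_factorization_le_one hn.ne_zero).mp hn p
    have h2 := (Nat.prime_of_mem_primeFactors hp).dvd_iff_one_le_factorization hn.ne_zero
    have h3 := h2.mp (Nat.dvd_of_mem_primeFactors hp)
    omega)]
  rw [Finset.prod_const]

/-- **(He)** The oldform count at squarefree level. -/
theorem finrank_gpart_squarefree (hD : D ≠ 0) {L : ℕ} [NeZero L] (hL : Squarefree L) (hLD : L ∣ D)
    (Lam : Set (Pr D → ℂ)) :
    Module.finrank ℂ (gpart (TD (N := L) hLD) Lam) =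
      ∑ L' ∈ L.divisors, 2 ^ (L / L').primeFactors.card * Nat.card (NF D L' Lam) := by
  rw [finrank_gpart hD hLD Lam]
  refine Finset.sum_congr rfl fun L' hL' => ?_
  rw [card_divisors_squarefree]
  obtain ⟨c, hc⟩ := Nat.dvd_of_mem_divisors hL'
  have hpos := Nat.pos_of_mem_divisors hL'
  have h1 : L / L' = c := by rw [hc, Nat.mul_div_cancel_left _ hpos]
  rw [h1]
  exact hL.squarefree_of_dvd ⟨L', by rw [hc, mul_comm]⟩

/-- the newforms of a given level with system in `Lam` are finite in number -/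
theorem finite_NF (hD : D ≠ 0) {L : ℕ} [NeZero L] (hLD : L ∣ D) (Lam : Set (Pr D → ℂ)) :
    Finite (NF D L Lam) := by
  classical
  haveI := H22.finiteDimensional_cuspForm L 2
  have h1 : {χ | simEig (TD (N := L) hLD) χ ≠ ⊥}.Finite :=
    WellFoundedGT.finite_ne_bot_of_iSupIndep (simEig_indep _ (TD_comm hLD))
  haveI := h1.to_subtype
  refine Finite.of_injective (fun x : NF D L Lam => (⟨nfSys D x.1, ?_⟩ :
      {χ | simEig (TD (N := L) hLD) χ ≠ ⊥})) (fun x y h => ?_)
  · intro hbot
    have h2 : x.1 ∈ simEig (TD (N := L) hLD) (nfSys D x.1) := by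
      rw [mem_simEig]
      intro ℓ
      exact eigenform_T x.2.1.1 ℓ.2.1 _
    rw [hbot, Submodule.mem_bot] at h2
    exact x.2.1.ne_zero h2
  · have h3 : nfSys D x.1 = nfSys D y.1 := congrArg Subtype.val h
    obtain ⟨-, h5⟩ := newform_unique x.2.1 y.2.1 hD (fun ℓ hℓ _ _ hℓD =>
      congrFun h3 ⟨ℓ, hℓ, hℓD⟩)
    exact Subtype.ext (DFunLike.coe_injective h5)

end Fermat.Agent.AL
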